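/-
MLT (project S59) / [L2-JL], case (γ), abstract core of ingredient (b) of helper9's (STRIP₀) (helper6): **the
characteristic polynomial commutes with reduction** when the residue degree equals the degree.

`(F, O) ⊂ (F', O')` an extension of valued fields with residue maps `r : O → E`, `r' : O' → E'` as in
`DlhRedExt` (`Lib/Delta/Hecke/NormRed.lean`, helper3), `[E' : E] = [F' : F] < ∞`.  Then for `x ∈ O'` the
characteristic polynomial of the multiplication by `x` on `F' / F` has its coefficients in `O` and reduces to the
characteristic polynomial of the multiplication by `r' x` on `E' / E` (the norm is the case of the constant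
coefficient: `DlhRedExt.norm_red`).

* `mltc_redExt_matrix`         : a matrix `M` over `O` representing `x` in a lifted basis and `r' x` in the basis;
* `mltc_redExt_charpoly`       : `∃ P : O[X], P ↦ charpoly_{F'/F}(x)`, `P ↦ charpoly_{E'/E}(r' x)`;
* `mltc_redExt_charpoly_coeff` : coefficientwise form.
-/
import Mathlib
import Fermat.Agent.Lib.Delta.Hecke.NormRed

set_option autoImplicit false
set_option linter.unusedSectionVars false
set_option linter.unusedVariables false
set_option linter.style.haveILetI false

namespace Fermat.Agent.MLT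

open Module Polynomial Fermat.Agent.Delta

variable {F F' E E' : Type*} [Field F] [Field F'] [Field E] [Field E'] [Algebra F F']
  [Algebra E E'] {O : Subring F} {O' : Subring F'} {r : ↥O →+* E} {r' : ↥O' →+* E'}

/-- the matrix of the multiplication by `x ∈ O'` in a lift of a basis of `E' / E` has entries in `O` and reduces
to the matrix of the multiplication by `r' x` -/
theorem mltc_redExt_matrix (d : DlhRedExt O O' r r') [FiniteDimensional E E']
    (hdeg : finrank F F' = finrank E E') (x : ↥O') :
    ∃ (B : Basis (Fin (finrank E E')) F F') (bb : Basis (Fin (finrank E E')) E E')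
      (M : Matrix (Fin (finrank E E')) (Fin (finrank E E')) ↥O),
      Algebra.leftMulMatrix B (x : F') = M.map O.subtype ∧
      Algebra.leftMulMatrix bb (r' x) = M.map r := by
  classical
  set n := finrank E E' with hn
  let bb : Basis (Fin n) E E' := Module.finBasis E E'
  choose b hb using fun i => d.surj' (bb i)
  have hbb : (fun i => r' (b i)) = bb := funext hb
  have hli : LinearIndependent E (fun i => r' (b i)) := by
    rw [hbb]; exact bb.linearIndependent
  have hliF := d.linearIndependent_lift b hli
  haveI : Nonempty (Fin n) := ⟨⟨0, Module.finrank_pos⟩⟩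
  let B : Basis (Fin n) F F' := basisOfLinearIndependentOfCardEqFinrank hliF (by
    rw [Fintype.card_fin, hdeg])
  have hB : ∀ i, B i = ((b i : ↥O') : F') := fun i => by
    rw [coe_basisOfLinearIndependentOfCardEqFinrank]
  -- the matrix of multiplication by `x` has entries in `O`
  have hM : ∀ i j, Algebra.leftMulMatrix B (x : F') i j ∈ O := by
    intro i j
    have h1 : ∑ i, Algebra.leftMulMatrix B (x : F') i j • ((b i : ↥O') : F') =
        ((x * b j : ↥O') : F') := by
      simp only [Algebra.leftMulMatrix_eq_repr_mul, ← hB]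
      rw [B.sum_repr, hB, Subring.coe_mul]
    exact d.orth b hli _ _ h1 i
  let M : Matrix (Fin n) (Fin n) ↥O := fun i j => ⟨_, hM i j⟩
  have hMF : Algebra.leftMulMatrix B (x : F') = M.map O.subtype := by
    ext i j; rfl
  refine ⟨B, bb, M, hMF, ?_⟩
  ext i j
  rw [Matrix.map_apply, Algebra.leftMulMatrix_eq_repr_mul]
  -- reduce the relation `x * b j = ∑ M i j * b i`
  have h3 : x * b j = ∑ i, (⟨algebraMap F F' ((M i j : ↥O) : F), d.map_mem (M i j)⟩ : ↥O') * b i := by
    apply Subtype.ext
    simp only [AddSubmonoidClass.coe_finsetSum, Subring.coe_mul]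
    have h4 : ∑ i, Algebra.leftMulMatrix B (x : F') i j • B i = (x : F') * B j := by
      simp only [Algebra.leftMulMatrix_eq_repr_mul]
      rw [B.sum_repr]
    rw [hB] at h4
    rw [← h4]
    refine Finset.sum_congr rfl (fun i _ => ?_)
    rw [Algebra.smul_def, hB]
  have h5 := congrArg r' h3
  rw [map_mul, map_sum, hb] at h5
  have h6 : ∑ i, r' ((⟨algebraMap F F' ((M i j : ↥O) : F), d.map_mem (M i j)⟩ : ↥O') * b i) =
      ∑ i, r (M i j) • bb i := by
    refine Finset.sum_congr rfl (fun i _ => ?_)
    rw [map_mul, d.comp (M i j), hb, Algebra.smul_def]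
  rw [h5, h6, bb.repr_sum_self]

/-- **the characteristic polynomial commutes with reduction** -/
theorem mltc_redExt_charpoly (d : DlhRedExt O O' r r') [FiniteDimensional F F']
    [FiniteDimensional E E'] (hdeg : finrank F F' = finrank E E') (x : ↥O') :
    ∃ P : (↥O)[X], P.Monic ∧ P.natDegree = finrank E E' ∧
      P.map O.subtype = (LinearMap.mulLeft F (x : F')).charpoly ∧
      P.map r = (LinearMap.mulLeft E (r' x)).charpoly := by
  classical
  obtain ⟨B, bb, M, hMF, hME⟩ := mltc_redExt_matrix d hdeg x
  refine ⟨M.charpoly, M.charpoly_monic, ?_, ?_, ?_⟩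
  · rw [Matrix.charpoly_natDegree_eq_dim, Fintype.card_fin]
  · rw [← Matrix.charpoly_map, ← hMF, Algebra.leftMulMatrix_apply, LinearMap.charpoly_toMatrix]
    rfl
  · rw [← Matrix.charpoly_map, ← hME, Algebra.leftMulMatrix_apply, LinearMap.charpoly_toMatrix]
    rfl

/-- coefficientwise: the coefficients of the characteristic polynomial of `x ∈ O'` lie in `O` and reduce to the
coefficients of the characteristic polynomial of `r' x` -/
theorem mltc_redExt_charpoly_coeff (d : DlhRedExt O O' r r') [FiniteDimensional F F']
    [FiniteDimensional E E'] (hdeg : finrank F F' = finrank E E') (x : ↥O') (k : ℕ) :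
    ∃ h : (LinearMap.mulLeft F (x : F')).charpoly.coeff k ∈ O,
      r ⟨_, h⟩ = (LinearMap.mulLeft E (r' x)).charpoly.coeff k := by
  obtain ⟨P, -, -, hPF, hPE⟩ := mltc_redExt_charpoly d hdeg x
  have h1 : (LinearMap.mulLeft F (x : F')).charpoly.coeff k = ((P.coeff k : ↥O) : F) := by
    rw [← hPF, Polynomial.coeff_map]
    rfl
  refine ⟨h1 ▸ (P.coeff k).2, ?_⟩
  have h2 : (⟨(LinearMap.mulLeft F (x : F')).charpoly.coeff k, h1 ▸ (P.coeff k).2⟩ : ↥O)
      = P.coeff k := Subtype.ext h1
  rw [h2, ← hPE, Polynomial.coeff_map]

end Fermat.Agent.MLT
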