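/-
MLT (project S59) / [L2-JL], case (γ), ingredient (b) of helper9's (STRIP₀) (helper6): **the characteristic
polynomial along `A_e : F_L(N' q q) → F_L(N' e q q)` commutes with the three residue maps**, `e ≥ 1` ARBITRARY
(`e = 9`, `e = 3`, `3 ∣ N'` allowed).

Generic level (an unramified DVR level `(L, O)` with residue field `k` of characteristic `q`, `q ∤ N' e`):
* `mltc_finrank_A_mul`      : `ψ(N') · [F_{N' e q q} : A F_{N' q q}] = ψ(N' e)`;
* `mltc_finrank_alphaC_mul` : `ψ(N) · [F̄_{N e} : ᾱ F̄_N] = ψ(N e)` (any alg. closed `k`, `N e` invertible in `k`);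
* `mltc_finrank_A_eq`       : the two degrees are equal;
* `mltc_finite_A`, `mltc_finite_alphaC` : both extensions are finite;
* `mltc_charRed_inf/_mid/_zero` : for `x ∈ O'_*` the coefficients of the characteristic polynomial of `x` over
  `A F_{N' q q}` lie in `O_*` and their residues are the coefficients of the characteristic polynomial of
  `ρ'_* x` over `ᾱ F̄_{N'}` (`mltc_redExt_charpoly_coeff` applied to helper7's `mltl2h_redExt_inf/mid/zero`).
-/
import Mathlib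
import Fermat.Agent.Lib.MLT.L2.HkRedExt
import Fermat.Agent.Lib.MLT.L2.HkDeg
import Fermat.Agent.Lib.MLT.L2.Two.CharpolyRed
import Fermat.Agent.Lib.T1.GoodRed.BarDegree

set_option autoImplicit false
set_option linter.unusedSectionVars false
set_option linter.unusedVariables false
set_option linter.style.haveILetI false
set_option synthInstance.maxHeartbeats 400000

open HahnSeries ModularCurve Fermat.Agent.T1 Fermat.Agent.T2 Fermat.Agent.T4 Fermat.Agent.Delta
  IntermediateField Module AlgebraicCurve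

noncomputable section

namespace Fermat.Agent.MLT

/-! ### The residue side -/

/-- **`ψ(N) · [F̄_{N e} : ᾱ F̄_N] = ψ(N e)`** at every level, `e ≥ 1` arbitrary -/
theorem mltc_finrank_alphaC_mul (k : Type*) [Field k] [IsAlgClosed k] (N e : ℕ) [NeZero N]
    [NeZero e] (hN : (N : k) ≠ 0) (hNe : ((N * e : ℕ) : k) ≠ 0) :
    dedekindPsi N *
      @finrank ↥(modularFunctionFieldFullC k N) ↥(modularFunctionFieldFullC k (N * e)) _ _
        (algebraAlong (dlhAlphaC k N e)).toModule = dedekindPsi (N * e) := by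
  have h1 := dlh_finrank_tower (dlhAlphaC k N e) (taBarJ k N)
  have h2 : dlhAlphaC k N e (taBarJ k N) = taBarJ k (N * e) :=
    Subtype.ext (coe_dlhAlphaC k N e _)
  rw [h2, ta_bar_finrank k N hN, ta_bar_finrank k (N * e) hNe] at h1
  exact h1

theorem mltc_finite_alphaC (k : Type*) [Field k] [IsAlgClosed k] (N e : ℕ) [NeZero N]
    [NeZero e] (hN : (N : k) ≠ 0) (hNe : ((N * e : ℕ) : k) ≠ 0) :
    @FiniteDimensional ↥(modularFunctionFieldFullC k N) ↥(modularFunctionFieldFullC k (N * e)) _ _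
      (algebraAlong (dlhAlphaC k N e)).toModule := by
  letI := algebraAlong (dlhAlphaC k N e)
  apply FiniteDimensional.of_finrank_pos
  have h := mltc_finrank_alphaC_mul k N e hN hNe
  have hpos : 0 < dedekindPsi (N * e) := Fermat.Agent.Igusa.igPsi_pos (NeZero.ne (N * e))
  rcases Nat.eq_zero_or_pos (finrank ↥(modularFunctionFieldFullC k N)
    ↥(modularFunctionFieldFullC k (N * e))) with h0 | h0
  · rw [h0, mul_zero] at h
    omega
  · exact h0

/-! ### The generic level -/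

section Two

variable {L : Type} [Field L] [Algebra ℚ L] (O : ValuationSubring L) {k : Type} [Field k]
  (π : ↥O →+* k) [IsDiscreteValuationRing ↥O] (hπ : Function.Surjective π) [IsAlgClosed k]
  {N' q ℓ : ℕ} [NeZero N'] [hq : Fact q.Prime] [NeZero ℓ] [CharP k q]
  (hN' : (N' : k) ≠ 0) (hN'ℓ : ((N' * ℓ : ℕ) : k) ≠ 0)
  (W1 : T2iAL L N' q) (Fr : T2iFrob k N' q) (W : T4iAL L N' q)
  (W1' : T2iAL L (N' * ℓ) q) (Fr' : T2iFrob k (N' * ℓ) q) (W' : T4iAL L (N' * ℓ) q)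
  (hqO : Irreducible ((q : ℕ) : ↥O))
  {L' : Type*} [Field L'] [Algebra L L'] (O' : ValuationSubring L')
  [IsDiscreteValuationRing ↥O'] (π' : ↥O' →+* k) (C : T4iCyc O O' π π' q)
  (M : T4iMid L L' N' q C.ζ) (M' : T4iMid L L' (N' * ℓ) q C.ζ)

attribute [local instance] t2iAlgebra t2i_isScalarTower

include O π hπ hN' hN'ℓ W1 Fr W W1' Fr' W' hqO O' π' C M M' in
/-- **`ψ(N') · [F_{N' ℓ q q} : A F_{N' q q}] = ψ(N' ℓ)`**, `ℓ ≥ 1` arbitrary -/
theorem mltc_finrank_A_mul :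
    dedekindPsi N' *
      @Module.finrank ↥(TaF L (N' * q * q)) ↥(TaF L (N' * ℓ * q * q)) _ _
        (mltl2hA L N' q ℓ).toRingHom.toAlgebra.toModule = dedekindPsi (N' * ℓ) := by
  have h1 := ta_finrank_tower (mltl2hA L N' q ℓ) (taJ (L := L) (N' * q * q))
  rw [mltl2hA_taJ] at h1
  have h2 := mltl2h_finrank_base O π hπ hN' W1 Fr W hqO O' π' C M
  have h3 := mltl2h_finrank_base O π hπ (N' := N' * ℓ)
    (by exact_mod_cast hN'ℓ) W1' Fr' W' hqO O' π' C M'
  rw [h2, h3] at h1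
  have h6 : 0 < (q + 1) * q := Nat.mul_pos (Nat.succ_pos q) hq.out.pos
  have h7 : (q + 1) * q * dedekindPsi (N' * ℓ) =
      (q + 1) * q * (dedekindPsi N' *
        @Module.finrank ↥(TaF L (N' * q * q)) ↥(TaF L (N' * ℓ * q * q)) _ _
          (mltl2hA L N' q ℓ).toRingHom.toAlgebra.toModule) := by
    have h8 : dedekindPsi (N' * ℓ) * (q + 1) * q = (q + 1) * q * dedekindPsi (N' * ℓ) := by ring
    rw [← h8, h1]
    ring
  exact (Nat.eq_of_mul_eq_mul_left h6 h7).symm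

include O π hπ hN' hN'ℓ W1 Fr W W1' Fr' W' hqO O' π' C M M' in
/-- **the degree along `A_ℓ` equals the degree along `ᾱ_ℓ`** -/
theorem mltc_finrank_A_eq :
    @Module.finrank ↥(TaF L (N' * q * q)) ↥(TaF L (N' * ℓ * q * q)) _ _
        (mltl2hA L N' q ℓ).toRingHom.toAlgebra.toModule =
      @finrank ↥(modularFunctionFieldFullC k N') ↥(modularFunctionFieldFullC k (N' * ℓ)) _ _
        (algebraAlong (dlhAlphaC k N' ℓ)).toModule := by
  have h1 := mltc_finrank_A_mul O π hπ hN' hN'ℓ W1 Fr W W1' Fr' W' hqO O' π' C M M'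
  have h2 := mltc_finrank_alphaC_mul k N' ℓ hN' hN'ℓ
  have hpos : 0 < dedekindPsi N' := Fermat.Agent.Igusa.igPsi_pos (NeZero.ne N')
  exact Nat.eq_of_mul_eq_mul_left hpos (h1.trans h2.symm)

include O π hπ hN' hN'ℓ W1 Fr W W1' Fr' W' hqO O' π' C M M' in
theorem mltc_finite_A :
    @FiniteDimensional ↥(TaF L (N' * q * q)) ↥(TaF L (N' * ℓ * q * q)) _ _
      (mltl2hA L N' q ℓ).toRingHom.toAlgebra.toModule := by
  letI : Algebra ↥(TaF L (N' * q * q)) ↥(TaF L (N' * ℓ * q * q)) :=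
    (mltl2hA L N' q ℓ).toRingHom.toAlgebra
  apply FiniteDimensional.of_finrank_pos
  have h := mltc_finrank_A_mul O π hπ hN' hN'ℓ W1 Fr W W1' Fr' W' hqO O' π' C M M'
  have hpos : 0 < dedekindPsi (N' * ℓ) := Fermat.Agent.Igusa.igPsi_pos (NeZero.ne (N' * ℓ))
  rcases Nat.eq_zero_or_pos (Module.finrank ↥(TaF L (N' * q * q))
    ↥(TaF L (N' * ℓ * q * q))) with h0 | h0
  · rw [h0, mul_zero] at h
    omega
  · exact h0

/-! #### The three reductions of the characteristic polynomial -/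

include hN' hN'ℓ W1 Fr W W1' Fr' W' hqO O' π' C M M' in
/-- **the characteristic polynomial along `A_ℓ` commutes with `ρ_inf`** -/
theorem mltc_charRed_inf (x : ↥(t4vOinf (N' := N' * ℓ) (q := q) O π hπ).toSubring) (n : ℕ) :
    letI : Algebra ↥(TaF L (N' * q * q)) ↥(TaF L (N' * ℓ * q * q)) :=
      (mltl2hA L N' q ℓ).toRingHom.toAlgebra
    letI := algebraAlong (dlhAlphaC k N' ℓ)
    haveI := mltc_finite_A O π hπ hN' hN'ℓ W1 Fr W W1' Fr' W' hqO O' π' C M M'
    haveI := mltc_finite_alphaC k N' ℓ hN' hN'ℓ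
    ∃ h : (LinearMap.mulLeft ↥(TaF L (N' * q * q))
        (x : ↥(TaF L (N' * ℓ * q * q)))).charpoly.coeff n ∈
          (t4vOinf (N' := N') (q := q) O π hπ).toSubring,
      mltl2hRinf O π hπ hN' W1 Fr W hqO O' π' C M ⟨_, h⟩ =
        (LinearMap.mulLeft ↥(modularFunctionFieldFullC k N')
          (mltl2hRinf O π hπ hN'ℓ W1' Fr' W' hqO O' π' C M' x)).charpoly.coeff n := by
  letI : Algebra ↥(TaF L (N' * q * q)) ↥(TaF L (N' * ℓ * q * q)) :=
    (mltl2hA L N' q ℓ).toRingHom.toAlgebra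
  letI := algebraAlong (dlhAlphaC k N' ℓ)
  haveI := mltc_finite_A O π hπ hN' hN'ℓ W1 Fr W W1' Fr' W' hqO O' π' C M M'
  haveI := mltc_finite_alphaC k N' ℓ hN' hN'ℓ
  exact mltc_redExt_charpoly_coeff
    (mltl2h_redExt_inf O π hπ hN' hN'ℓ W1 Fr W W1' Fr' W' hqO O' π' C M M')
    (mltc_finrank_A_eq O π hπ hN' hN'ℓ W1 Fr W W1' Fr' W' hqO O' π' C M M') x n

include hN' hN'ℓ W1 Fr W W1' Fr' W' hqO in
/-- **the characteristic polynomial along `A_ℓ` commutes with `ρ_mid`** -/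
theorem mltc_charRed_mid (x : ↥(t4vOmid O π hπ O' π' C M').toSubring) (n : ℕ) :
    letI : Algebra ↥(TaF L (N' * q * q)) ↥(TaF L (N' * ℓ * q * q)) :=
      (mltl2hA L N' q ℓ).toRingHom.toAlgebra
    letI := algebraAlong (dlhAlphaC k N' ℓ)
    haveI := mltc_finite_A O π hπ hN' hN'ℓ W1 Fr W W1' Fr' W' hqO O' π' C M M'
    haveI := mltc_finite_alphaC k N' ℓ hN' hN'ℓ
    ∃ h : (LinearMap.mulLeft ↥(TaF L (N' * q * q))
        (x : ↥(TaF L (N' * ℓ * q * q)))).charpoly.coeff n ∈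
          (t4vOmid O π hπ O' π' C M).toSubring,
      mltl2hRmid O π hπ hN' W1 Fr W hqO O' π' C M ⟨_, h⟩ =
        (LinearMap.mulLeft ↥(modularFunctionFieldFullC k N')
          (mltl2hRmid O π hπ hN'ℓ W1' Fr' W' hqO O' π' C M' x)).charpoly.coeff n := by
  letI : Algebra ↥(TaF L (N' * q * q)) ↥(TaF L (N' * ℓ * q * q)) :=
    (mltl2hA L N' q ℓ).toRingHom.toAlgebra
  letI := algebraAlong (dlhAlphaC k N' ℓ)
  haveI := mltc_finite_A O π hπ hN' hN'ℓ W1 Fr W W1' Fr' W' hqO O' π' C M M'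
  haveI := mltc_finite_alphaC k N' ℓ hN' hN'ℓ
  exact mltc_redExt_charpoly_coeff
    (mltl2h_redExt_mid O π hπ hN' hN'ℓ W1 Fr W W1' Fr' W' hqO O' π' C M M')
    (mltc_finrank_A_eq O π hπ hN' hN'ℓ W1 Fr W W1' Fr' W' hqO O' π' C M M') x n

include hN' hN'ℓ W1 Fr W1' Fr' hqO O' π' C M M' in
/-- **the characteristic polynomial along `A_ℓ` commutes with `ρ_0`** -/
theorem mltc_charRed_zero (x : ↥(t4vO0 O π hπ W').toSubring) (n : ℕ) :
    letI : Algebra ↥(TaF L (N' * q * q)) ↥(TaF L (N' * ℓ * q * q)) :=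
      (mltl2hA L N' q ℓ).toRingHom.toAlgebra
    letI := algebraAlong (dlhAlphaC k N' ℓ)
    haveI := mltc_finite_A O π hπ hN' hN'ℓ W1 Fr W W1' Fr' W' hqO O' π' C M M'
    haveI := mltc_finite_alphaC k N' ℓ hN' hN'ℓ
    ∃ h : (LinearMap.mulLeft ↥(TaF L (N' * q * q))
        (x : ↥(TaF L (N' * ℓ * q * q)))).charpoly.coeff n ∈ (t4vO0 O π hπ W).toSubring,
      mltl2hR0 O π hπ hN' W1 Fr W hqO O' π' C M ⟨_, h⟩ =
        (LinearMap.mulLeft ↥(modularFunctionFieldFullC k N')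
          (mltl2hR0 O π hπ hN'ℓ W1' Fr' W' hqO O' π' C M' x)).charpoly.coeff n := by
  letI : Algebra ↥(TaF L (N' * q * q)) ↥(TaF L (N' * ℓ * q * q)) :=
    (mltl2hA L N' q ℓ).toRingHom.toAlgebra
  letI := algebraAlong (dlhAlphaC k N' ℓ)
  haveI := mltc_finite_A O π hπ hN' hN'ℓ W1 Fr W W1' Fr' W' hqO O' π' C M M'
  haveI := mltc_finite_alphaC k N' ℓ hN' hN'ℓ
  exact mltc_redExt_charpoly_coeff
    (mltl2h_redExt_zero O π hπ hN' hN'ℓ W1 Fr W W1' Fr' W' hqO O' π' C M M')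
    (mltc_finrank_A_eq O π hπ hN' hN'ℓ W1 Fr W W1' Fr' W' hqO O' π' C M M') x n

end Two

end Fermat.Agent.MLT
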