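/-
MLT (project S59) / [L2-JL], case (γ), ingredient (b) of helper9's (STRIP₀) (helper6), **inertia level**: the
characteristic polynomial along `A_e : F_L(K q q) → F_L(K e q q)`, `L = ℚ̄^I = tbFix 𝔓 ⊤`, `q = 𝔓.p`, `e ≥ 1`
arbitrary with `q ∤ K e`, commutes with the three residue maps of the full vertical valuation rings
`t4vOinfFix`, `t4vOmidFix`, `t4vO0Fix` (values in `F̄_K = tbBarF 𝔓 K`).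

* `mltcRinfFix`, `mltcRmidFix`, `mltcR0Fix` : the three residue maps at the inertia level (helper7's
  `mltl2hRinf/Rmid/R0` at `O = tbFixO 𝔓 ⊤`);
* `mltc_finrank_A_eq_fix`, `mltc_finite_A_fix`, `mltc_finite_alphaC_fix`;
* `mltc_charRed_inf_fix`, `mltc_charRed_mid_fix`, `mltc_charRed_zero_fix`.
-/
import Mathlib
import Fermat.Agent.Lib.MLT.L2.Two.CharpolyFix
import Fermat.Agent.Lib.T4.New.InstFix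

set_option autoImplicit false
set_option linter.unusedSectionVars false
set_option linter.unusedVariables false
set_option linter.style.haveILetI false
set_option synthInstance.maxHeartbeats 400000

open HahnSeries ModularCurve Fermat.Agent.T1 Fermat.Agent.T2 Fermat.Agent.T4 Fermat.Agent.Delta
  IntermediateField Module AlgebraicCurve Fermat.Agent.TW Fermat.Agent.S05Lib

noncomputable section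

namespace Fermat.Agent.MLT

local notation "Qb" => AlgebraicClosure ℚ

attribute [local instance] t2i_dvr t2i_isAlgClosed t2i_charP t2i_fact t2iAlgebra t2i_isScalarTower

section Fix

variable (𝔓 : FFPlace) (K : ℕ) [NeZero K] (hK : ¬ 𝔓.p ∣ K) {ζ : Qb} (hζ : IsPrimitiveRoot ζ 𝔓.p)

/-- the residue map of the full valuation ring `O_inf` at the inertia level -/
def mltcRinfFix : ↥(t4vOinfFix 𝔓 K).toSubring →+* ↥(tbBarF 𝔓 K) :=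
  letI := t4cyAlgebra 𝔓 (le_top : t4cyH 𝔓 ζ ≤ ⊤)
  mltl2hRinf (tbFixO 𝔓 ⊤) (tbFixRes 𝔓 ⊤) (tbFixRes_surjective 𝔓 ⊤) (t2i_natCast_ne_zero 𝔓 hK)
    (t2iALFix 𝔓 ⊤ K hK) (t2iFrobFix 𝔓 K) (t4iALFix 𝔓 ⊤ K hK) (t4cy_irreducible_p 𝔓)
    (tbFixO 𝔓 (t4cyH 𝔓 ζ)) (tbFixRes 𝔓 (t4cyH 𝔓 ζ)) (t4iCycFix 𝔓 hζ) (t4vMidFix 𝔓 K hK hζ)

/-- the residue map of the full valuation ring `O_mid` at the inertia level -/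
def mltcRmidFix : ↥(t4vOmidFix 𝔓 K hK hζ).toSubring →+* ↥(tbBarF 𝔓 K) :=
  letI := t4cyAlgebra 𝔓 (le_top : t4cyH 𝔓 ζ ≤ ⊤)
  mltl2hRmid (tbFixO 𝔓 ⊤) (tbFixRes 𝔓 ⊤) (tbFixRes_surjective 𝔓 ⊤) (t2i_natCast_ne_zero 𝔓 hK)
    (t2iALFix 𝔓 ⊤ K hK) (t2iFrobFix 𝔓 K) (t4iALFix 𝔓 ⊤ K hK) (t4cy_irreducible_p 𝔓)
    (tbFixO 𝔓 (t4cyH 𝔓 ζ)) (tbFixRes 𝔓 (t4cyH 𝔓 ζ)) (t4iCycFix 𝔓 hζ) (t4vMidFix 𝔓 K hK hζ)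

/-- the residue map of the full valuation ring `O_0` at the inertia level -/
def mltcR0Fix : ↥(t4vO0Fix 𝔓 K hK).toSubring →+* ↥(tbBarF 𝔓 K) :=
  letI := t4cyAlgebra 𝔓 (le_top : t4cyH 𝔓 ζ ≤ ⊤)
  mltl2hR0 (tbFixO 𝔓 ⊤) (tbFixRes 𝔓 ⊤) (tbFixRes_surjective 𝔓 ⊤) (t2i_natCast_ne_zero 𝔓 hK)
    (t2iALFix 𝔓 ⊤ K hK) (t2iFrobFix 𝔓 K) (t4iALFix 𝔓 ⊤ K hK) (t4cy_irreducible_p 𝔓)
    (tbFixO 𝔓 (t4cyH 𝔓 ζ)) (tbFixRes 𝔓 (t4cyH 𝔓 ζ)) (t4iCycFix 𝔓 hζ) (t4vMidFix 𝔓 K hK hζ)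

end Fix

section FixTwo

variable (𝔓 : FFPlace) (K e : ℕ) [NeZero K] [NeZero e] (hK : ¬ 𝔓.p ∣ K) (hKe : ¬ 𝔓.p ∣ K * e)
  {ζ : Qb} (hζ : IsPrimitiveRoot ζ 𝔓.p)

include hK hKe hζ in
/-- the degree along `A_e` equals the degree along `ᾱ_e`, inertia level -/
theorem mltc_finrank_A_eq_fix :
    @Module.finrank ↥(tbLevF 𝔓 (K * 𝔓.p * 𝔓.p) ⊤) ↥(tbLevF 𝔓 (K * e * 𝔓.p * 𝔓.p) ⊤) _ _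
        (mltl2hA ↥(tbFix 𝔓 (⊤ : Subgroup 𝔓.I)) K 𝔓.p e).toRingHom.toAlgebra.toModule =
      @finrank ↥(tbBarF 𝔓 K) ↥(tbBarF 𝔓 (K * e)) _ _
        (algebraAlong (dlhAlphaC (IsLocalRing.ResidueField ↥𝔓.P) K e)).toModule := by
  letI := t4cyAlgebra 𝔓 (le_top : t4cyH 𝔓 ζ ≤ ⊤)
  exact mltc_finrank_A_eq (tbFixO 𝔓 ⊤) (tbFixRes 𝔓 ⊤) (tbFixRes_surjective 𝔓 ⊤)
    (t2i_natCast_ne_zero 𝔓 hK) (t2i_natCast_ne_zero 𝔓 hKe) (t2iALFix 𝔓 ⊤ K hK) (t2iFrobFix 𝔓 K)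
    (t4iALFix 𝔓 ⊤ K hK) (t2iALFix 𝔓 ⊤ (K * e) hKe) (t2iFrobFix 𝔓 (K * e))
    (t4iALFix 𝔓 ⊤ (K * e) hKe) (t4cy_irreducible_p 𝔓) (tbFixO 𝔓 (t4cyH 𝔓 ζ))
    (tbFixRes 𝔓 (t4cyH 𝔓 ζ)) (t4iCycFix 𝔓 hζ) (t4vMidFix 𝔓 K hK hζ)
    (t4vMidFix 𝔓 (K * e) hKe hζ)

include hK hKe hζ in
theorem mltc_finite_A_fix :
    @FiniteDimensional ↥(tbLevF 𝔓 (K * 𝔓.p * 𝔓.p) ⊤) ↥(tbLevF 𝔓 (K * e * 𝔓.p * 𝔓.p) ⊤) _ _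
      (mltl2hA ↥(tbFix 𝔓 (⊤ : Subgroup 𝔓.I)) K 𝔓.p e).toRingHom.toAlgebra.toModule := by
  letI := t4cyAlgebra 𝔓 (le_top : t4cyH 𝔓 ζ ≤ ⊤)
  exact mltc_finite_A (tbFixO 𝔓 ⊤) (tbFixRes 𝔓 ⊤) (tbFixRes_surjective 𝔓 ⊤)
    (t2i_natCast_ne_zero 𝔓 hK) (t2i_natCast_ne_zero 𝔓 hKe) (t2iALFix 𝔓 ⊤ K hK) (t2iFrobFix 𝔓 K)
    (t4iALFix 𝔓 ⊤ K hK) (t2iALFix 𝔓 ⊤ (K * e) hKe) (t2iFrobFix 𝔓 (K * e))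
    (t4iALFix 𝔓 ⊤ (K * e) hKe) (t4cy_irreducible_p 𝔓) (tbFixO 𝔓 (t4cyH 𝔓 ζ))
    (tbFixRes 𝔓 (t4cyH 𝔓 ζ)) (t4iCycFix 𝔓 hζ) (t4vMidFix 𝔓 K hK hζ)
    (t4vMidFix 𝔓 (K * e) hKe hζ)

include hK hKe in
theorem mltc_finite_alphaC_fix :
    @FiniteDimensional ↥(tbBarF 𝔓 K) ↥(tbBarF 𝔓 (K * e)) _ _
      (algebraAlong (dlhAlphaC (IsLocalRing.ResidueField ↥𝔓.P) K e)).toModule :=
  mltc_finite_alphaC (IsLocalRing.ResidueField ↥𝔓.P) K e (t2i_natCast_ne_zero 𝔓 hK)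
    (t2i_natCast_ne_zero 𝔓 hKe)

/-- **the characteristic polynomial along `A_e` commutes with `ρ_inf`**, inertia level -/
theorem mltc_charRed_inf_fix (x : ↥(t4vOinfFix 𝔓 (K * e)).toSubring) (n : ℕ) :
    letI : Algebra ↥(tbLevF 𝔓 (K * 𝔓.p * 𝔓.p) ⊤) ↥(tbLevF 𝔓 (K * e * 𝔓.p * 𝔓.p) ⊤) :=
      (mltl2hA ↥(tbFix 𝔓 (⊤ : Subgroup 𝔓.I)) K 𝔓.p e).toRingHom.toAlgebra
    letI := algebraAlong (dlhAlphaC (IsLocalRing.ResidueField ↥𝔓.P) K e)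
    haveI := mltc_finite_A_fix 𝔓 K e hK hKe hζ
    haveI := mltc_finite_alphaC_fix 𝔓 K e hK hKe
    ∃ h : (LinearMap.mulLeft ↥(tbLevF 𝔓 (K * 𝔓.p * 𝔓.p) ⊤)
        (x : ↥(tbLevF 𝔓 (K * e * 𝔓.p * 𝔓.p) ⊤))).charpoly.coeff n ∈
          (t4vOinfFix 𝔓 K).toSubring,
      mltcRinfFix 𝔓 K hK hζ ⟨_, h⟩ =
        (LinearMap.mulLeft ↥(tbBarF 𝔓 K) (mltcRinfFix 𝔓 (K * e) hKe hζ x)).charpoly.coeff n := by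
  letI := t4cyAlgebra 𝔓 (le_top : t4cyH 𝔓 ζ ≤ ⊤)
  have key := mltc_charRed_inf (tbFixO 𝔓 ⊤) (tbFixRes 𝔓 ⊤) (tbFixRes_surjective 𝔓 ⊤)
    (t2i_natCast_ne_zero 𝔓 hK) (t2i_natCast_ne_zero 𝔓 hKe) (t2iALFix 𝔓 ⊤ K hK) (t2iFrobFix 𝔓 K)
    (t4iALFix 𝔓 ⊤ K hK) (t2iALFix 𝔓 ⊤ (K * e) hKe) (t2iFrobFix 𝔓 (K * e))
    (t4iALFix 𝔓 ⊤ (K * e) hKe) (t4cy_irreducible_p 𝔓) (tbFixO 𝔓 (t4cyH 𝔓 ζ))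
    (tbFixRes 𝔓 (t4cyH 𝔓 ζ)) (t4iCycFix 𝔓 hζ) (t4vMidFix 𝔓 K hK hζ)
    (t4vMidFix 𝔓 (K * e) hKe hζ)
  exact key x n

/-- **the characteristic polynomial along `A_e` commutes with `ρ_mid`**, inertia level -/
theorem mltc_charRed_mid_fix (x : ↥(t4vOmidFix 𝔓 (K * e) hKe hζ).toSubring) (n : ℕ) :
    letI : Algebra ↥(tbLevF 𝔓 (K * 𝔓.p * 𝔓.p) ⊤) ↥(tbLevF 𝔓 (K * e * 𝔓.p * 𝔓.p) ⊤) :=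
      (mltl2hA ↥(tbFix 𝔓 (⊤ : Subgroup 𝔓.I)) K 𝔓.p e).toRingHom.toAlgebra
    letI := algebraAlong (dlhAlphaC (IsLocalRing.ResidueField ↥𝔓.P) K e)
    haveI := mltc_finite_A_fix 𝔓 K e hK hKe hζ
    haveI := mltc_finite_alphaC_fix 𝔓 K e hK hKe
    ∃ h : (LinearMap.mulLeft ↥(tbLevF 𝔓 (K * 𝔓.p * 𝔓.p) ⊤)
        (x : ↥(tbLevF 𝔓 (K * e * 𝔓.p * 𝔓.p) ⊤))).charpoly.coeff n ∈
          (t4vOmidFix 𝔓 K hK hζ).toSubring,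
      mltcRmidFix 𝔓 K hK hζ ⟨_, h⟩ =
        (LinearMap.mulLeft ↥(tbBarF 𝔓 K) (mltcRmidFix 𝔓 (K * e) hKe hζ x)).charpoly.coeff n := by
  letI := t4cyAlgebra 𝔓 (le_top : t4cyH 𝔓 ζ ≤ ⊤)
  have key := mltc_charRed_mid (tbFixO 𝔓 ⊤) (tbFixRes 𝔓 ⊤) (tbFixRes_surjective 𝔓 ⊤)
    (t2i_natCast_ne_zero 𝔓 hK) (t2i_natCast_ne_zero 𝔓 hKe) (t2iALFix 𝔓 ⊤ K hK) (t2iFrobFix 𝔓 K)
    (t4iALFix 𝔓 ⊤ K hK) (t2iALFix 𝔓 ⊤ (K * e) hKe) (t2iFrobFix 𝔓 (K * e))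
    (t4iALFix 𝔓 ⊤ (K * e) hKe) (t4cy_irreducible_p 𝔓) (tbFixO 𝔓 (t4cyH 𝔓 ζ))
    (tbFixRes 𝔓 (t4cyH 𝔓 ζ)) (t4iCycFix 𝔓 hζ) (t4vMidFix 𝔓 K hK hζ)
    (t4vMidFix 𝔓 (K * e) hKe hζ)
  exact key x n

/-- **the characteristic polynomial along `A_e` commutes with `ρ_0`**, inertia level -/
theorem mltc_charRed_zero_fix (x : ↥(t4vO0Fix 𝔓 (K * e) hKe).toSubring) (n : ℕ) :
    letI : Algebra ↥(tbLevF 𝔓 (K * 𝔓.p * 𝔓.p) ⊤) ↥(tbLevF 𝔓 (K * e * 𝔓.p * 𝔓.p) ⊤) :=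
      (mltl2hA ↥(tbFix 𝔓 (⊤ : Subgroup 𝔓.I)) K 𝔓.p e).toRingHom.toAlgebra
    letI := algebraAlong (dlhAlphaC (IsLocalRing.ResidueField ↥𝔓.P) K e)
    haveI := mltc_finite_A_fix 𝔓 K e hK hKe hζ
    haveI := mltc_finite_alphaC_fix 𝔓 K e hK hKe
    ∃ h : (LinearMap.mulLeft ↥(tbLevF 𝔓 (K * 𝔓.p * 𝔓.p) ⊤)
        (x : ↥(tbLevF 𝔓 (K * e * 𝔓.p * 𝔓.p) ⊤))).charpoly.coeff n ∈
          (t4vO0Fix 𝔓 K hK).toSubring,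
      mltcR0Fix 𝔓 K hK hζ ⟨_, h⟩ =
        (LinearMap.mulLeft ↥(tbBarF 𝔓 K) (mltcR0Fix 𝔓 (K * e) hKe hζ x)).charpoly.coeff n := by
  letI := t4cyAlgebra 𝔓 (le_top : t4cyH 𝔓 ζ ≤ ⊤)
  have key := mltc_charRed_zero (tbFixO 𝔓 ⊤) (tbFixRes 𝔓 ⊤) (tbFixRes_surjective 𝔓 ⊤)
    (t2i_natCast_ne_zero 𝔓 hK) (t2i_natCast_ne_zero 𝔓 hKe) (t2iALFix 𝔓 ⊤ K hK) (t2iFrobFix 𝔓 K)
    (t4iALFix 𝔓 ⊤ K hK) (t2iALFix 𝔓 ⊤ (K * e) hKe) (t2iFrobFix 𝔓 (K * e))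
    (t4iALFix 𝔓 ⊤ (K * e) hKe) (t4cy_irreducible_p 𝔓) (tbFixO 𝔓 (t4cyH 𝔓 ζ))
    (tbFixRes 𝔓 (t4cyH 𝔓 ζ)) (t4iCycFix 𝔓 hζ) (t4vMidFix 𝔓 K hK hζ)
    (t4vMidFix 𝔓 (K * e) hKe hζ)
  exact key x n

end FixTwo

end Fermat.Agent.MLT
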