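/-
MLT (project S59) / [L2-JL], case (γ), **(S₀-γ)** of helper9's h9-m1638 (helper6): (b) in the `D.U`-form.

`D, B` = the T4-N instances of the level `N' ℓ` (`ℓ = e ≥ 1` arbitrary), `D₀, B₀` those of the level `N'`,
`A = mltl2hA L N' q ℓ`, `ᾱ = dlhAlphaC k N' ℓ`.  For `b ∈ D.U` and `n` such that the `n`-th coefficients of the
characteristic polynomials over `ᾱ E₀` of the three residues `r_inf b, r_mid b, r_0 b` do not vanish, the `n`-th
coefficient `ε` of the characteristic polynomial of `b` over `A F₀` lies in `D₀.U`, and its three residues are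
these coefficients.

* `mltc_charU`     : generic level;
* `mltc_charU_fix` : inertia level (`t4niAFix`, `t4niBFix`).
-/
import Mathlib
import Fermat.Agent.Lib.MLT.L2.Two.CharpolyFix
import Fermat.Agent.Lib.MLT.L2.HkCompat
import Fermat.Agent.Lib.T4.New.InstFix

set_option autoImplicit false
set_option linter.unusedSectionVars false
set_option linter.unusedVariables false
set_option linter.style.haveILetI false
set_option synthInstance.maxHeartbeats 400000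

open HahnSeries ModularCurve Fermat.Agent.T1 Fermat.Agent.T2 Fermat.Agent.T4 Fermat.Agent.Delta
  IntermediateField Module AlgebraicCurve

noncomputable section

namespace Fermat.Agent.MLT

section Two

variable {L : Type} [Field L] [Algebra ℚ L] (O : ValuationSubring L) {k : Type} [Field k]
  (π : ↥O →+* k) [IsDiscreteValuationRing ↥O] (hπ : Function.Surjective π) [IsAlgClosed k]
  {N' q ℓ : ℕ} [NeZero N'] [hq : Fact q.Prime] [NeZero ℓ] [CharP k q]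
  (hN' : (N' : k) ≠ 0) (hN'ℓ : ((N' * ℓ : ℕ) : k) ≠ 0)
  (W1 : T2iAL L N' q) (Fr : T2iFrob k N' q) (W : T4iAL L N' q)
  (W1' : T2iAL L (N' * ℓ) q) (Fr' : T2iFrob k (N' * ℓ) q) (W' : T4iAL L (N' * ℓ) q)
  (hqO : Irreducible ((q : ℕ) : ↥O))
  {L' : Type*} [Field L'] [Algebra L L'] (O' : ValuationSubring L')
  [IsDiscreteValuationRing ↥O'] (π' : ↥O' →+* k) (C : T4iCyc O O' π π' q)
  (M : T4iMid L L' N' q C.ζ) (M' : T4iMid L L' (N' * ℓ) q C.ζ)

attribute [local instance] t2iAlgebra t2i_isScalarTower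

/-! #### The residues of `D.U` in terms of the residue maps of the full valuation rings -/

theorem mltc_rinf_U (m : ℕ) (hm : m ≠ 0) (hqm : Nat.Coprime m q)
    (y : ↥(t4niAU O π hπ hN' W1 Fr W hqO O' π' C M m).U)
    (hy : ((y : (↥(TaF L (N' * q * q)))ˣ) : ↥(TaF L (N' * q * q))) ∈
      (t4vOinf (N' := N') (q := q) O π hπ).toSubring) :
    (((t4niBU O π hπ hN' W1 Fr W hqO O' π' C M m hm hqm).rinf y :
        (↥(modularFunctionFieldFullC k N'))ˣ) : ↥(modularFunctionFieldFullC k N')) =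
      mltl2hRinf O π hπ hN' W1 Fr W hqO O' π' C M ⟨_, hy⟩ := by
  have hyO := (t4ni_mem_Ov_of_mem_U O π hπ hN' W1 Fr W hqO O' π' C M m
    (t4ni_happrox O π hπ hN' W1 Fr W hqO O' π' C M) y.2).1
  have h1 : (((t4niBU O π hπ hN' W1 Fr W hqO O' π' C M m hm hqm).rinf y :
      (↥(modularFunctionFieldFullC k N'))ˣ) : ↥(modularFunctionFieldFullC k N')) =
      t4niRho1 O π hπ hN' W1 Fr W hqO O' π' C M ⟨_, hyO⟩ := rfl
  rw [h1]
  apply Subtype.ext
  rw [coe_t4niRho1, coe_mltl2hRinf, t4ve_ρ₁_eq]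

theorem mltc_rmid_U (m : ℕ) (hm : m ≠ 0) (hqm : Nat.Coprime m q)
    (y : ↥(t4niAU O π hπ hN' W1 Fr W hqO O' π' C M m).U)
    (hy : ((y : (↥(TaF L (N' * q * q)))ˣ) : ↥(TaF L (N' * q * q))) ∈
      (t4vOmid O π hπ O' π' C M).toSubring) :
    (((t4niBU O π hπ hN' W1 Fr W hqO O' π' C M m hm hqm).rmid y :
        (↥(modularFunctionFieldFullC k N'))ˣ) : ↥(modularFunctionFieldFullC k N')) =
      mltl2hRmid O π hπ hN' W1 Fr W hqO O' π' C M ⟨_, hy⟩ := by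
  have hyO := (t4ni_mem_Ov_of_mem_U O π hπ hN' W1 Fr W hqO O' π' C M m
    (t4ni_happrox O π hπ hN' W1 Fr W hqO O' π' C M) y.2).1
  have h1 : (((t4niBU O π hπ hN' W1 Fr W hqO O' π' C M m hm hqm).rmid y :
      (↥(modularFunctionFieldFullC k N'))ˣ) : ↥(modularFunctionFieldFullC k N')) =
      t4niRho2 O π hπ hN' W1 Fr W hqO O' π' C M ⟨_, hyO⟩ := rfl
  rw [h1]
  apply Subtype.ext
  rw [coe_t4niRho2, coe_mltl2hRmid, t4ve_ρ₂_eq]

theorem mltc_r0_U (m : ℕ) (hm : m ≠ 0) (hqm : Nat.Coprime m q)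
    (y : ↥(t4niAU O π hπ hN' W1 Fr W hqO O' π' C M m).U)
    (hy : ((y : (↥(TaF L (N' * q * q)))ˣ) : ↥(TaF L (N' * q * q))) ∈
      (t4vO0 O π hπ W).toSubring) :
    (((t4niBU O π hπ hN' W1 Fr W hqO O' π' C M m hm hqm).r0 y :
        (↥(modularFunctionFieldFullC k N'))ˣ) : ↥(modularFunctionFieldFullC k N')) =
      mltl2hR0 O π hπ hN' W1 Fr W hqO O' π' C M ⟨_, hy⟩ := by
  have hyO := (t4ni_mem_Ov_of_mem_U O π hπ hN' W1 Fr W hqO O' π' C M m
    (t4ni_happrox O π hπ hN' W1 Fr W hqO O' π' C M) y.2).1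
  have h1 : (((t4niBU O π hπ hN' W1 Fr W hqO O' π' C M m hm hqm).r0 y :
      (↥(modularFunctionFieldFullC k N'))ˣ) : ↥(modularFunctionFieldFullC k N')) =
      t4niRho3 O π hπ hN' W1 Fr W hqO O' π' C M ⟨_, hyO⟩ := rfl
  rw [h1]
  apply Subtype.ext
  rw [coe_t4niRho3, coe_mltl2hR0, t4ve_ρ₃_eq]

/-! #### (S₀-γ), generic level -/

/-- **(S₀-γ)**: the coefficients of the characteristic polynomial of `b ∈ D.U` over `A F₀`, in the `D.U`-form -/
theorem mltc_charU (m : ℕ) (hm : m ≠ 0) (hqm : Nat.Coprime m q)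
    (b : ↥(t4niAU O π hπ hN'ℓ W1' Fr' W' hqO O' π' C M' m).U) (n : ℕ) :
    letI : Algebra ↥(TaF L (N' * q * q)) ↥(TaF L (N' * ℓ * q * q)) :=
      (mltl2hA L N' q ℓ).toRingHom.toAlgebra
    letI := algebraAlong (dlhAlphaC k N' ℓ)
    haveI := mltc_finite_A O π hπ hN' hN'ℓ W1 Fr W W1' Fr' W' hqO O' π' C M M'
    haveI := mltc_finite_alphaC k N' ℓ hN' hN'ℓ
    (LinearMap.mulLeft ↥(modularFunctionFieldFullC k N')
      (((t4niBU O π hπ hN'ℓ W1' Fr' W' hqO O' π' C M' m hm hqm).rinf b :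
        (↥(modularFunctionFieldFullC k (N' * ℓ)))ˣ) :
          ↥(modularFunctionFieldFullC k (N' * ℓ)))).charpoly.coeff n ≠ 0 →
    (LinearMap.mulLeft ↥(modularFunctionFieldFullC k N')
      (((t4niBU O π hπ hN'ℓ W1' Fr' W' hqO O' π' C M' m hm hqm).rmid b :
        (↥(modularFunctionFieldFullC k (N' * ℓ)))ˣ) :
          ↥(modularFunctionFieldFullC k (N' * ℓ)))).charpoly.coeff n ≠ 0 →
    (LinearMap.mulLeft ↥(modularFunctionFieldFullC k N')
      (((t4niBU O π hπ hN'ℓ W1' Fr' W' hqO O' π' C M' m hm hqm).r0 b :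
        (↥(modularFunctionFieldFullC k (N' * ℓ)))ˣ) :
          ↥(modularFunctionFieldFullC k (N' * ℓ)))).charpoly.coeff n ≠ 0 →
    ∃ ε : ↥(t4niAU O π hπ hN' W1 Fr W hqO O' π' C M m).U,
      (((ε : (↥(TaF L (N' * q * q)))ˣ)) : ↥(TaF L (N' * q * q))) =
        (LinearMap.mulLeft ↥(TaF L (N' * q * q))
          (((b : (↥(TaF L (N' * ℓ * q * q)))ˣ)) : ↥(TaF L (N' * ℓ * q * q)))).charpoly.coeff n ∧
      (((t4niBU O π hπ hN' W1 Fr W hqO O' π' C M m hm hqm).rinf ε :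
          (↥(modularFunctionFieldFullC k N'))ˣ) : ↥(modularFunctionFieldFullC k N')) =
        (LinearMap.mulLeft ↥(modularFunctionFieldFullC k N')
          (((t4niBU O π hπ hN'ℓ W1' Fr' W' hqO O' π' C M' m hm hqm).rinf b :
            (↥(modularFunctionFieldFullC k (N' * ℓ)))ˣ) :
              ↥(modularFunctionFieldFullC k (N' * ℓ)))).charpoly.coeff n ∧
      (((t4niBU O π hπ hN' W1 Fr W hqO O' π' C M m hm hqm).rmid ε :
          (↥(modularFunctionFieldFullC k N'))ˣ) : ↥(modularFunctionFieldFullC k N')) =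
        (LinearMap.mulLeft ↥(modularFunctionFieldFullC k N')
          (((t4niBU O π hπ hN'ℓ W1' Fr' W' hqO O' π' C M' m hm hqm).rmid b :
            (↥(modularFunctionFieldFullC k (N' * ℓ)))ˣ) :
              ↥(modularFunctionFieldFullC k (N' * ℓ)))).charpoly.coeff n ∧
      (((t4niBU O π hπ hN' W1 Fr W hqO O' π' C M m hm hqm).r0 ε :
          (↥(modularFunctionFieldFullC k N'))ˣ) : ↥(modularFunctionFieldFullC k N')) =
        (LinearMap.mulLeft ↥(modularFunctionFieldFullC k N')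
          (((t4niBU O π hπ hN'ℓ W1' Fr' W' hqO O' π' C M' m hm hqm).r0 b :
            (↥(modularFunctionFieldFullC k (N' * ℓ)))ˣ) :
              ↥(modularFunctionFieldFullC k (N' * ℓ)))).charpoly.coeff n := by
  letI : Algebra ↥(TaF L (N' * q * q)) ↥(TaF L (N' * ℓ * q * q)) :=
    (mltl2hA L N' q ℓ).toRingHom.toAlgebra
  letI := algebraAlong (dlhAlphaC k N' ℓ)
  haveI := mltc_finite_A O π hπ hN' hN'ℓ W1 Fr W W1' Fr' W' hqO O' π' C M M'
  haveI := mltc_finite_alphaC k N' ℓ hN' hN'ℓ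
  intro h1 h2 h3
  -- `b` lies in the three valuation rings of the upper level
  have hbO := (t4ni_mem_Ov_of_mem_U O π hπ hN'ℓ W1' Fr' W' hqO O' π' C M' m
    (t4ni_happrox O π hπ hN'ℓ W1' Fr' W' hqO O' π' C M') b.2).1
  obtain ⟨hb1, hb3, hb2⟩ := (mem_t4vInput_Ov_iff O π hπ hN'ℓ W1' Fr' W' hqO O' π' C M' _).mp hbO
  have e1 := mltc_rinf_U O π hπ hN'ℓ W1' Fr' W' hqO O' π' C M' m hm hqm b hb1
  have e2 := mltc_rmid_U O π hπ hN'ℓ W1' Fr' W' hqO O' π' C M' m hm hqm b hb2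
  have e3 := mltc_r0_U O π hπ hN'ℓ W1' Fr' W' hqO O' π' C M' m hm hqm b hb3
  rw [e1] at h1 ⊢
  rw [e2] at h2 ⊢
  rw [e3] at h3 ⊢
  -- the three reductions of the coefficient
  obtain ⟨c, hc⟩ : ∃ c : ↥(TaF L (N' * q * q)), c = (LinearMap.mulLeft ↥(TaF L (N' * q * q))
      (((b : (↥(TaF L (N' * ℓ * q * q)))ˣ)) : ↥(TaF L (N' * ℓ * q * q)))).charpoly.coeff n :=
    ⟨_, rfl⟩
  obtain ⟨g1', r1'⟩ := mltc_charRed_inf O π hπ hN' hN'ℓ W1 Fr W W1' Fr' W' hqO O' π' C M M'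
    ⟨_, hb1⟩ n
  obtain ⟨g2', r2'⟩ := mltc_charRed_mid O π hπ hN' hN'ℓ W1 Fr W W1' Fr' W' hqO O' π' C M M'
    ⟨_, hb2⟩ n
  obtain ⟨g3', r3'⟩ := mltc_charRed_zero O π hπ hN' hN'ℓ W1 Fr W W1' Fr' W' hqO O' π' C M M'
    ⟨_, hb3⟩ n
  have g1 : c ∈ (t4vOinf (N' := N') (q := q) O π hπ).toSubring := hc ▸ g1'
  have g2 : c ∈ (t4vOmid O π hπ O' π' C M).toSubring := hc ▸ g2'
  have g3 : c ∈ (t4vO0 O π hπ W).toSubring := hc ▸ g3'
  have r1 : mltl2hRinf O π hπ hN' W1 Fr W hqO O' π' C M ⟨c, g1⟩ =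
      (LinearMap.mulLeft ↥(modularFunctionFieldFullC k N')
        (mltl2hRinf O π hπ hN'ℓ W1' Fr' W' hqO O' π' C M' ⟨_, hb1⟩)).charpoly.coeff n := by
    rw [← r1']
    exact congrArg _ (Subtype.ext hc)
  have r2 : mltl2hRmid O π hπ hN' W1 Fr W hqO O' π' C M ⟨c, g2⟩ =
      (LinearMap.mulLeft ↥(modularFunctionFieldFullC k N')
        (mltl2hRmid O π hπ hN'ℓ W1' Fr' W' hqO O' π' C M' ⟨_, hb2⟩)).charpoly.coeff n := by
    rw [← r2']
    exact congrArg _ (Subtype.ext hc)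
  have r3 : mltl2hR0 O π hπ hN' W1 Fr W hqO O' π' C M ⟨c, g3⟩ =
      (LinearMap.mulLeft ↥(modularFunctionFieldFullC k N')
        (mltl2hR0 O π hπ hN'ℓ W1' Fr' W' hqO O' π' C M' ⟨_, hb3⟩)).charpoly.coeff n := by
    rw [← r3']
    exact congrArg _ (Subtype.ext hc)
  rw [← hc]
  rw [← r1] at h1 ⊢
  rw [← r2] at h2 ⊢
  rw [← r3] at h3 ⊢
  -- `c` is a unit of the three valuation rings
  have hc0 : c ≠ 0 := by
    rintro rfl
    apply h1
    have : (⟨(0 : ↥(TaF L (N' * q * q))), g1⟩ :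
        ↥(t4vOinf (N' := N') (q := q) O π hπ).toSubring) = 0 := rfl
    rw [this, map_zero]
  have i1 : c⁻¹ ∈ t4vOinf (N' := N') (q := q) O π hπ := by
    refine t4ve_inv_mem_inf O π hπ ⟨c, g1⟩ (fun h0 => h1 (Subtype.ext ?_))
    rw [coe_mltl2hRinf]
    exact h0
  have i2 : c⁻¹ ∈ t4vOmid O π hπ O' π' C M := by
    refine t4ve_inv_mem_mid O π hπ O' π' C M ⟨c, g2⟩ (fun h0 => h2 (Subtype.ext ?_))
    rw [coe_mltl2hRmid]
    exact h0
  have i3 : c⁻¹ ∈ t4vO0 O π hπ W := by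
    refine t4ve_inv_mem_zero O π hπ W ⟨c, g3⟩ (fun h0 => h3 (Subtype.ext ?_))
    rw [coe_mltl2hR0]
    exact h0
  have hcO : ((Units.mk0 c hc0 : (↥(TaF L (N' * q * q)))ˣ) : ↥(TaF L (N' * q * q))) ∈
      (t4vInput O π hπ hN' W1 Fr W hqO O' π' C M).Ov :=
    (mem_t4vInput_Ov_iff O π hπ hN' W1 Fr W hqO O' π' C M _).mpr ⟨g1, g3, g2⟩
  have hcO' : (((Units.mk0 c hc0)⁻¹ : (↥(TaF L (N' * q * q)))ˣ) : ↥(TaF L (N' * q * q))) ∈
      (t4vInput O π hπ hN' W1 Fr W hqO O' π' C M).Ov := by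
    rw [Units.val_inv_eq_inv_val]
    exact (mem_t4vInput_Ov_iff O π hπ hN' W1 Fr W hqO O' π' C M _).mpr ⟨i1, i3, i2⟩
  have hU := t4ni_mem_U_of_mem_Ov O π hπ hN' W1 Fr W hqO O' π' C M m
    (t4ni_happrox O π hπ hN' W1 Fr W hqO O' π' C M) hcO hcO'
  refine ⟨⟨Units.mk0 c hc0, hU⟩, rfl, ?_, ?_, ?_⟩
  · exact mltc_rinf_U O π hπ hN' W1 Fr W hqO O' π' C M m hm hqm ⟨Units.mk0 c hc0, hU⟩ g1
  · exact mltc_rmid_U O π hπ hN' W1 Fr W hqO O' π' C M m hm hqm ⟨Units.mk0 c hc0, hU⟩ g2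
  · exact mltc_r0_U O π hπ hN' W1 Fr W hqO O' π' C M m hm hqm ⟨Units.mk0 c hc0, hU⟩ g3

end Two

end Fermat.Agent.MLT
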