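/-
MLT (project S59) / [L2-JL], case (γ), **(S₀-γ)** of helper9's h9-m1638 (helper6), **inertia level**:
`D, B = t4niAFix, t4niBFix` at the level `K₀ e`, `D₀, B₀` at the level `K₀`, `A = mltl2hA L K₀ 𝔓.p e`
(`L = tbFix 𝔓 ⊤`), `ᾱ = dlhAlphaC 𝕜 K₀ e`.  For `b ∈ D.U` and `n` such that the `n`-th coefficients of
`χ_ᾱ(r_inf b)`, `χ_ᾱ(r_mid b)`, `χ_ᾱ(r_0 b)` do not vanish, `ε := coeff_n χ_A(b) ∈ D₀.U` and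
`r⁰_*(ε) = coeff_n χ_ᾱ(r_* b)` (`mltc_charU_fix`).
-/
import Mathlib
import Fermat.Agent.Lib.MLT.L2.Two.CharpolyU
import Fermat.Agent.Lib.MLT.L2.Two.CharpolyFixP

set_option autoImplicit false
set_option linter.unusedSectionVars false
set_option linter.unusedVariables false
set_option linter.style.haveILetI false
set_option synthInstance.maxHeartbeats 400000

open HahnSeries ModularCurve Fermat.Agent.T1 Fermat.Agent.T2 Fermat.Agent.T4 Fermat.Agent.Delta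
  IntermediateField Module AlgebraicCurve Fermat.Agent.TW Fermat.Agent.S05Lib

noncomputable section

namespace Fermat.Agent.MLT

local notation "Qb" => AlgebraicClosure ℚ

attribute [local instance] t2i_dvr t2i_isAlgClosed t2i_charP t2i_fact t2iAlgebra t2i_isScalarTower

/-- **(S₀-γ), inertia level** -/
theorem mltc_charU_fix (𝔓 : FFPlace) (K₀ e : ℕ) [NeZero K₀] [NeZero e] (hK₀ : ¬ 𝔓.p ∣ K₀)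
    (hK : ¬ 𝔓.p ∣ K₀ * e) {ζ : Qb} (hζ : IsPrimitiveRoot ζ 𝔓.p) (p : ℕ) (hp0 : p ≠ 0)
    (hpq : Nat.Coprime p 𝔓.p) (b : ↥(t4niAFix 𝔓 (K₀ * e) hK hζ p).U) (n : ℕ) :
    letI : Algebra ↥(tbLevF 𝔓 (K₀ * 𝔓.p * 𝔓.p) ⊤) ↥(tbLevF 𝔓 (K₀ * e * 𝔓.p * 𝔓.p) ⊤) :=
      (mltl2hA ↥(tbFix 𝔓 (⊤ : Subgroup 𝔓.I)) K₀ 𝔓.p e).toRingHom.toAlgebra
    letI := algebraAlong (dlhAlphaC (IsLocalRing.ResidueField ↥𝔓.P) K₀ e)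
    haveI := mltc_finite_A_fix 𝔓 K₀ e hK₀ hK hζ
    haveI := mltc_finite_alphaC_fix 𝔓 K₀ e hK₀ hK
    (LinearMap.mulLeft ↥(tbBarF 𝔓 K₀)
      (((t4niBFix 𝔓 (K₀ * e) hK hζ p hp0 hpq).rinf b : (↥(tbBarF 𝔓 (K₀ * e)))ˣ) :
        ↥(tbBarF 𝔓 (K₀ * e)))).charpoly.coeff n ≠ 0 →
    (LinearMap.mulLeft ↥(tbBarF 𝔓 K₀)
      (((t4niBFix 𝔓 (K₀ * e) hK hζ p hp0 hpq).rmid b : (↥(tbBarF 𝔓 (K₀ * e)))ˣ) :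
        ↥(tbBarF 𝔓 (K₀ * e)))).charpoly.coeff n ≠ 0 →
    (LinearMap.mulLeft ↥(tbBarF 𝔓 K₀)
      (((t4niBFix 𝔓 (K₀ * e) hK hζ p hp0 hpq).r0 b : (↥(tbBarF 𝔓 (K₀ * e)))ˣ) :
        ↥(tbBarF 𝔓 (K₀ * e)))).charpoly.coeff n ≠ 0 →
    ∃ ε : ↥(t4niAFix 𝔓 K₀ hK₀ hζ p).U,
      (((ε : (↥(tbLevF 𝔓 (K₀ * 𝔓.p * 𝔓.p) ⊤))ˣ)) : ↥(tbLevF 𝔓 (K₀ * 𝔓.p * 𝔓.p) ⊤)) =
        (LinearMap.mulLeft ↥(tbLevF 𝔓 (K₀ * 𝔓.p * 𝔓.p) ⊤)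
          (((b : (↥(tbLevF 𝔓 (K₀ * e * 𝔓.p * 𝔓.p) ⊤))ˣ)) :
            ↥(tbLevF 𝔓 (K₀ * e * 𝔓.p * 𝔓.p) ⊤))).charpoly.coeff n ∧
      (((t4niBFix 𝔓 K₀ hK₀ hζ p hp0 hpq).rinf ε : (↥(tbBarF 𝔓 K₀))ˣ) : ↥(tbBarF 𝔓 K₀)) =
        (LinearMap.mulLeft ↥(tbBarF 𝔓 K₀)
          (((t4niBFix 𝔓 (K₀ * e) hK hζ p hp0 hpq).rinf b : (↥(tbBarF 𝔓 (K₀ * e)))ˣ) :
            ↥(tbBarF 𝔓 (K₀ * e)))).charpoly.coeff n ∧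
      (((t4niBFix 𝔓 K₀ hK₀ hζ p hp0 hpq).rmid ε : (↥(tbBarF 𝔓 K₀))ˣ) : ↥(tbBarF 𝔓 K₀)) =
        (LinearMap.mulLeft ↥(tbBarF 𝔓 K₀)
          (((t4niBFix 𝔓 (K₀ * e) hK hζ p hp0 hpq).rmid b : (↥(tbBarF 𝔓 (K₀ * e)))ˣ) :
            ↥(tbBarF 𝔓 (K₀ * e)))).charpoly.coeff n ∧
      (((t4niBFix 𝔓 K₀ hK₀ hζ p hp0 hpq).r0 ε : (↥(tbBarF 𝔓 K₀))ˣ) : ↥(tbBarF 𝔓 K₀)) =
        (LinearMap.mulLeft ↥(tbBarF 𝔓 K₀)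
          (((t4niBFix 𝔓 (K₀ * e) hK hζ p hp0 hpq).r0 b : (↥(tbBarF 𝔓 (K₀ * e)))ˣ) :
            ↥(tbBarF 𝔓 (K₀ * e)))).charpoly.coeff n := by
  letI := t4cyAlgebra 𝔓 (le_top : t4cyH 𝔓 ζ ≤ ⊤)
  have key := mltc_charU (tbFixO 𝔓 ⊤) (tbFixRes 𝔓 ⊤) (tbFixRes_surjective 𝔓 ⊤)
    (t2i_natCast_ne_zero 𝔓 hK₀) (t2i_natCast_ne_zero 𝔓 hK) (t2iALFix 𝔓 ⊤ K₀ hK₀)
    (t2iFrobFix 𝔓 K₀) (t4iALFix 𝔓 ⊤ K₀ hK₀) (t2iALFix 𝔓 ⊤ (K₀ * e) hK) (t2iFrobFix 𝔓 (K₀ * e))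
    (t4iALFix 𝔓 ⊤ (K₀ * e) hK) (t4cy_irreducible_p 𝔓) (tbFixO 𝔓 (t4cyH 𝔓 ζ))
    (tbFixRes 𝔓 (t4cyH 𝔓 ζ)) (t4iCycFix 𝔓 hζ) (t4vMidFix 𝔓 K₀ hK₀ hζ)
    (t4vMidFix 𝔓 (K₀ * e) hK hζ) p hp0 hpq
  exact key b n

end Fermat.Agent.MLT
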