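/-
MLT (project S59) / [L2-JL], case (γ), **(S₀-γ)** at helper9's exact literal (helper6):
`mltc_charRedAt : MltjCharRedAt 𝔓 K₀ e hK₀ hK hζ p hp0 hpq` (literal of `Contracts/L2Two.lean`),
from `mltc_charU_fix` (`L2/Two/CharpolyUFix.lean`); the finiteness hypotheses of the literal are
propositions, hence equal to the ones used there.
-/
import Mathlib
import Fermat.Agent.Lib.MLT.Contracts.L2Two
import Fermat.Agent.Lib.MLT.L2.Two.CharpolyUFix

set_option autoImplicit false
set_option linter.unusedSectionVars false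
set_option linter.unusedVariables false
set_option linter.style.haveILetI false
set_option synthInstance.maxHeartbeats 400000

open HahnSeries ModularCurve Fermat.Agent.T1 Fermat.Agent.T2 Fermat.Agent.T4 Fermat.Agent.Delta
  IntermediateField Module AlgebraicCurve Fermat.Agent.TW Fermat.Agent.S05Lib

noncomputable section

namespace Fermat.Agent.MLT

local notation "Qb" => AlgebraicClosure ℚ

/-- **(S₀-γ)** at the literal `MltjCharRedAt` of `Contracts/L2Two.lean` -/
theorem mltc_charRedAt (𝔓 : FFPlace) (K₀ e : ℕ) [NeZero K₀] [NeZero e] (hK₀ : ¬ 𝔓.p ∣ K₀)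
    (hK : ¬ 𝔓.p ∣ K₀ * e) {ζ : Qb} (hζ : IsPrimitiveRoot ζ 𝔓.p) (p : ℕ) (hp0 : p ≠ 0)
    (hpq : Nat.Coprime p 𝔓.p) : MltjCharRedAt 𝔓 K₀ e hK₀ hK hζ p hp0 hpq := by
  intro hfinA hfinα b n h1 h2 h3
  exact mltc_charU_fix 𝔓 K₀ e hK₀ hK hζ p hp0 hpq b n h1 h2 h3

end Fermat.Agent.MLT
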