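/-
MLT (project S59) / [L2-JL], case (γ), (δ1) of h9-m1638 (lead): **`(d choose 2^{v₂(d)})` is odd** (Lucas).
-/
import Mathlib

set_option autoImplicit false

namespace Fermat.Agent.MLT

/-- `(2^a m choose 2^a)` is odd for `m` odd -/
theorem mltj_choose_two_pow_mul (a m : ℕ) (hm : Odd m) : Odd ((2 ^ a * m).choose (2 ^ a)) := by
  haveI : Fact (Nat.Prime 2) := ⟨Nat.prime_two⟩
  induction a with
  | zero =>
    rw [pow_zero, one_mul, Nat.choose_one_right]
    exact hm
  | succ a ih =>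
    have h := Choose.choose_modEq_choose_mod_mul_choose_div_nat (n := 2 ^ (a + 1) * m)
      (k := 2 ^ (a + 1)) (p := 2)
    have e1 : 2 ^ (a + 1) * m % 2 = 0 := by
      rw [pow_succ, mul_comm (2 ^ a) 2, mul_assoc]
      exact Nat.mul_mod_right 2 _
    have e2 : 2 ^ (a + 1) % 2 = 0 := by
      rw [pow_succ]
      exact Nat.mul_mod_left _ 2
    have e3 : 2 ^ (a + 1) * m / 2 = 2 ^ a * m := by
      rw [pow_succ, mul_comm (2 ^ a) 2, mul_assoc]
      exact Nat.mul_div_cancel_left _ (by norm_num)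
    have e4 : 2 ^ (a + 1) / 2 = 2 ^ a := by
      rw [pow_succ]
      exact Nat.mul_div_cancel _ (by norm_num)
    rw [e1, e2, e3, e4, Nat.choose_self, one_mul] at h
    rw [Nat.odd_iff] at ih ⊢
    have h' : (2 ^ (a + 1) * m).choose (2 ^ (a + 1)) % 2 = (2 ^ a * m).choose (2 ^ a) % 2 := h
    rw [h']
    exact ih

/-- **(δ1)** `(d choose 2^{v₂(d)})` is odd -/
theorem mltj_choose_two_pow (d : ℕ) (hd : 0 < d) : Odd (d.choose (2 ^ padicValNat 2 d)) := by
  have : Fact (Nat.Prime 2) := ⟨Nat.prime_two⟩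
  obtain ⟨m, hm⟩ := pow_padicValNat_dvd (p := 2) (n := d)
  have hodd : Odd m := by
    rw [← Nat.not_even_iff_odd]
    rintro ⟨r, hr⟩
    have h2 : 2 ^ (padicValNat 2 d + 1) ∣ d := by
      refine ⟨r, ?_⟩
      conv_lhs => rw [hm, hr]
      rw [pow_succ]
      ring
    exact pow_succ_padicValNat_not_dvd hd.ne' h2
  have key := mltj_choose_two_pow_mul (padicValNat 2 d) m hodd
  rwa [← hm] at key

/-- the exponent `2^{v₂(d)}` is at most `d` and prime to `3` -/
theorem mltj_two_pow_le (d : ℕ) (hd : 0 < d) : 2 ^ padicValNat 2 d ≤ d :=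
  Nat.le_of_dvd hd pow_padicValNat_dvd

theorem mltj_two_pow_coprime_three (d : ℕ) : Nat.Coprime (2 ^ padicValNat 2 d) 3 :=
  Nat.Coprime.pow_left _ (by norm_num)

end Fermat.Agent.MLT
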