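/-
MLT (project S59) / [L2-JL], case (γ), **(CRT)** and **(S₀-α)**, abstract level (helper6): the language of
helper5's `P4/Bridge.lean` (`P : T4Pres F` a chart presentation, `R : MltJ4Red P Ov hBO cst V E z` the reduction on
a vertical valuation ring `V`, `R.PlaceAt 𝔫 Pl` = the place `Pl` of `E / k` is the point `𝔫`).

* `mltc_crt_abs`        : an element `b ∈ B` with prescribed constant residues at finitely many closed points;
* `mltc_crt_val`        : its reduction has the prescribed values at the places of the points;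
* `mltc_crt_not_mem`    : it does not lie in `𝔫` if the prescribed value at `𝔫` is not zero;
* `mltc_unit_of_loc_abs`: an element of `B_𝔫 ∩ Ov` whose reduction has a non-zero value at the place of `𝔫` is a
                          unit at all valuation rings through `𝔫`.
-/
import Mathlib
import Fermat.Agent.Lib.MLT.L2.P4.Bridge

set_option autoImplicit false
set_option linter.unusedSectionVars false
set_option linter.unusedVariables false
set_option linter.style.haveILetI false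

namespace Fermat.Agent.MLT

open Fermat.Agent.T4 Fermat.Agent.Delta AlgebraicCurve Fermat.Agent.Curve
  Fermat.Agent.Curve.PlaceAux IsDedekindDomain

section Crt

variable {F : Type*} [Field F] {P : T4Pres F} {k : Type*} (cst : k → ↥P.B)

/-- **(CRT), ring level**: prescribed constant residues at finitely many closed points -/
theorem mltc_crt_abs (T : Set (Ideal ↥P.B)) (hT : T.Finite) (hmax : ∀ 𝔫 ∈ T, 𝔫.IsMaximal)
    (x : Ideal ↥P.B → k) : ∃ b : ↥P.B, ∀ 𝔫 ∈ T, b - cst (x 𝔫) ∈ 𝔫 := by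
  haveI : Finite ↥T := hT.to_subtype
  have hcop : Pairwise (Function.onFun IsCoprime (fun 𝔫 : ↥T => (𝔫 : Ideal ↥P.B))) := by
    intro 𝔫 𝔫' hne
    show IsCoprime (𝔫 : Ideal ↥P.B) (𝔫' : Ideal ↥P.B)
    rw [Ideal.isCoprime_iff_sup_eq]
    exact Ideal.IsMaximal.coprime_of_ne (hmax _ 𝔫.2) (hmax _ 𝔫'.2)
      (fun h => hne (Subtype.ext h))
  obtain ⟨b, hb⟩ := Ideal.exists_forall_sub_mem_ideal hcop
    (fun 𝔫 : ↥T => cst (x (𝔫 : Ideal ↥P.B)))
  exact ⟨b, fun 𝔫 h𝔫 => hb ⟨𝔫, h𝔫⟩⟩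

end Crt

section Red

variable {F : Type*} [Field F] {P : T4Pres F} {Ov : Subring F} {hBO : P.B ≤ Ov}
  {k : Type*} [Field k] {cst : k → ↥P.B} {V : ValuationSubring F}
  {E : Type*} [Field E] [Algebra k E] {z : E}
  {R : MltJ4Red P Ov hBO cst V E z}

/-- the reduction of the (CRT) element has the prescribed value -/
theorem mltc_crt_val {𝔫 : Ideal ↥P.B} {Pl : Place k E} (h : R.PlaceAt 𝔫 Pl) {b : ↥P.B} {c : k}
    (hb : b - cst c ∈ 𝔫) : DlgVal Pl (R.ρ (Subring.inclusion hBO b)) c :=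
  (h.val_iff b c).mp hb

/-- the (CRT) element is not in `𝔫` if the prescribed value is not zero -/
theorem mltc_crt_not_mem {𝔫 : Ideal ↥P.B} {Pl : Place k E} (h : R.PlaceAt 𝔫 Pl) {b : ↥P.B} {c : k}
    (hc : c ≠ 0) (hb : b - cst c ∈ 𝔫) : b ∉ 𝔫 := by
  intro hmem
  have h1 : cst c ∈ 𝔫 := by
    have h2 : cst c = b - (b - cst c) := by ring
    rw [h2]
    exact 𝔫.sub_mem hmem hb
  exact hc ((h.cst_mem_iff c).mp h1)

variable [IsAlgClosed k] [hz : Fact (IsFunctionFieldGen k E z)]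
  [hsep : Algebra.IsSeparable (IntermediateField.adjoin k {z}) E]

/-- **(S₀-α), abstract**: an element of `B_𝔫 ∩ Ov` whose reduction on the branch `V` has a non-zero value at the
place of `𝔫` is a unit at all valuation rings through `𝔫` -/
theorem mltc_unit_of_loc_abs {𝔫 : Ideal ↥P.B} [h𝔫 : 𝔫.IsMaximal] {Pl : Place k E}
    (h : R.PlaceAt 𝔫 Pl) (hV : V ∈ P.through 𝔫) {w : F} (hw : w ∈ Ov)
    (hloc : ∀ V' ∈ P.through 𝔫, w ∈ V') {c : k} (hc : c ≠ 0)
    (hval : DlgVal Pl (R.ρ ⟨w, hw⟩) c) : ∀ V' ∈ P.through 𝔫, V'.valuation w = 1 := by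
  obtain ⟨c', hc', hlv⟩ := h.val_of_loc hV (⟨w, hloc⟩ : ↥(P.loc 𝔫)) hw
  have hcc : c' = c := hc'.unique hval
  subst hcc
  have hne : P.locVal 𝔫 (⟨w, hloc⟩ : ↥(P.loc 𝔫)) ≠ 0 := by
    rw [hlv]
    intro h0
    exact hc ((h.cst_mem_iff c').mp (Ideal.Quotient.eq_zero_iff_mem.mp h0))
  have hu : IsUnit (⟨w, hloc⟩ : ↥(P.loc 𝔫)) := by
    by_contra hnu
    exact hne ((P.locVal_eq_zero_iff _).mpr hnu)
  exact ((P.isUnit_loc_iff _).mp hu).2

end Red

end Fermat.Agent.MLT
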