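/-
MLT (project S59) / [L2-JL], case (γ), **(CRT)** and **(S₀-α)**, generic level (helper6): the three-valuation base
`t4vInput`, `(D, B) = (t4niAU, t4niBU)`, `P` a chart-1 presentation (the setting of helper5's `P4/RootsGen.lean`).

* `mltc_crt_gen`         : a unit `u ∈ D.U` which is a unit at all valuation rings through finitely many (at least
                           one) triple points and whose residue `rinf u` has prescribed non-zero values at their places;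
* `mltc_unit_of_loc_gen` : `w ∈ D.U` which lies in the local ring of a point `𝔫` of the branch `∞` and whose residue
                           `rinf w` has a non-zero value at the place of `𝔫` is a unit at all valuation rings through `𝔫`.
-/
import Mathlib
import Fermat.Agent.Lib.MLT.L2.Two.CrtAbs
import Fermat.Agent.Lib.MLT.L2.P4.RootsGen

set_option autoImplicit false
set_option linter.unusedSectionVars false
set_option linter.unusedVariables false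
set_option linter.style.haveILetI false
set_option synthInstance.maxHeartbeats 400000

open HahnSeries ModularCurve AlgebraicCurve Fermat.Agent.T1 Fermat.Agent.T2 Fermat.Agent.T4
  Fermat.Agent.Curve Fermat.Agent.Delta IntermediateField

noncomputable section

namespace Fermat.Agent.MLT

section Inst

attribute [local instance] t2iAlgebra t2i_isScalarTower

variable {L : Type} [Field L] [Algebra ℚ L] {O : ValuationSubring L} {k : Type} [Field k]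
  {π : ↥O →+* k} [IsDiscreteValuationRing ↥O] {hπ : Function.Surjective π} [IsAlgClosed k]
  {N' q : ℕ} [NeZero N'] [hq : Fact q.Prime] [CharP k q] {hN' : (N' : k) ≠ 0}
  (W1 : T2iAL L N' q) {Fr : T2iFrob k N' q} (W : T4iAL L N' q)
  (hqO : Irreducible ((q : ℕ) : ↥O))
  {L' : Type*} [Field L'] [Algebra L L'] (O' : ValuationSubring L')
  [IsDiscreteValuationRing ↥O'] (π' : ↥O' →+* k) (C : T4iCyc O O' π π' q)
  (M : T4iMid L L' N' q C.ζ)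
  {y0 : ↥(TaF L N')} (G : T4vmGood O π hπ hN' Fr y0)
  (P : T4Pres ↥(TaF L (N' * q * q)))
  (hB : ∀ f, f ∈ P.B ↔ f ∈ t2Int (K := L) (t4vA0 L N' q y0) ∧
    f ∈ (t4vInput O π hπ hN' W1 Fr W hqO O' π' C M).Ov)
  {z : ↥(modularFunctionFieldFullC k N')}
  (hz : ∀ t : ↥(modularFunctionFieldFullC k N'),
    IsIntegral ↥(Algebra.adjoin k {G.yb}) t ↔ IsIntegral ↥(Algebra.adjoin k {z}) t)
  {m : ℕ} (hm : m ≠ 0) (hqm : Nat.Coprime m q)

/-- **(CRT), generic level** -/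
theorem mltc_crt_gen (T : Set (Ideal ↥P.B)) (hT : T.Finite) (hne : T.Nonempty)
    (hmax : ∀ 𝔫 ∈ T, 𝔫.IsMaximal)
    (hi : ∀ 𝔫 ∈ T, t4vOinf (N' := N') (q := q) O π hπ ∈ P.through 𝔫)
    (hmid : ∀ 𝔫 ∈ T, t4vOmid O π hπ O' π' C M ∈ P.through 𝔫)
    (h0 : ∀ 𝔫 ∈ T, t4vO0 O π hπ W ∈ P.through 𝔫)
    (Pl : Ideal ↥P.B → Place k ↥(modularFunctionFieldFullC k N'))
    (hPl : ∀ 𝔫 ∈ T, (mltj4Red1 W1 W hqO O' π' C M G P hB hz).PlaceAt 𝔫 (Pl 𝔫))
    (x : Ideal ↥P.B → k) (hx : ∀ 𝔫 ∈ T, x 𝔫 ≠ 0) :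
    ∃ u : ↥(t4niAU O π hπ hN' W1 Fr W hqO O' π' C M m).U,
      (∀ 𝔫 ∈ T, ∀ V ∈ P.through 𝔫,
        V.valuation (((u : (↥(TaF L (N' * q * q)))ˣ)) : ↥(TaF L (N' * q * q))) = 1) ∧
      ∀ 𝔫 ∈ T, DlgVal (Pl 𝔫)
        (((t4niBU O π hπ hN' W1 Fr W hqO O' π' C M m hm hqm).rinf u :
          (↥(modularFunctionFieldFullC k N'))ˣ) : ↥(modularFunctionFieldFullC k N')) (x 𝔫) := by
  obtain ⟨b, hb⟩ := mltc_crt_abs (t4vkCst W1 W hqO O' π' C M P hB) T hT hmax x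
  have hnm : ∀ 𝔫 ∈ T, b ∉ 𝔫 := fun 𝔫 h𝔫 => mltc_crt_not_mem (hPl 𝔫 h𝔫) (hx 𝔫 h𝔫) (hb 𝔫 h𝔫)
  obtain ⟨𝔫₀, h𝔫₀⟩ := hne
  have hbO : ((b : ↥P.B) : ↥(TaF L (N' * q * q))) ∈
      (t4vInput O π hπ hN' W1 Fr W hqO O' π' C M).Ov :=
    t4vm_B_le W1 W hqO O' π' C M P hB b.2
  have v1 := P.valuation_eq_one_of_not_mem (hi 𝔫₀ h𝔫₀) (hnm 𝔫₀ h𝔫₀)
  have v2 := P.valuation_eq_one_of_not_mem (hmid 𝔫₀ h𝔫₀) (hnm 𝔫₀ h𝔫₀)
  have v3 := P.valuation_eq_one_of_not_mem (h0 𝔫₀ h𝔫₀) (hnm 𝔫₀ h𝔫₀)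
  have hb0 : ((b : ↥P.B) : ↥(TaF L (N' * q * q))) ≠ 0 := by
    intro h0'
    rw [h0', map_zero] at v1
    exact zero_ne_one v1
  have hinv : ∀ V : ValuationSubring ↥(TaF L (N' * q * q)),
      V.valuation ((b : ↥P.B) : ↥(TaF L (N' * q * q))) = 1 →
      ((b : ↥P.B) : ↥(TaF L (N' * q * q)))⁻¹ ∈ V := by
    intro V hV
    rw [← V.valuation_le_one_iff, map_inv₀, hV, inv_one]
  have hbO' : ((Units.mk0 _ hb0)⁻¹ : (↥(TaF L (N' * q * q)))ˣ).1 ∈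
      (t4vInput O π hπ hN' W1 Fr W hqO O' π' C M).Ov := by
    rw [mem_t4vInput_Ov_iff]
    exact ⟨hinv _ v1, hinv _ v3, hinv _ v2⟩
  have hU : Units.mk0 _ hb0 ∈ (t4niAU O π hπ hN' W1 Fr W hqO O' π' C M m).U :=
    t4ni_mem_U_of_mem_Ov O π hπ hN' W1 Fr W hqO O' π' C M m
      (t4ni_happrox O π hπ hN' W1 Fr W hqO O' π' C M) hbO hbO'
  refine ⟨⟨Units.mk0 _ hb0, hU⟩, fun 𝔫 h𝔫 V hV => ?_, fun 𝔫 h𝔫 => ?_⟩
  · exact P.valuation_eq_one_of_not_mem hV (hnm 𝔫 h𝔫)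
  · rw [← mltj4_red1_eq W1 W hqO O' π' C M G P hB hz hm hqm ⟨Units.mk0 _ hb0, hU⟩ hbO]
    exact mltc_crt_val (hPl 𝔫 h𝔫) (hb 𝔫 h𝔫)

variable [hgen : Fact (IsFunctionFieldGen k ↥(modularFunctionFieldFullC k N') z)]
  [hsep : Algebra.IsSeparable (IntermediateField.adjoin k {z}) ↥(modularFunctionFieldFullC k N')]

/-- **(S₀-α), generic level** -/
theorem mltc_unit_of_loc_gen {𝔫 : Ideal ↥P.B} [h𝔫 : 𝔫.IsMaximal]
    (hi : t4vOinf (N' := N') (q := q) O π hπ ∈ P.through 𝔫)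
    {Pl : Place k ↥(modularFunctionFieldFullC k N')}
    (p₁ : (mltj4Red1 W1 W hqO O' π' C M G P hB hz).PlaceAt 𝔫 Pl)
    (w : ↥(t4niAU O π hπ hN' W1 Fr W hqO O' π' C M m).U)
    (hloc : ∀ V ∈ P.through 𝔫,
      (((w : (↥(TaF L (N' * q * q)))ˣ)) : ↥(TaF L (N' * q * q))) ∈ V)
    {c : k} (hc : c ≠ 0)
    (hval : DlgVal Pl (((t4niBU O π hπ hN' W1 Fr W hqO O' π' C M m hm hqm).rinf w :
      (↥(modularFunctionFieldFullC k N'))ˣ) : ↥(modularFunctionFieldFullC k N')) c) :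
    ∀ V ∈ P.through 𝔫,
      V.valuation (((w : (↥(TaF L (N' * q * q)))ˣ)) : ↥(TaF L (N' * q * q))) = 1 := by
  have hw := (t4ni_mem_Ov_of_mem_U O π hπ hN' W1 Fr W hqO O' π' C M m
    (t4ni_happrox O π hπ hN' W1 Fr W hqO O' π' C M) w.2).1
  rw [← mltj4_red1_eq W1 W hqO O' π' C M G P hB hz hm hqm w hw] at hval
  exact mltc_unit_of_loc_abs p₁ hi hw hloc hc hval

end Inst

end Fermat.Agent.MLT
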