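/-
MLT (project S59) / [L2-JL], case (γ), **(CRT)** at helper9's exact literal (helper6):
`mltc_crtAt : MltjCrtAt 𝔓 K hK hζ h49 p hp0 hpq` (literal of `Contracts/L2Two.lean`): units `u ∈ D.U` at the triple
points of chart 1 whose residue `rinf u` has prescribed non-zero values at the supersingular places.
From `mltc_crt_gen` (`L2/Two/CrtGen.lean`) + helper5's identification `mltj4_SS_iff` and finiteness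
`mltj4_triple_finite` (`L2/P4/Ident.lean`).
-/
import Mathlib
import Fermat.Agent.Lib.MLT.Contracts.L2Two
import Fermat.Agent.Lib.MLT.L2.Two.CrtGen
import Fermat.Agent.Lib.MLT.L2.P4.Ident

set_option autoImplicit false
set_option linter.unusedSectionVars false
set_option linter.unusedVariables false
set_option linter.style.haveILetI false
set_option synthInstance.maxHeartbeats 400000

open HahnSeries ModularCurve AlgebraicCurve Fermat.Agent.T1 Fermat.Agent.T2 IntermediateField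
  Fermat.Agent.Curve Fermat.Agent.Curve.PlaceAux Fermat.Agent.TW Fermat.Agent.S05Lib Fermat.Agent.T4
  Fermat.Agent.Delta

noncomputable section

namespace Fermat.Agent.MLT

local notation "Qb" => AlgebraicClosure ℚ

attribute [local instance] t2i_dvr t2i_isAlgClosed t2i_charP t2i_fact t2iAlgebra t2i_isScalarTower

/-- **(CRT)** at the literal `MltjCrtAt` of `Contracts/L2Two.lean` -/
theorem mltc_crtAt (𝔓 : FFPlace) (K : ℕ) [NeZero K] (hK : ¬ 𝔓.p ∣ K) {ζ : Qb}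
    (hζ : IsPrimitiveRoot ζ 𝔓.p) (h49 : 4 ∣ K ∨ 9 ∣ K) (p : ℕ) (hp0 : p ≠ 0)
    (hpq : Nat.Coprime p 𝔓.p) : MltjCrtAt 𝔓 K hK hζ h49 p hp0 hpq := by
  intro x
  letI := t4cyAlgebra 𝔓 (le_top : t4cyH 𝔓 ζ ≤ ⊤)
  have hT := mltj4_triple_finite 𝔓 K hK hζ h49
  by_cases hne : {𝔫 : Ideal ↥(t4vyPFix 𝔓 K hK hζ).B | MltJ4TriplePt 𝔓 K hK hζ 𝔫}.Nonempty
  · have hex : ∀ 𝔫 : Ideal ↥(t4vyPFix 𝔓 K hK hζ).B,
        ∃ Pl : Place (IsLocalRing.ResidueField ↥𝔓.P) ↥(tbBarF 𝔓 K),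
          MltJ4TriplePt 𝔓 K hK hζ 𝔫 → MltJ4PlaceOf 𝔓 K hK hζ h49 𝔫 Pl := by
      intro 𝔫
      by_cases h𝔫 : MltJ4TriplePt 𝔓 K hK hζ 𝔫
      · obtain ⟨Pl, hPl⟩ := mltj4_exists_placeOf 𝔓 K hK hζ h49 h𝔫
        exact ⟨Pl, fun _ => hPl⟩
      · obtain ⟨𝔫₀, h𝔫₀⟩ := hne
        obtain ⟨Pl, -⟩ := mltj4_exists_placeOf 𝔓 K hK hζ h49 h𝔫₀
        exact ⟨Pl, fun h => absurd h h𝔫⟩
    choose Pl hPl using hex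
    obtain ⟨u, hu1, hu2⟩ := mltc_crt_gen (t2iALFix 𝔓 ⊤ K hK) (t4iALFix 𝔓 ⊤ K hK)
      (t4cy_irreducible_p 𝔓) (tbFixO 𝔓 (t4cyH 𝔓 ζ)) (tbFixRes 𝔓 (t4cyH 𝔓 ζ)) (t4iCycFix 𝔓 hζ)
      (t4vMidFix 𝔓 K hK hζ) (mltj4_fix_good 𝔓 K hK h49) (t4vyPFix 𝔓 K hK hζ)
      (mltj4_fix_hB 𝔓 K hK hζ) (mltj4_fix_hz 𝔓 K hK h49) (m := p) hp0 hpq
      {𝔫 : Ideal ↥(t4vyPFix 𝔓 K hK hζ).B | MltJ4TriplePt 𝔓 K hK hζ 𝔫} hT hne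
      (fun 𝔫 h𝔫 => h𝔫.1) (fun 𝔫 h𝔫 => h𝔫.2.1) (fun 𝔫 h𝔫 => h𝔫.2.2.1) (fun 𝔫 h𝔫 => h𝔫.2.2.2)
      Pl (fun 𝔫 h𝔫 => hPl 𝔫 h𝔫)
      (fun 𝔫 => ((x (Pl 𝔫) : (IsLocalRing.ResidueField ↥𝔓.P)ˣ) : IsLocalRing.ResidueField ↥𝔓.P))
      (fun 𝔫 _ => Units.ne_zero _)
    refine ⟨u, fun 𝔫 h𝔫 V hV => hu1 𝔫 h𝔫 V hV, fun Pl' hPl' => ?_⟩
    obtain ⟨𝔫, h𝔫, hp⟩ := (mltj4_SS_iff 𝔓 K hK hζ h49 Pl').mp hPl'
    obtain rfl : Pl' = Pl 𝔫 := mltj4_placeOf_unique 𝔓 K hK hζ h49 hp (hPl 𝔫 h𝔫)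
    exact hu2 𝔫 h𝔫
  · refine ⟨1, fun 𝔫 h𝔫 => absurd ⟨𝔫, h𝔫⟩ hne, fun Pl' hPl' => ?_⟩
    obtain ⟨𝔫, h𝔫, -⟩ := (mltj4_SS_iff 𝔓 K hK hζ h49 Pl').mp hPl'
    exact absurd ⟨𝔫, h𝔫⟩ hne

end Fermat.Agent.MLT
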