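/-
MLT (project S59) / [L2-JL], case (γ), for **(d')** (helper6), abstract: `F / F₀` an algebraic extension of
function fields over `K`, `x = A x₀` a separating generator of `F / K` coming from `F₀`.  A valuation subring
`V''` of `F` with the same restriction to `F₀` as a horizontal valuation ring `V'` of the chart `x` (a place of
`F / K` at which `x` is regular) is again a horizontal valuation ring of the chart `x`.
-/
import Mathlib
import Fermat.Agent.Lib.T4.Reg.UnrDvr
import Fermat.Agent.Lib.T4.Inst.PresChart

set_option autoImplicit false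
set_option linter.unusedSectionVars false
set_option linter.unusedVariables false
set_option linter.style.haveILetI false

namespace Fermat.Agent.MLT

open AlgebraicCurve Fermat.Agent.Curve Fermat.Agent.T4

/-- **a valuation subring with the same restriction to `F₀` as a horizontal one is horizontal** -/
theorem mltc_hor_of_comap {K F₀ F : Type*} [Field K] [Field F₀] [Field F] [Algebra K F₀]
    [Algebra K F] [Algebra F₀ F] [IsScalarTower K F₀ F] [Algebra.IsAlgebraic F₀ F] [CharZero K]
    {x₀ : F₀} (hx : IsFunctionFieldGen K F (algebraMap F₀ F x₀)) {V' V'' : ValuationSubring F}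
    (hV' : V' ∈ t4vpHor K (algebraMap F₀ F x₀))
    (h : V''.comap (algebraMap F₀ F) = V'.comap (algebraMap F₀ F)) :
    V'' ∈ t4vpHor K (algebraMap F₀ F x₀) := by
  obtain ⟨v, rfl, hxv⟩ := hV'
  have hmem : ∀ a : F₀, algebraMap F₀ F a ∈ V'' ↔ algebraMap F₀ F a ∈ v.toValuationSubring := by
    intro a
    rw [← ValuationSubring.mem_comap, ← ValuationSubring.mem_comap, h]
  have hK : ∀ c : K, algebraMap K F c ∈ V'' := by
    intro c
    rw [IsScalarTower.algebraMap_apply K F₀ F, hmem, ← IsScalarTower.algebraMap_apply K F₀ F]
    exact v.algebraMap_mem' c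
  have hne : V'' ≠ ⊤ := by
    intro htop
    apply v.ne_top'
    refine eq_top_iff.mpr fun f _ => ?_
    refine t4ru_mem_of_isIntegral v.toValuationSubring (R := F₀) (fun a => (hmem a).mp ?_)
      (Algebra.IsAlgebraic.isAlgebraic f).isIntegral
    rw [htop]
    trivial
  exact ⟨t4ruPlace hx V'' hK hne, rfl, (hmem x₀).mpr hxv⟩

end Fermat.Agent.MLT
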