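/-
MLT (project S59) / [L2-JL], case (γ), for **(d')** and the saturation of `Σ` (helper6), abstract level:
**`T4PresOver P₀ P` for two chart presentations with the same chart `x = A x₀`**, `F / F₀` a finite extension of
function fields over `L`, `P₀.vals = Hor(x₀) ∪ {O₀ i}`, `P.vals = Hor(x) ∪ {O i}`, where the vertical rings `O i`
restrict to the `O₀ i` and the characteristic polynomial over `F₀` of every element of `O i` has its
coefficients in `O₀ i` (unramified without defect: residue degree = degree).

* `mltc_isIntegralElem_of_charpoly` : an element whose characteristic polynomial has coefficients in a subring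
  is integral over it;
* `mltc_comap_hor` : the restriction of a horizontal valuation ring of the chart `A x₀` is a horizontal
  valuation ring of the chart `x₀`;
* `mltc_presOver_abs`.
-/
import Mathlib
import Fermat.Agent.Lib.T4.Inst.PresOver
import Fermat.Agent.Lib.T4.Reg.UnrDvr

set_option autoImplicit false
set_option linter.unusedSectionVars false
set_option linter.unusedVariables false
set_option linter.style.haveILetI false

namespace Fermat.Agent.MLT

open AlgebraicCurve Fermat.Agent.Curve Fermat.Agent.T4 Fermat.Agent.T2 Polynomial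

/-- an element whose characteristic polynomial has its coefficients in a subring is integral over it -/
theorem mltc_isIntegralElem_of_charpoly {F₀ F : Type*} [Field F₀] [Field F] [Algebra F₀ F]
    [FiniteDimensional F₀ F] (V : Subring F₀) (b : F)
    (h : ∀ n, (LinearMap.mulLeft F₀ b).charpoly.coeff n ∈ V) :
    ((algebraMap F₀ F).comp V.subtype).IsIntegralElem b := by
  have hχ : (↑(LinearMap.mulLeft F₀ b).charpoly.coeffs : Set F₀) ⊆ V := by
    intro c hc
    obtain ⟨n, -, rfl⟩ := Polynomial.mem_coeffs_iff.mp (Finset.mem_coe.mp hc)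
    exact h n
  refine ⟨(LinearMap.mulLeft F₀ b).charpoly.toSubring V hχ,
    (Polynomial.monic_toSubring _ V hχ).mpr (LinearMap.charpoly_monic _), ?_⟩
  rw [← Polynomial.eval₂_map, Polynomial.map_toSubring]
  have e : LinearMap.mulLeft F₀ b = Algebra.lmul F₀ F b := by
    ext x
    simp
  rw [e]
  exact Algebra.aeval_self_charpoly_lmul b

section Hor

variable {L F₀ F : Type*} [Field L] [CharZero L] [Field F₀] [Field F] [Algebra L F₀] [Algebra L F]
  [Algebra F₀ F] [IsScalarTower L F₀ F] [Algebra.IsAlgebraic F₀ F]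

/-- the restriction of a horizontal valuation ring of the chart `A x₀` is a horizontal valuation ring of the
chart `x₀` -/
theorem mltc_comap_hor {x₀ : F₀} (hx₀ : IsFunctionFieldGen L F₀ x₀) {V : ValuationSubring F}
    (hV : V ∈ t4vpHor L (algebraMap F₀ F x₀)) :
    V.comap (algebraMap F₀ F) ∈ t4vpHor L x₀ := by
  obtain ⟨v, rfl, hxv⟩ := hV
  have hK : ∀ c : L, algebraMap L F₀ c ∈ v.toValuationSubring.comap (algebraMap F₀ F) := by
    intro c
    rw [ValuationSubring.mem_comap, ← IsScalarTower.algebraMap_apply L F₀ F]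
    exact v.algebraMap_mem' c
  have hne : v.toValuationSubring.comap (algebraMap F₀ F) ≠ ⊤ := by
    intro htop
    apply v.ne_top'
    refine eq_top_iff.mpr fun f _ => ?_
    refine t4ru_mem_of_isIntegral v.toValuationSubring (R := F₀) (fun a => ?_)
      (Algebra.IsAlgebraic.isAlgebraic f).isIntegral
    rw [← ValuationSubring.mem_comap, htop]
    trivial
  exact ⟨t4ruPlace hx₀ _ hK hne, rfl, hxv⟩

end Hor

section Over

variable {L F₀ F : Type*} [Field L] [CharZero L] [Field F₀] [Field F] [Algebra L F₀] [Algebra L F]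
  [Algebra F₀ F] [IsScalarTower L F₀ F] [FiniteDimensional F₀ F]

/-- **`T4PresOver` for two chart presentations with the same chart** -/
theorem mltc_presOver_abs (P₀ : T4Pres F₀) (P : T4Pres F) {x₀ : F₀}
    (hx₀ : IsFunctionFieldGen L F₀ x₀) {ι : Type*} (O₀ : ι → ValuationSubring F₀)
    (O : ι → ValuationSubring F)
    (hvals₀ : P₀.vals = t4vpHor L x₀ ∪ Set.range O₀)
    (hvals : P.vals = t4vpHor L (algebraMap F₀ F x₀) ∪ Set.range O)
    (hB : ∀ b ∈ P.B, b ∈ t2Int (K := L) (algebraMap F₀ F x₀))
    (hdown : ∀ i, (O i).comap (algebraMap F₀ F) = O₀ i)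
    (hchar : ∀ i, ∀ b ∈ O i, ∀ n, (LinearMap.mulLeft F₀ b).charpoly.coeff n ∈ O₀ i) :
    T4PresOver P₀ P := by
  haveI : Algebra.IsAlgebraic F₀ F := Algebra.IsAlgebraic.of_finite F₀ F
  refine t4vq_presOver P₀ P ?_ (fun b _ => Algebra.IsIntegral.isIntegral b) ?_
  · intro b hb
    rw [P.mem_iff]
    intro V hV
    rw [← ValuationSubring.mem_comap]
    refine P₀.B_le ?_ hb
    rw [hvals] at hV
    rw [hvals₀]
    rcases hV with hV | ⟨i, rfl⟩
    · exact Or.inl (mltc_comap_hor hx₀ hV)
    · exact Or.inr ⟨i, (hdown i).symm⟩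
  · intro V₀ hV₀ b hb
    rw [hvals₀] at hV₀
    rcases hV₀ with hV₀ | ⟨i, rfl⟩
    · obtain ⟨v, rfl, hxv⟩ := hV₀
      refine t4vq_isIntegralElem_hor (K := L) (x1 := x₀) (x := algebraMap F₀ F x₀) ?_
        v.toValuationSubring v.algebraMap_mem' hxv (hB b hb)
      exact isIntegral_algebraMap (x := (⟨algebraMap F₀ F x₀,
        Algebra.self_mem_adjoin_singleton L _⟩ : ↥(Algebra.adjoin L {algebraMap F₀ F x₀})))
    · have hbO : b ∈ O i := P.B_le (by rw [hvals]; exact Or.inr ⟨i, rfl⟩) hb
      exact mltc_isIntegralElem_of_charpoly (O₀ i).toSubring b (hchar i b hbO)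

end Over

end Fermat.Agent.MLT
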