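/-
MLT (project S59) / [L2-JL], case (γ), for **(d')** (helper6): **the three vertical valuation rings of the level
`N' ℓ q²` restrict along `A_ℓ = mltl2hA L N' q ℓ` to the three vertical valuation rings of the level `N' q²`**
(`ℓ ≥ 1` arbitrary), generic level and inertia level.

* `mltc_inf_A_mem_iff`, `mltc_zero_A_mem_iff`, `mltc_mid_A_mem_iff` : `A x ∈ O'_* ↔ x ∈ O_*`;
* `mltc_comap_inf_fix`, `mltc_comap_mid_fix`, `mltc_comap_zero_fix` : `O'_*.comap A = O_*` at the inertia level;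
* `mltc_val_inf_fix`, … : `O'_*.valuation (A b) < 1 ↔ O_*.valuation b < 1`.
-/
import Mathlib
import Fermat.Agent.Lib.MLT.L2.HkCompat
import Fermat.Agent.Lib.T4.Inst.ValSubH

set_option autoImplicit false
set_option linter.unusedSectionVars false
set_option linter.unusedVariables false
set_option linter.style.haveILetI false
set_option synthInstance.maxHeartbeats 400000

open HahnSeries ModularCurve Fermat.Agent.T1 Fermat.Agent.T2 Fermat.Agent.T4 Fermat.Agent.Delta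
  IntermediateField Module AlgebraicCurve

noncomputable section

namespace Fermat.Agent.MLT

section Val

variable {L : Type} [Field L] [Algebra ℚ L] (O : ValuationSubring L) {k : Type*} [Field k]
  (π : ↥O →+* k) [IsDiscreteValuationRing ↥O] (hπ : Function.Surjective π) [IsAlgClosed k]
  {N' q ℓ : ℕ} [NeZero N'] [hq : Fact q.Prime] [NeZero ℓ] [CharP k q]
  (W : T4iAL L N' q) (W' : T4iAL L (N' * ℓ) q)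
  {L' : Type*} [Field L'] [Algebra L L'] (O' : ValuationSubring L')
  [IsDiscreteValuationRing ↥O'] (π' : ↥O' →+* k) (C : T4iCyc O O' π π' q)
  (M : T4iMid L L' N' q C.ζ) (M' : T4iMid L L' (N' * ℓ) q C.ζ)

theorem mltc_inf_A_mem_iff (x : ↥(TaF L (N' * q * q))) :
    mltl2hA L N' q ℓ x ∈ t4vOinf (N' := N' * ℓ) (q := q) O π hπ ↔
      x ∈ t4vOinf (N' := N') (q := q) O π hπ := by
  rw [mem_t4vOinf, coe_mltl2hA, mem_t4vOinf]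

theorem mltc_zero_A_mem_iff (x : ↥(TaF L (N' * q * q))) :
    mltl2hA L N' q ℓ x ∈ t4vO0 O π hπ W' ↔ x ∈ t4vO0 O π hπ W := by
  rw [mem_t4vO0, mltl2h_w_A hq.out W W', coe_mltl2hA, mem_t4vO0]

theorem mltc_mid_A_mem_iff (x : ↥(TaF L (N' * q * q))) :
    mltl2hA L N' q ℓ x ∈ t4vOmid O π hπ O' π' C M' ↔ x ∈ t4vOmid O π hπ O' π' C M := by
  rw [mem_t4vOmid, mltl2h_mid_A M M' hq.out, mem_t4vOmid]

end Val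

section Fix

open Fermat.Agent.TW Fermat.Agent.S05Lib

local notation "Qb" => AlgebraicClosure ℚ

attribute [local instance] t2i_dvr t2i_isAlgClosed t2i_charP t2i_fact t2iAlgebra t2i_isScalarTower

variable (𝔓 : FFPlace) (K ℓ : ℕ) [NeZero K] [NeZero ℓ] (hK : ¬ 𝔓.p ∣ K) (hKℓ : ¬ 𝔓.p ∣ K * ℓ)
  {ζ : Qb} (hζ : IsPrimitiveRoot ζ 𝔓.p)

theorem mltc_inf_A_mem_iff_fix (x : ↥(tbLevF 𝔓 (K * 𝔓.p * 𝔓.p) ⊤)) :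
    mltl2hA ↥(tbFix 𝔓 (⊤ : Subgroup 𝔓.I)) K 𝔓.p ℓ x ∈ t4vOinfFix 𝔓 (K * ℓ) ↔
      x ∈ t4vOinfFix 𝔓 K :=
  mltc_inf_A_mem_iff (tbFixO 𝔓 ⊤) (tbFixRes 𝔓 ⊤) (tbFixRes_surjective 𝔓 ⊤) x

theorem mltc_zero_A_mem_iff_fix (x : ↥(tbLevF 𝔓 (K * 𝔓.p * 𝔓.p) ⊤)) :
    mltl2hA ↥(tbFix 𝔓 (⊤ : Subgroup 𝔓.I)) K 𝔓.p ℓ x ∈ t4vO0Fix 𝔓 (K * ℓ) hKℓ ↔
      x ∈ t4vO0Fix 𝔓 K hK :=
  mltc_zero_A_mem_iff (tbFixO 𝔓 ⊤) (tbFixRes 𝔓 ⊤) (tbFixRes_surjective 𝔓 ⊤) (t4iALFix 𝔓 ⊤ K hK)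
    (t4iALFix 𝔓 ⊤ (K * ℓ) hKℓ) x

theorem mltc_mid_A_mem_iff_fix (x : ↥(tbLevF 𝔓 (K * 𝔓.p * 𝔓.p) ⊤)) :
    mltl2hA ↥(tbFix 𝔓 (⊤ : Subgroup 𝔓.I)) K 𝔓.p ℓ x ∈ t4vOmidFix 𝔓 (K * ℓ) hKℓ hζ ↔
      x ∈ t4vOmidFix 𝔓 K hK hζ := by
  letI := t4cyAlgebra 𝔓 (le_top : t4cyH 𝔓 ζ ≤ ⊤)
  exact mltc_mid_A_mem_iff (tbFixO 𝔓 ⊤) (tbFixRes 𝔓 ⊤) (tbFixRes_surjective 𝔓 ⊤)
    (tbFixO 𝔓 (t4cyH 𝔓 ζ)) (tbFixRes 𝔓 (t4cyH 𝔓 ζ)) (t4iCycFix 𝔓 hζ) (t4vMidFix 𝔓 K hK hζ)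
    (t4vMidFix 𝔓 (K * ℓ) hKℓ hζ) x

/-- `O'_inf ∩ A F₀ = O_inf` -/
theorem mltc_comap_inf_fix :
    (t4vOinfFix 𝔓 (K * ℓ)).comap (mltl2hA ↥(tbFix 𝔓 (⊤ : Subgroup 𝔓.I)) K 𝔓.p ℓ).toRingHom =
      t4vOinfFix 𝔓 K := by
  refine SetLike.ext fun x => ValuationSubring.mem_comap.trans ?_
  rw [AlgHom.toRingHom_eq_coe, RingHom.coe_coe]
  exact mltc_inf_A_mem_iff_fix 𝔓 K ℓ x

/-- `O'_0 ∩ A F₀ = O_0` -/
theorem mltc_comap_zero_fix :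
    (t4vO0Fix 𝔓 (K * ℓ) hKℓ).comap (mltl2hA ↥(tbFix 𝔓 (⊤ : Subgroup 𝔓.I)) K 𝔓.p ℓ).toRingHom =
      t4vO0Fix 𝔓 K hK := by
  refine SetLike.ext fun x => ValuationSubring.mem_comap.trans ?_
  rw [AlgHom.toRingHom_eq_coe, RingHom.coe_coe]
  exact mltc_zero_A_mem_iff_fix 𝔓 K ℓ hK hKℓ x

/-- `O'_mid ∩ A F₀ = O_mid` -/
theorem mltc_comap_mid_fix :
    (t4vOmidFix 𝔓 (K * ℓ) hKℓ hζ).comap
        (mltl2hA ↥(tbFix 𝔓 (⊤ : Subgroup 𝔓.I)) K 𝔓.p ℓ).toRingHom =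
      t4vOmidFix 𝔓 K hK hζ := by
  refine SetLike.ext fun x => ValuationSubring.mem_comap.trans ?_
  rw [AlgHom.toRingHom_eq_coe, RingHom.coe_coe]
  exact mltc_mid_A_mem_iff_fix 𝔓 K ℓ hK hKℓ hζ x

end Fix

end Fermat.Agent.MLT
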