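/-
MLT (project S59) / [L2-JL], case (γ), for **(d')** and the saturation of `Σ` (helper6), inertia level:
**chart 1 of the level `K e` lies over chart 1 of the level `K` along `A = mltl2hA L K q e`** (`e ≥ 1` arbitrary,
`q ∤ K e`, NO rigidity of `K`), and the Fix-level inputs of helper3's `TripleAbs.lean`
(`ι = Fin 3`, `O₀ = mltcO3 𝔓 K`, `O = mltcO3 𝔓 (K e)`).

* `mltcO3 𝔓 K hK hζ = ![O_inf, O_mid, O_0]`, `mltc_vals_eq`, `mltc_O3_mem_vals`, `mltc_O3_injective`;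
* `mltc_O3_comap` : `(O i).comap A = O₀ i`; `mltc_O3_compat` : `O₀ i (b) < 1 → O i (A b) < 1`;
* `mltc_O3_charpoly` : the characteristic polynomial along `A` of `b ∈ O i` has coefficients in `O₀ i`;
* **`mltc_presOver_A`** : `T4PresOver (t4vyPFix 𝔓 K) (t4vyPFix 𝔓 (K e))` along `A`;
* `mltcQ3`, `mltc_Q3_ne_zero`, `mltc_Q3_val` : `π i := q ∈ B₀`; `mltc_O3_vert`; **`mltc_O3_huniq`**;
* `mltc_triple_iff` : `MltJ4TriplePt ↔ Mltj3Triple … (mltcO3 …)`.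
-/
import Mathlib
import Fermat.Agent.Lib.MLT.L2.Two.VertCompat
import Fermat.Agent.Lib.MLT.L2.Two.CharpolyFixP
import Fermat.Agent.Lib.MLT.L2.Two.PresOverAbs
import Fermat.Agent.Lib.MLT.L2.P3.TripleAbs
import Fermat.Agent.Lib.MLT.L2.P4.Roots
import Fermat.Agent.Lib.T4.Inst.PresFix

set_option autoImplicit false
set_option linter.unusedSectionVars false
set_option linter.unusedVariables false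
set_option linter.style.haveILetI false
set_option synthInstance.maxHeartbeats 400000

open HahnSeries ModularCurve Fermat.Agent.T1 Fermat.Agent.T2 Fermat.Agent.T4 Fermat.Agent.Delta
  IntermediateField Module AlgebraicCurve Fermat.Agent.TW Fermat.Agent.S05Lib Fermat.Agent.Curve

noncomputable section

namespace Fermat.Agent.MLT

local notation "Qb" => AlgebraicClosure ℚ

attribute [local instance] t2i_dvr t2i_isAlgClosed t2i_charP t2i_fact t2iAlgebra t2i_isScalarTower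

section Gen

variable (L : Type) [Field L] [Algebra ℚ L] (N' q ℓ : ℕ) [NeZero N'] [NeZero q] [NeZero ℓ]

theorem mltc_A_taJ : mltl2hA L N' q ℓ (taJ (N' * q * q)) = taJ (N' * ℓ * q * q) := by
  apply Subtype.ext
  rw [coe_mltl2hA]
  rfl

/-- `A` maps the chart `X = j ^ Q - j` of the level `N'` to the chart of the level `N' ℓ` -/
theorem mltc_A_X (Q : ℕ) : mltl2hA L N' q ℓ (t4vX L N' q Q) = t4vX L (N' * ℓ) q Q := by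
  rw [t4vX, t4vX, map_sub, map_pow, mltc_A_taJ]

end Gen

section One

variable (𝔓 : FFPlace) (K : ℕ) [NeZero K] (hK : ¬ 𝔓.p ∣ K) {ζ : Qb} (hζ : IsPrimitiveRoot ζ 𝔓.p)

/-- the three vertical valuation rings of the level `K q²` -/
def mltcO3 : Fin 3 → ValuationSubring ↥(tbLevF 𝔓 (K * 𝔓.p * 𝔓.p) ⊤) :=
  ![t4vOinfFix 𝔓 K, t4vOmidFix 𝔓 K hK hζ, t4vO0Fix 𝔓 K hK]

theorem mltcO3_zero : mltcO3 𝔓 K hK hζ 0 = t4vOinfFix 𝔓 K := rfl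

theorem mltcO3_one : mltcO3 𝔓 K hK hζ 1 = t4vOmidFix 𝔓 K hK hζ := rfl

theorem mltcO3_two : mltcO3 𝔓 K hK hζ 2 = t4vO0Fix 𝔓 K hK := rfl

theorem mltc_range_O3 : Set.range (mltcO3 𝔓 K hK hζ) =
    {t4vOinfFix 𝔓 K, t4vOmidFix 𝔓 K hK hζ, t4vO0Fix 𝔓 K hK} := by
  ext V
  constructor
  · rintro ⟨i, rfl⟩
    fin_cases i
    · exact Or.inl rfl
    · exact Or.inr (Or.inl rfl)
    · exact Or.inr (Or.inr rfl)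
  · rintro (rfl | rfl | rfl)
    · exact ⟨0, rfl⟩
    · exact ⟨1, rfl⟩
    · exact ⟨2, rfl⟩

/-- the valuation rings of chart 1: horizontal ones and the three vertical ones -/
theorem mltc_vals_eq : (t4vyPFix 𝔓 K hK hζ).vals =
    t4vpHor ↥(tbFix 𝔓 (⊤ : Subgroup 𝔓.I))
      (t4vX ↥(tbFix 𝔓 (⊤ : Subgroup 𝔓.I)) K 𝔓.p (𝔓.p * 𝔓.p)) ∪
    Set.range (mltcO3 𝔓 K hK hζ) := by
  letI := t4cyAlgebra 𝔓 (le_top : t4cyH 𝔓 ζ ≤ ⊤)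
  rw [t4vyPFix_vals, t4vy_ver_eq, mltc_range_O3]

theorem mltc_O3_mem_vals (i : Fin 3) : mltcO3 𝔓 K hK hζ i ∈ (t4vyPFix 𝔓 K hK hζ).vals := by
  rw [mltc_vals_eq]
  exact Or.inr ⟨i, rfl⟩

/-- the three vertical valuation rings are pairwise different -/
theorem mltc_O3_injective : Function.Injective (mltcO3 𝔓 K hK hζ) := by
  letI := t4cyAlgebra 𝔓 (le_top : t4cyH 𝔓 ζ ≤ ⊤)
  have hmi : t4vOmidFix 𝔓 K hK hζ ≠ t4vOinfFix 𝔓 K :=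
    t4vOmid_ne_inf (tbFixO 𝔓 ⊤) (tbFixRes 𝔓 ⊤) (tbFixRes_surjective 𝔓 ⊤)
      (t2i_natCast_ne_zero 𝔓 hK) (t2iALFix 𝔓 ⊤ K hK) (t2iFrobFix 𝔓 K) (t4iALFix 𝔓 ⊤ K hK)
      (t4cy_irreducible_p 𝔓) (tbFixO 𝔓 (t4cyH 𝔓 ζ)) (tbFixRes 𝔓 (t4cyH 𝔓 ζ)) (t4iCycFix 𝔓 hζ)
      (t4vMidFix 𝔓 K hK hζ)
  have hm0 : t4vOmidFix 𝔓 K hK hζ ≠ t4vO0Fix 𝔓 K hK :=
    t4vOmid_ne_zero (tbFixO 𝔓 ⊤) (tbFixRes 𝔓 ⊤) (tbFixRes_surjective 𝔓 ⊤)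
      (t2i_natCast_ne_zero 𝔓 hK) (t2iALFix 𝔓 ⊤ K hK) (t2iFrobFix 𝔓 K) (t4iALFix 𝔓 ⊤ K hK)
      (t4cy_irreducible_p 𝔓) (tbFixO 𝔓 (t4cyH 𝔓 ζ)) (tbFixRes 𝔓 (t4cyH 𝔓 ζ)) (t4iCycFix 𝔓 hζ)
      (t4vMidFix 𝔓 K hK hζ)
  have h0i : t4vO0Fix 𝔓 K hK ≠ t4vOinfFix 𝔓 K :=
    t4vO0_ne_inf (tbFixO 𝔓 ⊤) (tbFixRes 𝔓 ⊤) (tbFixRes_surjective 𝔓 ⊤)
      (t2i_natCast_ne_zero 𝔓 hK) (t2iALFix 𝔓 ⊤ K hK) (t2iFrobFix 𝔓 K) (t4iALFix 𝔓 ⊤ K hK)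
      (t4cy_irreducible_p 𝔓) (tbFixO 𝔓 (t4cyH 𝔓 ζ)) (tbFixRes 𝔓 (t4cyH 𝔓 ζ)) (t4iCycFix 𝔓 hζ)
      (t4vMidFix 𝔓 K hK hζ)
  intro i j hij
  fin_cases i <;> fin_cases j
  · rfl
  · exact absurd hij.symm hmi
  · exact absurd hij.symm h0i
  · exact absurd hij hmi
  · rfl
  · exact absurd hij hm0
  · exact absurd hij h0i
  · exact absurd hij.symm hm0
  · rfl

/-- `q` is not a unit of the three vertical valuation rings -/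
theorem mltc_O3_val_Q (i : Fin 3) :
    (mltcO3 𝔓 K hK hζ i).valuation (t4vQFix 𝔓 K) < 1 := by
  have h : mltcO3 𝔓 K hK hζ i ∈ (t4vyPFix 𝔓 K hK hζ).vert (t4vQFix 𝔓 K) := by
    rw [t4vyPFix_vert, ← mltc_range_O3]
    exact ⟨i, rfl⟩
  exact h.2

/-- the valuation rings of chart 1 at which `q` is not a unit are the three vertical ones -/
theorem mltc_O3_vert (V : ValuationSubring ↥(tbLevF 𝔓 (K * 𝔓.p * 𝔓.p) ⊤))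
    (hV : V ∈ (t4vyPFix 𝔓 K hK hζ).vals) (hq : V.valuation (t4vQFix 𝔓 K) < 1) :
    ∃ j, V = mltcO3 𝔓 K hK hζ j := by
  have h : V ∈ (t4vyPFix 𝔓 K hK hζ).vert (t4vQFix 𝔓 K) := ⟨hV, hq⟩
  rw [t4vyPFix_vert, ← mltc_range_O3] at h
  obtain ⟨j, hj⟩ := h
  exact ⟨j, hj.symm⟩

theorem mltc_Q_mem_B : t4vQFix 𝔓 K ∈ (t4vyPFix 𝔓 K hK hζ).B := by
  rw [T4Pres.mem_iff, mltc_vals_eq]
  rintro V (hV | ⟨i, rfl⟩)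
  · exact t4vp_algebraMap_mem_hor hV _
  · exact (ValuationSubring.valuation_le_one_iff _ _).mp (mltc_O3_val_Q 𝔓 K hK hζ i).le

theorem mltc_Q_ne_zero : t4vQFix 𝔓 K ≠ 0 := by
  haveI : CharZero ↥(tbFix 𝔓 (⊤ : Subgroup 𝔓.I)) := algebraRat.charZero _
  rw [t4vQFix_eq]
  exact (map_ne_zero _).mpr (Nat.cast_ne_zero.mpr 𝔓.hp.ne_zero)

/-- `π i := q ∈ B` -/
def mltcQ3 : Fin 3 → ↥(t4vyPFix 𝔓 K hK hζ).B := fun _ => ⟨t4vQFix 𝔓 K, mltc_Q_mem_B 𝔓 K hK hζ⟩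

theorem mltc_Q3_ne_zero (i : Fin 3) : mltcQ3 𝔓 K hK hζ i ≠ 0 := by
  intro h0
  exact mltc_Q_ne_zero 𝔓 K (congrArg Subtype.val h0)

theorem mltc_Q3_val (i : Fin 3) :
    (mltcO3 𝔓 K hK hζ i).valuation
      ((mltcQ3 𝔓 K hK hζ i : ↥(t4vyPFix 𝔓 K hK hζ).B) : ↥(tbLevF 𝔓 (K * 𝔓.p * 𝔓.p) ⊤)) < 1 :=
  mltc_O3_val_Q 𝔓 K hK hζ i

/-- the dictionary between helper5's triple points and helper3's -/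
theorem mltc_triple_iff (𝔫 : Ideal ↥(t4vyPFix 𝔓 K hK hζ).B) :
    MltJ4TriplePt 𝔓 K hK hζ 𝔫 ↔ Mltj3Triple (t4vyPFix 𝔓 K hK hζ) (mltcO3 𝔓 K hK hζ) 𝔫 := by
  constructor
  · rintro ⟨hm, h1, h2, h3⟩
    refine ⟨hm, fun i => ?_⟩
    fin_cases i
    · exact h1
    · exact h2
    · exact h3
  · rintro ⟨hm, h⟩
    exact ⟨hm, h 0, h 1, h 2⟩

end One

section Two

variable (𝔓 : FFPlace) (K e : ℕ) [NeZero K] [NeZero e] (hK : ¬ 𝔓.p ∣ K) (hKe : ¬ 𝔓.p ∣ K * e)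
  {ζ : Qb} (hζ : IsPrimitiveRoot ζ 𝔓.p)

/-- the three vertical valuation rings of the level `K e` restrict to those of the level `K` -/
theorem mltc_O3_comap (i : Fin 3) :
    (mltcO3 𝔓 (K * e) hKe hζ i).comap
        (mltl2hA ↥(tbFix 𝔓 (⊤ : Subgroup 𝔓.I)) K 𝔓.p e).toRingHom =
      mltcO3 𝔓 K hK hζ i := by
  fin_cases i
  · exact mltc_comap_inf_fix 𝔓 K e
  · exact mltc_comap_mid_fix 𝔓 K e hK hKe hζ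
  · exact mltc_comap_zero_fix 𝔓 K e hK hKe

/-- `A` maps the centre of `O₀ i` into the centre of `O i` -/
theorem mltc_O3_compat (i : Fin 3) (b : ↥(tbLevF 𝔓 (K * 𝔓.p * 𝔓.p) ⊤))
    (hb : (mltcO3 𝔓 K hK hζ i).valuation b < 1) :
    (mltcO3 𝔓 (K * e) hKe hζ i).valuation
      (mltl2hA ↥(tbFix 𝔓 (⊤ : Subgroup 𝔓.I)) K 𝔓.p e b) < 1 := by
  letI : Algebra ↥(tbLevF 𝔓 (K * 𝔓.p * 𝔓.p) ⊤) ↥(tbLevF 𝔓 (K * e * 𝔓.p * 𝔓.p) ⊤) :=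
    (mltl2hA ↥(tbFix 𝔓 (⊤ : Subgroup 𝔓.I)) K 𝔓.p e).toRingHom.toAlgebra
  rw [← mltc_O3_comap 𝔓 K e hK hKe hζ i] at hb
  exact (t4l_valuation_comap_lt_one (mltcO3 𝔓 (K * e) hKe hζ i) b).mp hb

/-- the characteristic polynomial along `A` of an element of `O i` has its coefficients in `O₀ i` -/
theorem mltc_O3_charpoly (i : Fin 3) (b : ↥(tbLevF 𝔓 (K * e * 𝔓.p * 𝔓.p) ⊤))
    (hb : b ∈ mltcO3 𝔓 (K * e) hKe hζ i) (n : ℕ) :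
    letI : Algebra ↥(tbLevF 𝔓 (K * 𝔓.p * 𝔓.p) ⊤) ↥(tbLevF 𝔓 (K * e * 𝔓.p * 𝔓.p) ⊤) :=
      (mltl2hA ↥(tbFix 𝔓 (⊤ : Subgroup 𝔓.I)) K 𝔓.p e).toRingHom.toAlgebra
    haveI := mltc_finite_A_fix 𝔓 K e hK hKe hζ
    (LinearMap.mulLeft ↥(tbLevF 𝔓 (K * 𝔓.p * 𝔓.p) ⊤) b).charpoly.coeff n ∈
      mltcO3 𝔓 K hK hζ i := by
  fin_cases i
  · exact (mltc_charRed_inf_fix 𝔓 K e hK hKe hζ ⟨b, hb⟩ n).fst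
  · exact (mltc_charRed_mid_fix 𝔓 K e hK hKe hζ ⟨b, hb⟩ n).fst
  · exact (mltc_charRed_zero_fix 𝔓 K e hK hKe hζ ⟨b, hb⟩ n).fst

/-- **chart 1 of the level `K e` lies over chart 1 of the level `K` along `A`** -/
theorem mltc_presOver_A :
    letI : Algebra ↥(tbLevF 𝔓 (K * 𝔓.p * 𝔓.p) ⊤) ↥(tbLevF 𝔓 (K * e * 𝔓.p * 𝔓.p) ⊤) :=
      (mltl2hA ↥(tbFix 𝔓 (⊤ : Subgroup 𝔓.I)) K 𝔓.p e).toRingHom.toAlgebra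
    T4PresOver (t4vyPFix 𝔓 K hK hζ) (t4vyPFix 𝔓 (K * e) hKe hζ) := by
  letI : Algebra ↥(tbLevF 𝔓 (K * 𝔓.p * 𝔓.p) ⊤) ↥(tbLevF 𝔓 (K * e * 𝔓.p * 𝔓.p) ⊤) :=
    (mltl2hA ↥(tbFix 𝔓 (⊤ : Subgroup 𝔓.I)) K 𝔓.p e).toRingHom.toAlgebra
  haveI : IsScalarTower ↥(tbFix 𝔓 (⊤ : Subgroup 𝔓.I)) ↥(tbLevF 𝔓 (K * 𝔓.p * 𝔓.p) ⊤)
      ↥(tbLevF 𝔓 (K * e * 𝔓.p * 𝔓.p) ⊤) :=
    IsScalarTower.of_algebraMap_eq
      (fun c => ((mltl2hA ↥(tbFix 𝔓 (⊤ : Subgroup 𝔓.I)) K 𝔓.p e).commutes c).symm)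
  haveI := mltc_finite_A_fix 𝔓 K e hK hKe hζ
  haveI : CharZero ↥(tbFix 𝔓 (⊤ : Subgroup 𝔓.I)) := algebraRat.charZero _
  have hAX : algebraMap ↥(tbLevF 𝔓 (K * 𝔓.p * 𝔓.p) ⊤) ↥(tbLevF 𝔓 (K * e * 𝔓.p * 𝔓.p) ⊤)
      (t4vX ↥(tbFix 𝔓 (⊤ : Subgroup 𝔓.I)) K 𝔓.p (𝔓.p * 𝔓.p)) =
      t4vX ↥(tbFix 𝔓 (⊤ : Subgroup 𝔓.I)) (K * e) 𝔓.p (𝔓.p * 𝔓.p) :=
    mltc_A_X ↥(tbFix 𝔓 (⊤ : Subgroup 𝔓.I)) K 𝔓.p e (𝔓.p * 𝔓.p)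
  refine mltc_presOver_abs (L := ↥(tbFix 𝔓 (⊤ : Subgroup 𝔓.I))) (t4vyPFix 𝔓 K hK hζ)
    (t4vyPFix 𝔓 (K * e) hKe hζ) (t4vy_gen 𝔓 K) (mltcO3 𝔓 K hK hζ) (mltcO3 𝔓 (K * e) hKe hζ)
    (mltc_vals_eq 𝔓 K hK hζ) ?_ ?_ (mltc_O3_comap 𝔓 K e hK hKe hζ)
    (mltc_O3_charpoly 𝔓 K e hK hKe hζ)
  · rw [hAX]
    exact mltc_vals_eq 𝔓 (K * e) hKe hζ
  · intro b hb
    rw [hAX]
    exact ((mem_t4vyPFix_B 𝔓 (K * e) hKe hζ b).mp hb).1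

/-- **`O i` is the only valuation ring of chart 1 of the level `K e` over `O₀ i`** -/
theorem mltc_O3_huniq (i : Fin 3) :
    ∀ V ∈ (t4vyPFix 𝔓 (K * e) hKe hζ).vals,
      V.valuation (mltl2hA ↥(tbFix 𝔓 (⊤ : Subgroup 𝔓.I)) K 𝔓.p e
        ((mltcQ3 𝔓 K hK hζ i : ↥(t4vyPFix 𝔓 K hK hζ).B) : ↥(tbLevF 𝔓 (K * 𝔓.p * 𝔓.p) ⊤))) < 1 →
      (∀ b : ↥(t4vyPFix 𝔓 K hK hζ).B,
        V.valuation (mltl2hA ↥(tbFix 𝔓 (⊤ : Subgroup 𝔓.I)) K 𝔓.p e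
          (b : ↥(tbLevF 𝔓 (K * 𝔓.p * 𝔓.p) ⊤))) < 1 →
        (mltcO3 𝔓 K hK hζ i).valuation (b : ↥(tbLevF 𝔓 (K * 𝔓.p * 𝔓.p) ⊤)) < 1) →
      V = mltcO3 𝔓 (K * e) hKe hζ i := by
  letI : Algebra ↥(tbLevF 𝔓 (K * 𝔓.p * 𝔓.p) ⊤) ↥(tbLevF 𝔓 (K * e * 𝔓.p * 𝔓.p) ⊤) :=
    (mltl2hA ↥(tbFix 𝔓 (⊤ : Subgroup 𝔓.I)) K 𝔓.p e).toRingHom.toAlgebra
  refine mltj3_huniq_of_vert (mltc_presOver_A 𝔓 K e hK hKe hζ) (mltc_O3_mem_vals 𝔓 K hK hζ)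
    (mltc_O3_injective 𝔓 K hK hζ)
    (fun j b hb => mltc_O3_compat 𝔓 K e hK hKe hζ j (b : ↥(tbLevF 𝔓 (K * 𝔓.p * 𝔓.p) ⊤)) hb)
    (mltcQ3 𝔓 K hK hζ i) (fun V hV hq => ?_) i
  refine mltc_O3_vert 𝔓 (K * e) hKe hζ V hV ?_
  have e1 : mltl2hA ↥(tbFix 𝔓 (⊤ : Subgroup 𝔓.I)) K 𝔓.p e (t4vQFix 𝔓 K) = t4vQFix 𝔓 (K * e) :=
    mltl2hA_Q ↥(tbFix 𝔓 (⊤ : Subgroup 𝔓.I)) K 𝔓.p e
  rw [← e1]
  exact hq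

end Two

end Fermat.Agent.MLT
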