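/-
MLT (project S59) / [L2-JL], case (γ), **(d')** at helper9's exact literal (helper6):
`mltc_extThroughAt : MltjExtThroughAt 𝔓 K₀ e hK hζ` (literal of `Contracts/L2Two.lean`): every valuation ring of
`F` (level `K₀ e`) with the same restriction to `A F₀` as a horizontal valuation ring `V'` through a triple point
of chart 1 of the level `K₀ e` is again through a triple point.
From helper3's abstract `mltj3_ext_through_comap` (`L2/P3/TripleAbs.lean`) + the Fix-level inputs of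
`L2/Two/PresOverA.lean` + `mltc_hor_of_comap` (`L2/Two/ExtHor.lean`).
-/
import Mathlib
import Fermat.Agent.Lib.MLT.Contracts.L2Two
import Fermat.Agent.Lib.MLT.L2.Two.PresOverA
import Fermat.Agent.Lib.MLT.L2.Two.ExtHor

set_option autoImplicit false
set_option linter.unusedSectionVars false
set_option linter.unusedVariables false
set_option linter.style.haveILetI false
set_option synthInstance.maxHeartbeats 400000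

open HahnSeries ModularCurve Fermat.Agent.T1 Fermat.Agent.T2 Fermat.Agent.T4 Fermat.Agent.Delta
  IntermediateField Module AlgebraicCurve Fermat.Agent.TW Fermat.Agent.S05Lib Fermat.Agent.Curve

noncomputable section

namespace Fermat.Agent.MLT

local notation "Qb" => AlgebraicClosure ℚ

attribute [local instance] t2i_dvr t2i_isAlgClosed t2i_charP t2i_fact t2iAlgebra t2i_isScalarTower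

/-- **(d')** at the literal `MltjExtThroughAt` of `Contracts/L2Two.lean` -/
theorem mltc_extThroughAt (𝔓 : FFPlace) (K₀ e : ℕ) [NeZero K₀] [NeZero e]
    (hK : ¬ 𝔓.p ∣ K₀ * e) {ζ : Qb} (hζ : IsPrimitiveRoot ζ 𝔓.p) :
    MltjExtThroughAt 𝔓 K₀ e hK hζ := by
  intro 𝔫' h𝔫' V' hV' h1 h2 h3 V'' hVV
  have hK₀ : ¬ 𝔓.p ∣ K₀ := fun h => hK (dvd_mul_of_dvd_left h e)
  letI : Algebra ↥(tbLevF 𝔓 (K₀ * 𝔓.p * 𝔓.p) ⊤) ↥(tbLevF 𝔓 (K₀ * e * 𝔓.p * 𝔓.p) ⊤) :=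
    (mltl2hA ↥(tbFix 𝔓 (⊤ : Subgroup 𝔓.I)) K₀ 𝔓.p e).toRingHom.toAlgebra
  haveI : IsScalarTower ↥(tbFix 𝔓 (⊤ : Subgroup 𝔓.I)) ↥(tbLevF 𝔓 (K₀ * 𝔓.p * 𝔓.p) ⊤)
      ↥(tbLevF 𝔓 (K₀ * e * 𝔓.p * 𝔓.p) ⊤) :=
    IsScalarTower.of_algebraMap_eq
      (fun c => ((mltl2hA ↥(tbFix 𝔓 (⊤ : Subgroup 𝔓.I)) K₀ 𝔓.p e).commutes c).symm)
  haveI := mltc_finite_A_fix 𝔓 K₀ e hK₀ hK hζ
  haveI : Algebra.IsAlgebraic ↥(tbLevF 𝔓 (K₀ * 𝔓.p * 𝔓.p) ⊤)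
      ↥(tbLevF 𝔓 (K₀ * e * 𝔓.p * 𝔓.p) ⊤) := Algebra.IsAlgebraic.of_finite _ _
  haveI : CharZero ↥(tbFix 𝔓 (⊤ : Subgroup 𝔓.I)) := algebraRat.charZero _
  have hAX : algebraMap ↥(tbLevF 𝔓 (K₀ * 𝔓.p * 𝔓.p) ⊤) ↥(tbLevF 𝔓 (K₀ * e * 𝔓.p * 𝔓.p) ⊤)
      (t4vX ↥(tbFix 𝔓 (⊤ : Subgroup 𝔓.I)) K₀ 𝔓.p (𝔓.p * 𝔓.p)) =
      t4vX ↥(tbFix 𝔓 (⊤ : Subgroup 𝔓.I)) (K₀ * e) 𝔓.p (𝔓.p * 𝔓.p) :=
    mltc_A_X ↥(tbFix 𝔓 (⊤ : Subgroup 𝔓.I)) K₀ 𝔓.p e (𝔓.p * 𝔓.p)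
  -- `V'` is horizontal
  have hV'hor : V' ∈ t4vpHor ↥(tbFix 𝔓 (⊤ : Subgroup 𝔓.I))
      (algebraMap ↥(tbLevF 𝔓 (K₀ * 𝔓.p * 𝔓.p) ⊤) ↥(tbLevF 𝔓 (K₀ * e * 𝔓.p * 𝔓.p) ⊤)
        (t4vX ↥(tbFix 𝔓 (⊤ : Subgroup 𝔓.I)) K₀ 𝔓.p (𝔓.p * 𝔓.p))) := by
    have h4 := hV'.1
    rw [mltc_vals_eq, ← hAX] at h4
    rcases h4 with h4 | ⟨i, hi⟩
    · exact h4
    · exfalso
      fin_cases i
      · exact h1 hi.symm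
      · exact h2 hi.symm
      · exact h3 hi.symm
  have hgen : IsFunctionFieldGen ↥(tbFix 𝔓 (⊤ : Subgroup 𝔓.I))
      ↥(tbLevF 𝔓 (K₀ * e * 𝔓.p * 𝔓.p) ⊤)
      (algebraMap ↥(tbLevF 𝔓 (K₀ * 𝔓.p * 𝔓.p) ⊤) ↥(tbLevF 𝔓 (K₀ * e * 𝔓.p * 𝔓.p) ⊤)
        (t4vX ↥(tbFix 𝔓 (⊤ : Subgroup 𝔓.I)) K₀ 𝔓.p (𝔓.p * 𝔓.p))) := by
    rw [hAX]
    exact t4vy_gen 𝔓 (K₀ * e)
  have hV''hor := mltc_hor_of_comap hgen hV'hor hVV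
  have hV''vals : V'' ∈ (t4vyPFix 𝔓 (K₀ * e) hK hζ).vals := by
    rw [mltc_vals_eq, ← hAX]
    exact Or.inl hV''hor
  have key := mltj3_ext_through_comap (mltc_presOver_A 𝔓 K₀ e hK₀ hK hζ)
    (mltc_O3_mem_vals 𝔓 K₀ hK₀ hζ)
    (fun i b hb => mltc_O3_compat 𝔓 K₀ e hK₀ hK hζ i (b : ↥(tbLevF 𝔓 (K₀ * 𝔓.p * 𝔓.p) ⊤)) hb)
    (mltcQ3 𝔓 K₀ hK₀ hζ) (mltc_Q3_ne_zero 𝔓 K₀ hK₀ hζ) (mltc_Q3_val 𝔓 K₀ hK₀ hζ)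
    (mltc_O3_huniq 𝔓 K₀ e hK₀ hK hζ) 𝔫' ((mltc_triple_iff 𝔓 (K₀ * e) hK hζ 𝔫').mp h𝔫') V' hV'
    V'' hV''vals hVV
  obtain ⟨𝔫'', h𝔫'', hthr⟩ := key
  exact ⟨𝔫'', (mltc_triple_iff 𝔓 (K₀ * e) hK hζ 𝔫'').mpr h𝔫'', hthr⟩

end Fermat.Agent.MLT
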