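/-
MLT / [L2] / (γ) (helper1), (TRANSFER) part 1: **the two norms `N_α, N_β : F_{N' q q} → F_{N' q}` commute with the
change of level `N' → N' ℓ`** (`q ∣` the level, so the base change lemmas `dlwPushA_pull/_B_pull` do not apply).

`A = mltl2hA L N' q ℓ : F_{N' q q} → F_{N' ℓ q q}`, `A₁ = mltjtA1 L N' q ℓ : F_{N' q} → F_{N' ℓ q}` (the same Laurent
series).
* `mltjt_normB_A` : `N_β (A y) = A₁ (N_β y)`, from the level-independent product formula
                    `(N_β y)(𝔮^q) = ∏_{b<q} y(ζ^b 𝔮)` (`t4vnNormB_eq_prod`);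
* `mltjt_w1_A`    : `w¹ ∘ A₁ = A₁ ∘ w¹` for the Atkin–Lehner involutions of the levels `N' ℓ q`, `N' q`;
* `mltjt_normA_A` : `N_α (A y) = A₁ (N_α y)`, from `N_α = w¹ ∘ N_β ∘ w` (`t4vn_w_normA`) and helper7's `mltl2h_w_A`.
-/
import Mathlib
import Fermat.Agent.Lib.MLT.L2.HkLevel
import Fermat.Agent.Lib.T4.Inst.NormProd

set_option autoImplicit false
set_option linter.unusedSectionVars false
set_option linter.unusedVariables false
set_option linter.style.haveILetI false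
set_option synthInstance.maxHeartbeats 400000

open HahnSeries ModularCurve Fermat.Agent.T1 Fermat.Agent.T2 Fermat.Agent.T4 Fermat.Agent.TW
  IntermediateField Module

noncomputable section

namespace Fermat.Agent.MLT

section Level

variable (L : Type) [Field L] [Algebra ℚ L] (N' q ℓ : ℕ) [NeZero N'] [NeZero q] [NeZero ℓ]

theorem mltjt_level_eq : N' * q * ℓ = N' * ℓ * q := by ring

/-- `A₁ : F_{N' q} → F_{N' ℓ q}`, the same Laurent series -/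
def mltjtA1 : ↥(TaF L (N' * q)) →ₐ[L] ↥(TaF L (N' * ℓ * q)) :=
  (IntermediateField.inclusion (le_of_eq (congrArg (TaF L) (mltjt_level_eq N' q ℓ)))).comp
    (heckeAlphaBar L (N' * q) ℓ)

variable {L N' q ℓ}

@[simp] theorem coe_mltjtA1 (x : ↥(TaF L (N' * q))) :
    ((mltjtA1 L N' q ℓ x : ↥(TaF L (N' * ℓ * q))) : LaurentSeries L) = (x : LaurentSeries L) := by
  rw [mltjtA1, AlgHom.comp_apply, IntermediateField.coe_inclusion, coe_heckeAlphaBar]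

theorem mltjtA1_injective : Function.Injective (mltjtA1 L N' q ℓ) := fun x y h => by
  have h1 := congrArg (fun z : ↥(TaF L (N' * ℓ * q)) => (z : LaurentSeries L)) h
  simp only [coe_mltjtA1] at h1
  exact Subtype.ext h1

/-- `A₁ ∘ α_q = α_q ∘ α_ℓ` -/
theorem mltjtA1_alpha (f : ↥(TaF L N')) :
    mltjtA1 L N' q ℓ (heckeAlphaBar L N' q f) =
      heckeAlphaBar L (N' * ℓ) q (heckeAlphaBar L N' ℓ f) := by
  apply Subtype.ext
  rw [coe_mltjtA1, coe_heckeAlphaBar, coe_heckeAlphaBar, coe_heckeAlphaBar]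

/-- `A₁ ∘ β_q = β_q ∘ α_ℓ` -/
theorem mltjtA1_beta (f : ↥(TaF L N')) :
    mltjtA1 L N' q ℓ (heckeBetaBar L N' q f) =
      heckeBetaBar L (N' * ℓ) q (heckeAlphaBar L N' ℓ f) := by
  apply Subtype.ext
  rw [coe_mltjtA1, coe_heckeBetaBar, coe_heckeBetaBar, coe_heckeAlphaBar]

/-- **`w¹ ∘ A₁ = A₁ ∘ w¹`** -/
theorem mltjt_w1_A (hq : q.Prime) (W1 : T2iAL L N' q) (W1' : T2iAL L (N' * ℓ) q)
    (g : ↥(TaF L (N' * q))) :
    W1'.w (mltjtA1 L N' q ℓ g) = mltjtA1 L N' q ℓ (W1.w g) := by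
  have key : ((W1'.w : ↥(TaF L (N' * ℓ * q)) ≃ₐ[L] ↥(TaF L (N' * ℓ * q))) :
        ↥(TaF L (N' * ℓ * q)) →+* ↥(TaF L (N' * ℓ * q))).comp (mltjtA1 L N' q ℓ).toRingHom
      = (mltjtA1 L N' q ℓ).toRingHom.comp
        ((W1.w : ↥(TaF L (N' * q)) ≃ₐ[L] ↥(TaF L (N' * q))) :
          ↥(TaF L (N' * q)) →+* ↥(TaF L (N' * q))) := by
    apply t4vn_ringHom_ext_ab L N' q hq
    · intro f
      show W1'.w (mltjtA1 L N' q ℓ (heckeAlphaBar L N' q f)) =
        mltjtA1 L N' q ℓ (W1.w (heckeAlphaBar L N' q f))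
      rw [mltjtA1_alpha, W1'.w_alpha, W1.w_alpha, mltjtA1_beta]
    · intro f
      show W1'.w (mltjtA1 L N' q ℓ (heckeBetaBar L N' q f)) =
        mltjtA1 L N' q ℓ (W1.w (heckeBetaBar L N' q f))
      rw [mltjtA1_beta, W1'.w_beta, W1.w_beta, mltjtA1_alpha]
  exact RingHom.congr_fun key g

/-- **`N_β (A y) = A₁ (N_β y)`** -/
theorem mltjt_normB_A {L' : Type*} [Field L'] [Algebra L L'] {ζ : L'ˣ}
    (W : T4iAL L N' q) (W1 : T2iAL L N' q) (W' : T4iAL L (N' * ℓ) q) (W1' : T2iAL L (N' * ℓ) q)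
    (hq : q.Prime) (hζq : ζ ^ q = 1) (hζ1 : ζ ≠ 1)
    (hdeg : @Module.finrank ↥(TaF L (N' * q)) ↥(TaF L (N' * q * q)) _ _
        (@Algebra.toModule _ _ _ _ (t2iAlgebra L (N' * q) q)) = q)
    (hdeg' : @Module.finrank ↥(TaF L (N' * ℓ * q)) ↥(TaF L (N' * ℓ * q * q)) _ _
        (@Algebra.toModule _ _ _ _ (t2iAlgebra L (N' * ℓ * q) q)) = q)
    (y : ↥(TaF L (N' * q * q))) :
    t4vnNormB L (N' * ℓ) q (mltl2hA L N' q ℓ y) = mltjtA1 L N' q ℓ (t4vnNormB L N' q y) := by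
  apply Subtype.ext
  rw [coe_mltjtA1]
  have h1 := t4vnNormB_eq_prod (L' := L') (ζ := ζ) W' W1' hq hζq hζ1 hdeg' (mltl2hA L N' q ℓ y)
  have h2 := t4vnNormB_eq_prod (L' := L') (ζ := ζ) W W1 hq hζq hζ1 hdeg y
  rw [coe_mltl2hA, ← h2] at h1
  have hinj : Function.Injective (coeffMap (algebraMap L L')) := by
    intro a b hab
    ext k
    apply (algebraMap L L').injective
    rw [← coeffMap_coeff, ← coeffMap_coeff, hab]
  exact qExpand_injective (R := L) q (hinj h1)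

/-- **`N_α (A y) = A₁ (N_α y)`** -/
theorem mltjt_normA_A {L' : Type*} [Field L'] [Algebra L L'] {ζ : L'ˣ}
    (W : T4iAL L N' q) (W1 : T2iAL L N' q) (W' : T4iAL L (N' * ℓ) q) (W1' : T2iAL L (N' * ℓ) q)
    (hq : q.Prime) (hζq : ζ ^ q = 1) (hζ1 : ζ ≠ 1)
    (hdeg : @Module.finrank ↥(TaF L (N' * q)) ↥(TaF L (N' * q * q)) _ _
        (@Algebra.toModule _ _ _ _ (t2iAlgebra L (N' * q) q)) = q)
    (hdeg' : @Module.finrank ↥(TaF L (N' * ℓ * q)) ↥(TaF L (N' * ℓ * q * q)) _ _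
        (@Algebra.toModule _ _ _ _ (t2iAlgebra L (N' * ℓ * q) q)) = q)
    (y : ↥(TaF L (N' * q * q))) :
    t4vnNormA L (N' * ℓ) q (mltl2hA L N' q ℓ y) = mltjtA1 L N' q ℓ (t4vnNormA L N' q y) := by
  have hA : ∀ (z : ↥(TaF L (N' * q * q))),
      t4vnNormA L N' q z = W1.w (t4vnNormB L N' q (W.w z)) := by
    intro z
    rw [← t4vn_w_normA W W1 hq z, W1.w_w]
  have hA' : ∀ (z : ↥(TaF L (N' * ℓ * q * q))),
      t4vnNormA L (N' * ℓ) q z = W1'.w (t4vnNormB L (N' * ℓ) q (W'.w z)) := by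
    intro z
    rw [← t4vn_w_normA W' W1' hq z, W1'.w_w]
  rw [hA', mltl2h_w_A hq W W', mltjt_normB_A (L' := L') (ζ := ζ) W W1 W' W1' hq hζq hζ1 hdeg hdeg',
    mltjt_w1_A hq W1 W1', ← hA]

end Level

end Fermat.Agent.MLT
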