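/-
MLT / [L2] / (γ) (helper1), (TRANSFER) part 2: **transfer of the Kummer data from the level `K₀` to the level
`K₀ e`** along `A = mltl2hA L K₀ q e : F_L(K₀ q q) → F_L(K₀ e q q)` (the same Laurent series), `L = tbFix 𝔓 ⊤`,
`D₀ = t4niAFix 𝔓 K₀ hK₀ hζ p`, `D = t4niAFix 𝔓 (K₀ e) hK hζ p`.

* `mltjt_Nα_A`, `mltjt_Nβ_A` : `D.Nα (A y) = A₁ (D₀.Nα y)`, `D.Nβ (A y) = A₁ (D₀.Nβ y)`;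
* `mltjt_hα`, `mltjt_hβ`     : the norm relations `N y = c · g ^ p` pass from `y` to `A y`;
* `mltjt_phi_A`              : `Φ (A y) = dlwInclU (Φ y)`;
* `mltjt_hy`, `mltjt_mem_tWsub`, `mltjt_class` : the Kummer conditions over `ℚ̄` and over `L` for `A y`, and
                               `class (Φ (A y)) = dlwPullDvd (class (Φ y))`;
* `mltjt_pull_ne_zero`, `mltjt_pull_mem_eig` : the pull-back of a non-zero `p`-torsion class is non-zero; the pull-back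
                               of the `W`-eigenspace lies in the `W`-eigenspace;
* `mltjt_transfer`           : the package, for `y : D.U` with `(y : Fˣ) = Units.map A y₁` (e.g. `y = mltjAU … y₁`).
-/
import Mathlib
import Fermat.Agent.Lib.MLT.L2.Two.TransferNorm
import Fermat.Agent.Lib.MLT.L2.HkNormBC
import Fermat.Agent.Lib.MLT.L2.AbDefs
import Fermat.Agent.Lib.T4.New.ProdBInst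
import Fermat.Agent.Lib.T4.Reg.UnrCfeInst
import Fermat.Agent.Lib.T4.New.Reduce
import Fermat.Agent.Lib.Delta.Wire.PullDvd

set_option autoImplicit false
set_option linter.unusedSectionVars false
set_option linter.unusedVariables false
set_option linter.style.haveILetI false
set_option synthInstance.maxHeartbeats 400000
set_option maxHeartbeats 1000000

open WeierstrassCurve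

noncomputable section

namespace Fermat.Agent.MLT

open ModularCurve HahnSeries Fermat.Agent.T1 Fermat.Agent.T2 Fermat.Agent.T4 Fermat.Agent.TW
  Fermat.Agent.Delta Fermat.Agent.T3 Fermat.Agent.Alpha AlgebraicCurve Fermat.Agent.Curve
  Fermat.Agent.S05Lib

local notation "Qb" => AlgebraicClosure ℚ

/-! ### General facts on Kummer classes and pull-backs -/

section General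

variable {k E : Type*} [Field k] [Field E] [Algebra k E] [HasPrincipalDivisors k E]

/-- the Kummer class depends only on the function -/
theorem mltjt_class_congr {m : ℕ} (hm : m ≠ 0) {y y' : Eˣ} (h : y = y')
    (hy : ∀ v : Place k E, (m : ℤ) ∣ v.ord (y : E)) (hy' : ∀ v : Place k E, (m : ℤ) ∣ v.ord (y' : E)) :
    alpfClass hm y hy = alpfClass hm y' hy' := by
  subst h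
  rfl

/-- Kummer classes of exponent `m` are `m`-torsion -/
theorem mltjt_class_torsion {m : ℕ} (hm : m ≠ 0) (y : Eˣ)
    (hy : ∀ v : Place k E, (m : ℤ) ∣ v.ord (y : E)) : m • alpfClass hm y hy = 0 := by
  have h : (m : ℤ) • alpfClass hm y hy = 0 := by
    unfold alpfClass Pic0.mk
    rw [← QuotientAddGroup.mk_zsmul, QuotientAddGroup.eq_zero_iff, AddSubgroup.mem_addSubgroupOf]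
    refine ⟨(y : E), y.ne_zero, fun v => ?_⟩
    show ((m : ℤ) • alpfDivQuot (K := k) m y) v = _
    rw [alpf_smul_divQuot hy, alpfDiv_apply]
  rwa [natCast_zsmul] at h

/-- the Kummer class of `1` vanishes -/
theorem mltjt_class_one {m : ℕ} (hm : m ≠ 0)
    (h1 : ∀ v : Place k E, (m : ℤ) ∣ v.ord ((1 : Eˣ) : E)) :
    alpfClass hm (1 : Eˣ) h1 = 0 := by
  have h2 := alpfClass_pow (K := k) hm (1 : Eˣ) (fun v => by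
    rw [one_pow, Units.val_one, Place.ord_one]; exact dvd_zero _)
  rw [← h2]
  exact mltjt_class_congr hm (one_pow m).symm _ _

/-- the Kummer class of a power -/
theorem mltjt_class_npow {m : ℕ} (hm : m ≠ 0) (y : Eˣ)
    (hy : ∀ v : Place k E, (m : ℤ) ∣ v.ord (y : E)) (n : ℕ)
    (hy' : ∀ v : Place k E, (m : ℤ) ∣ v.ord ((y ^ n : Eˣ) : E)) :
    alpfClass hm (y ^ n) hy' = n • alpfClass hm y hy := by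
  induction n with
  | zero =>
    rw [zero_nsmul]
    have h1 : ∀ v : Place k E, (m : ℤ) ∣ v.ord ((1 : Eˣ) : E) := fun v => by
      rw [Units.val_one, Place.ord_one]; exact dvd_zero _
    rw [mltjt_class_congr hm (pow_zero y) hy' h1, mltjt_class_one]
  | succ n ih =>
    have hn : ∀ v : Place k E, (m : ℤ) ∣ v.ord ((y ^ n : Eˣ) : E) := by
      intro v
      rw [Units.val_pow_eq_pow_val, ← zpow_natCast, v.ord_zpow]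
      exact Dvd.dvd.mul_left (hy v) _
    have hmul : ∀ v : Place k E, (m : ℤ) ∣ v.ord ((y ^ n * y : Eˣ) : E) := by
      intro v
      rw [← pow_succ]
      exact hy' v
    rw [mltjt_class_congr hm (pow_succ y n) hy' hmul, alpfClass_mul hm (y ^ n) y hn hy hmul, ih hn,
      succ_nsmul]

/-- **the class of `y ^ n · t ^ m` is `n` times the class of `y`** -/
theorem mltjt_class_pow_mul {m : ℕ} (hm : m ≠ 0) (y t : Eˣ)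
    (hy : ∀ v : Place k E, (m : ℤ) ∣ v.ord (y : E)) (n : ℕ)
    (hy' : ∀ v : Place k E, (m : ℤ) ∣ v.ord ((y ^ n * t ^ m : Eˣ) : E)) :
    alpfClass hm (y ^ n * t ^ m) hy' = n • alpfClass hm y hy := by
  have hn : ∀ v : Place k E, (m : ℤ) ∣ v.ord ((y ^ n : Eˣ) : E) := by
    intro v
    rw [Units.val_pow_eq_pow_val, ← zpow_natCast, v.ord_zpow]
    exact Dvd.dvd.mul_left (hy v) _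
  have ht : ∀ v : Place k E, (m : ℤ) ∣ v.ord ((t ^ m : Eˣ) : E) := by
    intro v
    rw [Units.val_pow_eq_pow_val, ← zpow_natCast, v.ord_zpow]
    exact dvd_mul_right _ _
  rw [alpfClass_mul hm (y ^ n) (t ^ m) hn ht hy', alpfClass_pow hm t ht, add_zero,
    mltjt_class_npow hm y hy n hn]

/-- the Kummer condition for `y ^ n · t ^ m` -/
theorem mltjt_dvd_pow_mul {m : ℕ} (y t : Eˣ)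
    (hy : ∀ v : Place k E, (m : ℤ) ∣ v.ord (y : E)) (n : ℕ) (v : Place k E) :
    (m : ℤ) ∣ v.ord ((y ^ n * t ^ m : Eˣ) : E) := by
  rw [Units.val_mul, v.ord_mul (y ^ n).ne_zero (t ^ m).ne_zero, Units.val_pow_eq_pow_val,
    Units.val_pow_eq_pow_val, ← zpow_natCast, v.ord_zpow, ← zpow_natCast, v.ord_zpow]
  exact dvd_add (Dvd.dvd.mul_left (hy v) _) (dvd_mul_right _ _)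

end General

/-- a multiple prime to `p` of a non-zero `p`-torsion element is not zero -/
theorem mltjt_nsmul_ne_zero {G : Type*} [AddCommGroup G] {p k : ℕ} (hkp : Nat.Coprime k p) {x : G}
    (hpx : p • x = 0) (hx : x ≠ 0) : k • x ≠ 0 := by
  intro hkx
  apply hx
  have h1 : ((Nat.gcd k p : ℕ) : ℤ) • x = 0 := by
    rw [Nat.gcd_eq_gcd_ab, add_smul, mul_comm (k : ℤ), mul_comm (p : ℤ), mul_smul, mul_smul,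
      natCast_zsmul, natCast_zsmul, hkx, hpx, smul_zero, smul_zero, add_zero]
  rw [Nat.Coprime.gcd_eq_one hkp, Nat.cast_one, one_smul] at h1
  exact h1

/-- a relation `N y = c · g ^ p` passes to `y ^ k · ε ^ p` -/
theorem mltjt_rel_pow_mul {G H C : Type*} [CommGroup G] [CommGroup H] [CommGroup C] (Nm : G →* H)
    (cF : C →* H) (y ε : G) (k p : ℕ) (c : C) (g : H) (h : Nm y = cF c * g ^ p) :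
    Nm (y ^ k * ε ^ p) = cF (c ^ k) * (g ^ k * Nm ε) ^ p := by
  rw [map_mul, map_pow, map_pow, h, map_pow, mul_pow, mul_pow, ← pow_mul, ← pow_mul, mul_comm p k,
    mul_assoc]

section Pull

variable {N K : ℕ} [NeZero N] [NeZero K]

/-- the pull-back of a non-zero `p`-torsion class is not zero -/
theorem mltjt_pull_ne_zero (h : N ∣ K) {p : ℕ} (hp0 : p ≠ 0) {x : JZero N} (hpx : p • x = 0)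
    (hx : x ≠ 0) : dlwPullDvd h x ≠ 0 :=
  fun h0 => hx (dlwPullDvd_eq_zero h hp0 x hpx h0)

/-- **the pull-back maps the `W`-eigenspace into the `W`-eigenspace** -/
theorem mltjt_pull_mem_eig (h : N ∣ K) {p : ℕ} {W : WeierstrassCurve ℤ} {x : JZero N}
    (hx : x ∈ dlwEig N p W) : dlwPullDvd h x ∈ dlwEig K p W := by
  obtain ⟨hpx, hx'⟩ := hx
  refine ⟨by rw [← map_nsmul, hpx, map_zero], fun ℓ hℓ hℓK hgood hℓp => ?_⟩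
  have hℓN : ¬ ℓ ∣ N := fun hd => hℓK (hd.trans h)
  rw [← dlwPullDvd_hecke h hℓ hℓK x, hx' ℓ hℓ hℓN hgood hℓp, map_zsmul]

end Pull

section Fix

attribute [local instance] t2i_dvr t2i_isAlgClosed t2i_charP t2i_fact t2iAlgebra t2i_isScalarTower

variable (𝔓 : FFPlace) (K₀ e : ℕ) [NeZero K₀] [NeZero e] (hK₀ : ¬ 𝔓.p ∣ K₀) (hK : ¬ 𝔓.p ∣ K₀ * e)
  {ζ : Qb} (hζ : IsPrimitiveRoot ζ 𝔓.p) (p : ℕ)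

include hK₀ hK in
/-- **`N_β (A y) = A₁ (N_β y)`** at the inertia level -/
theorem mltjt_normB_fix (y : ↥(tbLevF 𝔓 (K₀ * 𝔓.p * 𝔓.p) ⊤)) :
    t4vnNormB ↥(tbFix 𝔓 (⊤ : Subgroup 𝔓.I)) (K₀ * e) 𝔓.p
        (mltl2hA ↥(tbFix 𝔓 (⊤ : Subgroup 𝔓.I)) K₀ 𝔓.p e y) =
      mltjtA1 ↥(tbFix 𝔓 (⊤ : Subgroup 𝔓.I)) K₀ 𝔓.p e
        (t4vnNormB ↥(tbFix 𝔓 (⊤ : Subgroup 𝔓.I)) K₀ 𝔓.p y) := by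
  have hp : 𝔓.p.Prime := (t2i_fact 𝔓).out
  obtain ⟨ζ', hζ'⟩ := t4cy_exists_zeta 𝔓
  have hζ0 : ζ' ≠ 0 := hζ'.ne_zero hp.ne_zero
  have hζq : (Units.mk0 ζ' hζ0) ^ 𝔓.p = 1 := by
    apply Units.ext
    rw [Units.val_pow_eq_pow_val]
    exact hζ'.pow_eq_one
  have hζ1 : (Units.mk0 ζ' hζ0) ≠ 1 := by
    intro h1
    have h2 : ζ' = 1 := congrArg Units.val h1
    have := hζ'.eq_orderOf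
    rw [h2, orderOf_one] at this
    exact hp.one_lt.ne' this
  exact mltjt_normB_A (L' := Qb) (ζ := Units.mk0 ζ' hζ0) (t4iALFix 𝔓 ⊤ K₀ hK₀) (t2iALFix 𝔓 ⊤ K₀ hK₀)
    (t4iALFix 𝔓 ⊤ (K₀ * e) hK) (t2iALFix 𝔓 ⊤ (K₀ * e) hK) hp hζq hζ1
    (t4vn_hdeg_fix 𝔓 K₀ hK₀) (t4vn_hdeg_fix 𝔓 (K₀ * e) hK) y

include hK₀ hK in
/-- **`N_α (A y) = A₁ (N_α y)`** at the inertia level -/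
theorem mltjt_normA_fix (y : ↥(tbLevF 𝔓 (K₀ * 𝔓.p * 𝔓.p) ⊤)) :
    t4vnNormA ↥(tbFix 𝔓 (⊤ : Subgroup 𝔓.I)) (K₀ * e) 𝔓.p
        (mltl2hA ↥(tbFix 𝔓 (⊤ : Subgroup 𝔓.I)) K₀ 𝔓.p e y) =
      mltjtA1 ↥(tbFix 𝔓 (⊤ : Subgroup 𝔓.I)) K₀ 𝔓.p e
        (t4vnNormA ↥(tbFix 𝔓 (⊤ : Subgroup 𝔓.I)) K₀ 𝔓.p y) := by
  have hp : 𝔓.p.Prime := (t2i_fact 𝔓).out
  obtain ⟨ζ', hζ'⟩ := t4cy_exists_zeta 𝔓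
  have hζ0 : ζ' ≠ 0 := hζ'.ne_zero hp.ne_zero
  have hζq : (Units.mk0 ζ' hζ0) ^ 𝔓.p = 1 := by
    apply Units.ext
    rw [Units.val_pow_eq_pow_val]
    exact hζ'.pow_eq_one
  have hζ1 : (Units.mk0 ζ' hζ0) ≠ 1 := by
    intro h1
    have h2 : ζ' = 1 := congrArg Units.val h1
    have := hζ'.eq_orderOf
    rw [h2, orderOf_one] at this
    exact hp.one_lt.ne' this
  exact mltjt_normA_A (L' := Qb) (ζ := Units.mk0 ζ' hζ0) (t4iALFix 𝔓 ⊤ K₀ hK₀) (t2iALFix 𝔓 ⊤ K₀ hK₀)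
    (t4iALFix 𝔓 ⊤ (K₀ * e) hK) (t2iALFix 𝔓 ⊤ (K₀ * e) hK) hp hζq hζ1
    (t4vn_hdeg_fix 𝔓 K₀ hK₀) (t4vn_hdeg_fix 𝔓 (K₀ * e) hK) y

/-- **`D.Nα (A y) = A₁ (D₀.Nα y)`** -/
theorem mltjt_Nα_A (y : (↥(tbLevF 𝔓 (K₀ * 𝔓.p * 𝔓.p) ⊤))ˣ) :
    (t4niAFix 𝔓 (K₀ * e) hK hζ p).Nα
        (Units.map (mltl2hA ↥(tbFix 𝔓 (⊤ : Subgroup 𝔓.I)) K₀ 𝔓.p e :
          ↥(tbLevF 𝔓 (K₀ * 𝔓.p * 𝔓.p) ⊤) →* ↥(tbLevF 𝔓 (K₀ * e * 𝔓.p * 𝔓.p) ⊤)) y) =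
      Units.map (mltjtA1 ↥(tbFix 𝔓 (⊤ : Subgroup 𝔓.I)) K₀ 𝔓.p e :
          ↥(tbLevF 𝔓 (K₀ * 𝔓.p) ⊤) →* ↥(tbLevF 𝔓 (K₀ * e * 𝔓.p) ⊤))
        ((t4niAFix 𝔓 K₀ hK₀ hζ p).Nα y) := by
  apply Units.ext
  exact mltjt_normA_fix 𝔓 K₀ e hK₀ hK (y : ↥(tbLevF 𝔓 (K₀ * 𝔓.p * 𝔓.p) ⊤))

/-- **`D.Nβ (A y) = A₁ (D₀.Nβ y)`** -/
theorem mltjt_Nβ_A (y : (↥(tbLevF 𝔓 (K₀ * 𝔓.p * 𝔓.p) ⊤))ˣ) :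
    (t4niAFix 𝔓 (K₀ * e) hK hζ p).Nβ
        (Units.map (mltl2hA ↥(tbFix 𝔓 (⊤ : Subgroup 𝔓.I)) K₀ 𝔓.p e :
          ↥(tbLevF 𝔓 (K₀ * 𝔓.p * 𝔓.p) ⊤) →* ↥(tbLevF 𝔓 (K₀ * e * 𝔓.p * 𝔓.p) ⊤)) y) =
      Units.map (mltjtA1 ↥(tbFix 𝔓 (⊤ : Subgroup 𝔓.I)) K₀ 𝔓.p e :
          ↥(tbLevF 𝔓 (K₀ * 𝔓.p) ⊤) →* ↥(tbLevF 𝔓 (K₀ * e * 𝔓.p) ⊤))
        ((t4niAFix 𝔓 K₀ hK₀ hζ p).Nβ y) := by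
  apply Units.ext
  exact mltjt_normB_fix 𝔓 K₀ e hK₀ hK (y : ↥(tbLevF 𝔓 (K₀ * 𝔓.p * 𝔓.p) ⊤))

/-- `A₁ (D₀.cF1 c) = D.cF1 c` -/
theorem mltjt_cF1_A (c : (↥(tbFix 𝔓 (⊤ : Subgroup 𝔓.I)))ˣ) :
    Units.map (mltjtA1 ↥(tbFix 𝔓 (⊤ : Subgroup 𝔓.I)) K₀ 𝔓.p e :
        ↥(tbLevF 𝔓 (K₀ * 𝔓.p) ⊤) →* ↥(tbLevF 𝔓 (K₀ * e * 𝔓.p) ⊤))
      ((t4niAFix 𝔓 K₀ hK₀ hζ p).cF1 c) = (t4niAFix 𝔓 (K₀ * e) hK hζ p).cF1 c := by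
  apply Units.ext
  exact AlgHom.commutes (mltjtA1 ↥(tbFix 𝔓 (⊤ : Subgroup 𝔓.I)) K₀ 𝔓.p e) (c : ↥(tbFix 𝔓 (⊤ : Subgroup 𝔓.I)))

/-- **the norm relation for `N_α` passes from `y` to `A y`** -/
theorem mltjt_hα (y : (↥(tbLevF 𝔓 (K₀ * 𝔓.p * 𝔓.p) ⊤))ˣ)
    (hα : ∃ (c : (↥(tbFix 𝔓 (⊤ : Subgroup 𝔓.I)))ˣ) (g : (↥(tbLevF 𝔓 (K₀ * 𝔓.p) ⊤))ˣ),
      (t4niAFix 𝔓 K₀ hK₀ hζ p).Nα y = (t4niAFix 𝔓 K₀ hK₀ hζ p).cF1 c * g ^ p) :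
    ∃ (c : (↥(tbFix 𝔓 (⊤ : Subgroup 𝔓.I)))ˣ) (g : (↥(tbLevF 𝔓 (K₀ * e * 𝔓.p) ⊤))ˣ),
      (t4niAFix 𝔓 (K₀ * e) hK hζ p).Nα
        (Units.map (mltl2hA ↥(tbFix 𝔓 (⊤ : Subgroup 𝔓.I)) K₀ 𝔓.p e :
          ↥(tbLevF 𝔓 (K₀ * 𝔓.p * 𝔓.p) ⊤) →* ↥(tbLevF 𝔓 (K₀ * e * 𝔓.p * 𝔓.p) ⊤)) y) =
        (t4niAFix 𝔓 (K₀ * e) hK hζ p).cF1 c * g ^ p := by
  obtain ⟨c, g, hcg⟩ := hα
  refine ⟨c, Units.map (mltjtA1 ↥(tbFix 𝔓 (⊤ : Subgroup 𝔓.I)) K₀ 𝔓.p e :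
    ↥(tbLevF 𝔓 (K₀ * 𝔓.p) ⊤) →* ↥(tbLevF 𝔓 (K₀ * e * 𝔓.p) ⊤)) g, ?_⟩
  have h1 := mltjt_Nα_A 𝔓 K₀ e hK₀ hK hζ p y
  have h2 := congrArg (Units.map (mltjtA1 ↥(tbFix 𝔓 (⊤ : Subgroup 𝔓.I)) K₀ 𝔓.p e :
    ↥(tbLevF 𝔓 (K₀ * 𝔓.p) ⊤) →* ↥(tbLevF 𝔓 (K₀ * e * 𝔓.p) ⊤))) hcg
  have h3 := mltjt_cF1_A 𝔓 K₀ e hK₀ hK hζ p c
  refine h1.trans (h2.trans ?_)
  rw [map_mul, map_pow]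
  exact congrArg (fun t => t * _) h3

/-- **the norm relation for `N_β` passes from `y` to `A y`** -/
theorem mltjt_hβ (y : (↥(tbLevF 𝔓 (K₀ * 𝔓.p * 𝔓.p) ⊤))ˣ)
    (hβ : ∃ (c : (↥(tbFix 𝔓 (⊤ : Subgroup 𝔓.I)))ˣ) (g : (↥(tbLevF 𝔓 (K₀ * 𝔓.p) ⊤))ˣ),
      (t4niAFix 𝔓 K₀ hK₀ hζ p).Nβ y = (t4niAFix 𝔓 K₀ hK₀ hζ p).cF1 c * g ^ p) :
    ∃ (c : (↥(tbFix 𝔓 (⊤ : Subgroup 𝔓.I)))ˣ) (g : (↥(tbLevF 𝔓 (K₀ * e * 𝔓.p) ⊤))ˣ),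
      (t4niAFix 𝔓 (K₀ * e) hK hζ p).Nβ
        (Units.map (mltl2hA ↥(tbFix 𝔓 (⊤ : Subgroup 𝔓.I)) K₀ 𝔓.p e :
          ↥(tbLevF 𝔓 (K₀ * 𝔓.p * 𝔓.p) ⊤) →* ↥(tbLevF 𝔓 (K₀ * e * 𝔓.p * 𝔓.p) ⊤)) y) =
        (t4niAFix 𝔓 (K₀ * e) hK hζ p).cF1 c * g ^ p := by
  obtain ⟨c, g, hcg⟩ := hβ
  refine ⟨c, Units.map (mltjtA1 ↥(tbFix 𝔓 (⊤ : Subgroup 𝔓.I)) K₀ 𝔓.p e :
    ↥(tbLevF 𝔓 (K₀ * 𝔓.p) ⊤) →* ↥(tbLevF 𝔓 (K₀ * e * 𝔓.p) ⊤)) g, ?_⟩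
  have h1 := mltjt_Nβ_A 𝔓 K₀ e hK₀ hK hζ p y
  have h2 := congrArg (Units.map (mltjtA1 ↥(tbFix 𝔓 (⊤ : Subgroup 𝔓.I)) K₀ 𝔓.p e :
    ↥(tbLevF 𝔓 (K₀ * 𝔓.p) ⊤) →* ↥(tbLevF 𝔓 (K₀ * e * 𝔓.p) ⊤))) hcg
  have h3 := mltjt_cF1_A 𝔓 K₀ e hK₀ hK hζ p c
  refine h1.trans (h2.trans ?_)
  rw [map_mul, map_pow]
  exact congrArg (fun t => t * _) h3

/-! ### Kummer classes -/

theorem mltjt_dvd : K₀ * 𝔓.p * 𝔓.p ∣ K₀ * e * 𝔓.p * 𝔓.p := ⟨e, by ring⟩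

/-- **`Φ (A y) = Φ y`** (the same Laurent series) -/
theorem mltjt_phi_A (y : (↥(tbLevF 𝔓 (K₀ * 𝔓.p * 𝔓.p) ⊤))ˣ) :
    mltl2PhiU 𝔓 (K₀ * e * 𝔓.p * 𝔓.p)
        (Units.map (mltl2hA ↥(tbFix 𝔓 (⊤ : Subgroup 𝔓.I)) K₀ 𝔓.p e :
          ↥(tbLevF 𝔓 (K₀ * 𝔓.p * 𝔓.p) ⊤) →* ↥(tbLevF 𝔓 (K₀ * e * 𝔓.p * 𝔓.p) ⊤)) y) =
      dlwInclU (mltjt_dvd 𝔓 K₀ e) (mltl2PhiU 𝔓 (K₀ * 𝔓.p * 𝔓.p) y) := by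
  apply Units.ext
  apply Subtype.ext
  rw [coe_dlwInclU, coe_mltl2PhiU, coe_mltl2PhiU, Units.coe_map]
  show ((tbPhiF 𝔓 (K₀ * e * 𝔓.p * 𝔓.p) ⊤ (mltl2hA ↥(tbFix 𝔓 (⊤ : Subgroup 𝔓.I)) K₀ 𝔓.p e
    (y : ↥(tbLevF 𝔓 (K₀ * 𝔓.p * 𝔓.p) ⊤))) : ↥(modularFunctionFieldBar (K₀ * e * 𝔓.p * 𝔓.p))) :
      LaurentSeries Qb) = _
  rw [mltl2h_phi_A, coe_mltl2hA]

/-- the Kummer condition over `ℚ̄` for `A y` -/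
theorem mltjt_hy (y : (↥(tbLevF 𝔓 (K₀ * 𝔓.p * 𝔓.p) ⊤))ˣ)
    (hy : ∀ P : Place Qb ↥(modularFunctionFieldBar (K₀ * 𝔓.p * 𝔓.p)),
      (p : ℤ) ∣ P.ord ((mltl2PhiU 𝔓 (K₀ * 𝔓.p * 𝔓.p) y :
        (↥(modularFunctionFieldBar (K₀ * 𝔓.p * 𝔓.p)))ˣ) : ↥(modularFunctionFieldBar (K₀ * 𝔓.p * 𝔓.p))))
    (P : Place Qb ↥(modularFunctionFieldBar (K₀ * e * 𝔓.p * 𝔓.p))) :
    (p : ℤ) ∣ P.ord ((mltl2PhiU 𝔓 (K₀ * e * 𝔓.p * 𝔓.p)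
        (Units.map (mltl2hA ↥(tbFix 𝔓 (⊤ : Subgroup 𝔓.I)) K₀ 𝔓.p e :
          ↥(tbLevF 𝔓 (K₀ * 𝔓.p * 𝔓.p) ⊤) →* ↥(tbLevF 𝔓 (K₀ * e * 𝔓.p * 𝔓.p) ⊤)) y) :
        (↥(modularFunctionFieldBar (K₀ * e * 𝔓.p * 𝔓.p)))ˣ) :
          ↥(modularFunctionFieldBar (K₀ * e * 𝔓.p * 𝔓.p))) := by
  rw [mltjt_phi_A]
  exact dlw_dvd_ord_incl (mltjt_dvd 𝔓 K₀ e) _ hy P

/-- **the Kummer condition over `L` for `A y`** -/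
theorem mltjt_mem_tWsub (y : (↥(tbLevF 𝔓 (K₀ * 𝔓.p * 𝔓.p) ⊤))ˣ)
    (hy : ∀ P : Place Qb ↥(modularFunctionFieldBar (K₀ * 𝔓.p * 𝔓.p)),
      (p : ℤ) ∣ P.ord ((mltl2PhiU 𝔓 (K₀ * 𝔓.p * 𝔓.p) y :
        (↥(modularFunctionFieldBar (K₀ * 𝔓.p * 𝔓.p)))ˣ) : ↥(modularFunctionFieldBar (K₀ * 𝔓.p * 𝔓.p)))) :
    Units.map (mltl2hA ↥(tbFix 𝔓 (⊤ : Subgroup 𝔓.I)) K₀ 𝔓.p e :
        ↥(tbLevF 𝔓 (K₀ * 𝔓.p * 𝔓.p) ⊤) →* ↥(tbLevF 𝔓 (K₀ * e * 𝔓.p * 𝔓.p) ⊤)) y ∈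
      tWsub ↥(tbFix 𝔓 (⊤ : Subgroup 𝔓.I)) (K₀ * e * 𝔓.p * 𝔓.p) p :=
  t4n_mem_tWsub_of_cfe 𝔓 ⊤ (K₀ * e * 𝔓.p * 𝔓.p) (t4ru_T4nCFE 𝔓 ⊤ (K₀ * e * 𝔓.p * 𝔓.p)) p
    (mltl2PhiU 𝔓 (K₀ * e * 𝔓.p * 𝔓.p) (Units.map (mltl2hA ↥(tbFix 𝔓 (⊤ : Subgroup 𝔓.I)) K₀ 𝔓.p e :
      ↥(tbLevF 𝔓 (K₀ * 𝔓.p * 𝔓.p) ⊤) →* ↥(tbLevF 𝔓 (K₀ * e * 𝔓.p * 𝔓.p) ⊤)) y))
    (mltjt_hy 𝔓 K₀ e p y hy) _ rfl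

variable (hp0 : p ≠ 0)

/-- **the Kummer class of `A y` is the pull-back of the Kummer class of `y`** -/
theorem mltjt_class (y : (↥(tbLevF 𝔓 (K₀ * 𝔓.p * 𝔓.p) ⊤))ˣ)
    (hy : ∀ P : Place Qb ↥(modularFunctionFieldBar (K₀ * 𝔓.p * 𝔓.p)),
      (p : ℤ) ∣ P.ord ((mltl2PhiU 𝔓 (K₀ * 𝔓.p * 𝔓.p) y :
        (↥(modularFunctionFieldBar (K₀ * 𝔓.p * 𝔓.p)))ˣ) : ↥(modularFunctionFieldBar (K₀ * 𝔓.p * 𝔓.p))))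
    (hyK : ∀ P : Place Qb ↥(modularFunctionFieldBar (K₀ * e * 𝔓.p * 𝔓.p)),
      (p : ℤ) ∣ P.ord ((mltl2PhiU 𝔓 (K₀ * e * 𝔓.p * 𝔓.p)
        (Units.map (mltl2hA ↥(tbFix 𝔓 (⊤ : Subgroup 𝔓.I)) K₀ 𝔓.p e :
          ↥(tbLevF 𝔓 (K₀ * 𝔓.p * 𝔓.p) ⊤) →* ↥(tbLevF 𝔓 (K₀ * e * 𝔓.p * 𝔓.p) ⊤)) y) :
        (↥(modularFunctionFieldBar (K₀ * e * 𝔓.p * 𝔓.p)))ˣ) :
          ↥(modularFunctionFieldBar (K₀ * e * 𝔓.p * 𝔓.p)))) :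
    alpfClass hp0 (mltl2PhiU 𝔓 (K₀ * e * 𝔓.p * 𝔓.p)
        (Units.map (mltl2hA ↥(tbFix 𝔓 (⊤ : Subgroup 𝔓.I)) K₀ 𝔓.p e :
          ↥(tbLevF 𝔓 (K₀ * 𝔓.p * 𝔓.p) ⊤) →* ↥(tbLevF 𝔓 (K₀ * e * 𝔓.p * 𝔓.p) ⊤)) y)) hyK =
      dlwPullDvd (mltjt_dvd 𝔓 K₀ e) (alpfClass hp0 (mltl2PhiU 𝔓 (K₀ * 𝔓.p * 𝔓.p) y) hy) := by
  rw [dlwPullDvd_class (mltjt_dvd 𝔓 K₀ e) hp0 _ hy]
  exact mltjt_class_congr hp0 (mltjt_phi_A 𝔓 K₀ e y) _ _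

/-! ### The package (TRANSFER) -/

/-- **(TRANSFER)**: for `y₁ ∈ D₀.U` with the Kummer condition over `ℚ̄` and `y ∈ D.U` with `y = A y₁` (e.g.
`y = mltjAU … y₁`): the Kummer conditions over `L` and over `ℚ̄` hold for `y`, the class of `y` is the pull-back of the
class of `y₁`, it is non-zero / in the `W`-eigenspace if the class of `y₁` is, and the two norm relations pass from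
`y₁` to `y` -/
theorem mltjt_transfer (y₁ : ↥(t4niAFix 𝔓 K₀ hK₀ hζ p).U) (y : ↥(t4niAFix 𝔓 (K₀ * e) hK hζ p).U)
    (hyA : (y : (↥(tbLevF 𝔓 (K₀ * e * 𝔓.p * 𝔓.p) ⊤))ˣ) =
      Units.map (mltl2hA ↥(tbFix 𝔓 (⊤ : Subgroup 𝔓.I)) K₀ 𝔓.p e :
        ↥(tbLevF 𝔓 (K₀ * 𝔓.p * 𝔓.p) ⊤) →* ↥(tbLevF 𝔓 (K₀ * e * 𝔓.p * 𝔓.p) ⊤))
        (y₁ : (↥(tbLevF 𝔓 (K₀ * 𝔓.p * 𝔓.p) ⊤))ˣ))
    (hy : ∀ P : Place Qb ↥(modularFunctionFieldBar (K₀ * 𝔓.p * 𝔓.p)),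
      (p : ℤ) ∣ P.ord ((mltl2PhiU 𝔓 (K₀ * 𝔓.p * 𝔓.p) (y₁ : (↥(tbLevF 𝔓 (K₀ * 𝔓.p * 𝔓.p) ⊤))ˣ) :
        (↥(modularFunctionFieldBar (K₀ * 𝔓.p * 𝔓.p)))ˣ) :
          ↥(modularFunctionFieldBar (K₀ * 𝔓.p * 𝔓.p)))) :
    (y : (↥(tbLevF 𝔓 (K₀ * e * 𝔓.p * 𝔓.p) ⊤))ˣ) ∈
      tWsub ↥(tbFix 𝔓 (⊤ : Subgroup 𝔓.I)) (K₀ * e * 𝔓.p * 𝔓.p) p ∧
    ∃ hyK : ∀ P : Place Qb ↥(modularFunctionFieldBar (K₀ * e * 𝔓.p * 𝔓.p)),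
      (p : ℤ) ∣ P.ord ((mltl2PhiU 𝔓 (K₀ * e * 𝔓.p * 𝔓.p)
        (y : (↥(tbLevF 𝔓 (K₀ * e * 𝔓.p * 𝔓.p) ⊤))ˣ) :
        (↥(modularFunctionFieldBar (K₀ * e * 𝔓.p * 𝔓.p)))ˣ) :
          ↥(modularFunctionFieldBar (K₀ * e * 𝔓.p * 𝔓.p))),
      alpfClass hp0 (mltl2PhiU 𝔓 (K₀ * e * 𝔓.p * 𝔓.p)
          (y : (↥(tbLevF 𝔓 (K₀ * e * 𝔓.p * 𝔓.p) ⊤))ˣ)) hyK =
        dlwPullDvd (mltjt_dvd 𝔓 K₀ e) (alpfClass hp0 (mltl2PhiU 𝔓 (K₀ * 𝔓.p * 𝔓.p)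
          (y₁ : (↥(tbLevF 𝔓 (K₀ * 𝔓.p * 𝔓.p) ⊤))ˣ)) hy) ∧
      (alpfClass hp0 (mltl2PhiU 𝔓 (K₀ * 𝔓.p * 𝔓.p)
          (y₁ : (↥(tbLevF 𝔓 (K₀ * 𝔓.p * 𝔓.p) ⊤))ˣ)) hy ≠ 0 →
        alpfClass hp0 (mltl2PhiU 𝔓 (K₀ * e * 𝔓.p * 𝔓.p)
          (y : (↥(tbLevF 𝔓 (K₀ * e * 𝔓.p * 𝔓.p) ⊤))ˣ)) hyK ≠ 0) ∧
      (∀ W : WeierstrassCurve ℤ,
        alpfClass hp0 (mltl2PhiU 𝔓 (K₀ * 𝔓.p * 𝔓.p)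
          (y₁ : (↥(tbLevF 𝔓 (K₀ * 𝔓.p * 𝔓.p) ⊤))ˣ)) hy ∈ dlwEig (K₀ * 𝔓.p * 𝔓.p) p W →
        alpfClass hp0 (mltl2PhiU 𝔓 (K₀ * e * 𝔓.p * 𝔓.p)
          (y : (↥(tbLevF 𝔓 (K₀ * e * 𝔓.p * 𝔓.p) ⊤))ˣ)) hyK ∈ dlwEig (K₀ * e * 𝔓.p * 𝔓.p) p W) ∧
      ((∃ (c : (↥(tbFix 𝔓 (⊤ : Subgroup 𝔓.I)))ˣ) (g : (↥(tbLevF 𝔓 (K₀ * 𝔓.p) ⊤))ˣ),
          (t4niAFix 𝔓 K₀ hK₀ hζ p).Nα (y₁ : (↥(tbLevF 𝔓 (K₀ * 𝔓.p * 𝔓.p) ⊤))ˣ) =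
            (t4niAFix 𝔓 K₀ hK₀ hζ p).cF1 c * g ^ p) →
        ∃ (c : (↥(tbFix 𝔓 (⊤ : Subgroup 𝔓.I)))ˣ) (g : (↥(tbLevF 𝔓 (K₀ * e * 𝔓.p) ⊤))ˣ),
          (t4niAFix 𝔓 (K₀ * e) hK hζ p).Nα (y : (↥(tbLevF 𝔓 (K₀ * e * 𝔓.p * 𝔓.p) ⊤))ˣ) =
            (t4niAFix 𝔓 (K₀ * e) hK hζ p).cF1 c * g ^ p) ∧
      ((∃ (c : (↥(tbFix 𝔓 (⊤ : Subgroup 𝔓.I)))ˣ) (g : (↥(tbLevF 𝔓 (K₀ * 𝔓.p) ⊤))ˣ),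
          (t4niAFix 𝔓 K₀ hK₀ hζ p).Nβ (y₁ : (↥(tbLevF 𝔓 (K₀ * 𝔓.p * 𝔓.p) ⊤))ˣ) =
            (t4niAFix 𝔓 K₀ hK₀ hζ p).cF1 c * g ^ p) →
        ∃ (c : (↥(tbFix 𝔓 (⊤ : Subgroup 𝔓.I)))ˣ) (g : (↥(tbLevF 𝔓 (K₀ * e * 𝔓.p) ⊤))ˣ),
          (t4niAFix 𝔓 (K₀ * e) hK hζ p).Nβ (y : (↥(tbLevF 𝔓 (K₀ * e * 𝔓.p * 𝔓.p) ⊤))ˣ) =
            (t4niAFix 𝔓 (K₀ * e) hK hζ p).cF1 c * g ^ p) := by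
  rcases y with ⟨y', hy'⟩
  change y' = _ at hyA
  subst hyA
  have hyK := mltjt_hy 𝔓 K₀ e p (y₁ : (↥(tbLevF 𝔓 (K₀ * 𝔓.p * 𝔓.p) ⊤))ˣ) hy
  have hcl := mltjt_class 𝔓 K₀ e p hp0 (y₁ : (↥(tbLevF 𝔓 (K₀ * 𝔓.p * 𝔓.p) ⊤))ˣ) hy hyK
  refine ⟨mltjt_mem_tWsub 𝔓 K₀ e p _ hy, hyK, hcl, ?_, ?_, ?_, ?_⟩
  · intro hne
    rw [hcl]
    exact mltjt_pull_ne_zero (mltjt_dvd 𝔓 K₀ e) hp0 (mltjt_class_torsion hp0 _ hy) hne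
  · intro W hW
    rw [hcl]
    exact mltjt_pull_mem_eig (mltjt_dvd 𝔓 K₀ e) hW
  · exact mltjt_hα 𝔓 K₀ e hK₀ hK hζ p _
  · exact mltjt_hβ 𝔓 K₀ e hK₀ hK hζ p _

end Fix

/-! ### The closure facts: `y₀ ^ k · ε ^ p` at one level -/

section Closure

attribute [local instance] t2i_dvr t2i_isAlgClosed t2i_charP t2i_fact t2iAlgebra t2i_isScalarTower

variable (𝔓 : FFPlace) (K : ℕ) [NeZero K] (hK : ¬ 𝔓.p ∣ K)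
  {ζ : Qb} (hζ : IsPrimitiveRoot ζ 𝔓.p) (p : ℕ) (hp0 : p ≠ 0)

/-- the Kummer condition over `L` for `y₀ ^ k · ε ^ p` -/
theorem mltjt_closure_tWsub (N : ℕ) [NeZero N] (y₀ ε : (↥(tbLevF 𝔓 N ⊤))ˣ) (k : ℕ)
    (h : y₀ ∈ tWsub ↥(tbFix 𝔓 (⊤ : Subgroup 𝔓.I)) N p) :
    y₀ ^ k * ε ^ p ∈ tWsub ↥(tbFix 𝔓 (⊤ : Subgroup 𝔓.I)) N p :=
  Subgroup.mul_mem _ (Subgroup.pow_mem _ h k) (t4n_pow_mem_tWsub 𝔓 N p ε)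

/-- the Kummer condition over `ℚ̄` for `y₀ ^ k · ε ^ p` -/
theorem mltjt_closure_hy (N : ℕ) [NeZero N] (y₀ ε : (↥(tbLevF 𝔓 N ⊤))ˣ) (k : ℕ)
    (hy : ∀ P : Place Qb ↥(modularFunctionFieldBar N),
      (p : ℤ) ∣ P.ord ((mltl2PhiU 𝔓 N y₀ : (↥(modularFunctionFieldBar N))ˣ) :
        ↥(modularFunctionFieldBar N)))
    (P : Place Qb ↥(modularFunctionFieldBar N)) :
    (p : ℤ) ∣ P.ord ((mltl2PhiU 𝔓 N (y₀ ^ k * ε ^ p) : (↥(modularFunctionFieldBar N))ˣ) :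
        ↥(modularFunctionFieldBar N)) := by
  rw [map_mul, map_pow, map_pow]
  exact mltjt_dvd_pow_mul _ _ hy k P

/-- **the class of `y₀ ^ k · ε ^ p` is `k` times the class of `y₀`** -/
theorem mltjt_closure_class (N : ℕ) [NeZero N] (y₀ ε : (↥(tbLevF 𝔓 N ⊤))ˣ) (k : ℕ)
    (hy : ∀ P : Place Qb ↥(modularFunctionFieldBar N),
      (p : ℤ) ∣ P.ord ((mltl2PhiU 𝔓 N y₀ : (↥(modularFunctionFieldBar N))ˣ) :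
        ↥(modularFunctionFieldBar N)))
    (hy' : ∀ P : Place Qb ↥(modularFunctionFieldBar N),
      (p : ℤ) ∣ P.ord ((mltl2PhiU 𝔓 N (y₀ ^ k * ε ^ p) : (↥(modularFunctionFieldBar N))ˣ) :
        ↥(modularFunctionFieldBar N))) :
    alpfClass hp0 (mltl2PhiU 𝔓 N (y₀ ^ k * ε ^ p)) hy' = k • alpfClass hp0 (mltl2PhiU 𝔓 N y₀) hy := by
  have e1 : mltl2PhiU 𝔓 N (y₀ ^ k * ε ^ p) = mltl2PhiU 𝔓 N y₀ ^ k * mltl2PhiU 𝔓 N ε ^ p := by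
    rw [map_mul, map_pow, map_pow]
  rw [mltjt_class_congr hp0 e1 hy' (fun P => mltjt_dvd_pow_mul _ _ hy k P)]
  exact mltjt_class_pow_mul hp0 _ _ hy k _

/-- the norm relation for `N_α` passes from `y₀` to `y₀ ^ k · ε ^ p` -/
theorem mltjt_closure_hα (y₀ ε : (↥(tbLevF 𝔓 (K * 𝔓.p * 𝔓.p) ⊤))ˣ) (k : ℕ)
    (hα : ∃ (c : (↥(tbFix 𝔓 (⊤ : Subgroup 𝔓.I)))ˣ) (g : (↥(tbLevF 𝔓 (K * 𝔓.p) ⊤))ˣ),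
      (t4niAFix 𝔓 K hK hζ p).Nα y₀ = (t4niAFix 𝔓 K hK hζ p).cF1 c * g ^ p) :
    ∃ (c : (↥(tbFix 𝔓 (⊤ : Subgroup 𝔓.I)))ˣ) (g : (↥(tbLevF 𝔓 (K * 𝔓.p) ⊤))ˣ),
      (t4niAFix 𝔓 K hK hζ p).Nα (y₀ ^ k * ε ^ p) = (t4niAFix 𝔓 K hK hζ p).cF1 c * g ^ p := by
  obtain ⟨c, g, hcg⟩ := hα
  exact ⟨c ^ k, g ^ k * (t4niAFix 𝔓 K hK hζ p).Nα ε,
    mltjt_rel_pow_mul (t4niAFix 𝔓 K hK hζ p).Nα (t4niAFix 𝔓 K hK hζ p).cF1 y₀ ε k p c g hcg⟩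

/-- the norm relation for `N_β` passes from `y₀` to `y₀ ^ k · ε ^ p` -/
theorem mltjt_closure_hβ (y₀ ε : (↥(tbLevF 𝔓 (K * 𝔓.p * 𝔓.p) ⊤))ˣ) (k : ℕ)
    (hβ : ∃ (c : (↥(tbFix 𝔓 (⊤ : Subgroup 𝔓.I)))ˣ) (g : (↥(tbLevF 𝔓 (K * 𝔓.p) ⊤))ˣ),
      (t4niAFix 𝔓 K hK hζ p).Nβ y₀ = (t4niAFix 𝔓 K hK hζ p).cF1 c * g ^ p) :
    ∃ (c : (↥(tbFix 𝔓 (⊤ : Subgroup 𝔓.I)))ˣ) (g : (↥(tbLevF 𝔓 (K * 𝔓.p) ⊤))ˣ),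
      (t4niAFix 𝔓 K hK hζ p).Nβ (y₀ ^ k * ε ^ p) = (t4niAFix 𝔓 K hK hζ p).cF1 c * g ^ p := by
  obtain ⟨c, g, hcg⟩ := hβ
  exact ⟨c ^ k, g ^ k * (t4niAFix 𝔓 K hK hζ p).Nβ ε,
    mltjt_rel_pow_mul (t4niAFix 𝔓 K hK hζ p).Nβ (t4niAFix 𝔓 K hK hζ p).cF1 y₀ ε k p c g hcg⟩

end Closure

/-! ### The combined package: `y = A (y₀ ^ k · ε ^ p)` -/

section Combined

attribute [local instance] t2i_dvr t2i_isAlgClosed t2i_charP t2i_fact t2iAlgebra t2i_isScalarTower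

variable (𝔓 : FFPlace) (K₀ e : ℕ) [NeZero K₀] [NeZero e] (hK₀ : ¬ 𝔓.p ∣ K₀) (hK : ¬ 𝔓.p ∣ K₀ * e)
  {ζ : Qb} (hζ : IsPrimitiveRoot ζ 𝔓.p) (p : ℕ) (hp0 : p ≠ 0)

/-- **(TRANSFER), combined with the closure facts**: `y₀, ε ∈ D₀.U`, `k` prime to `p`, `y ∈ D.U` with
`y = A (y₀ ^ k · ε ^ p)` (e.g. `y = mltjAU … (y₀ ^ k * ε ^ p)`), `y₀` with the Kummer condition over `ℚ̄`: the Kummer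
conditions hold for `y`, the class of `y` is the pull-back of `k` times the class of `y₀`, it is non-zero / in the
`W`-eigenspace if the class of `y₀` is, and the two norm relations pass from `y₀` to `y` -/
theorem mltjt_transfer_strip (y₀ ε : ↥(t4niAFix 𝔓 K₀ hK₀ hζ p).U) (k : ℕ) (hkp : Nat.Coprime k p)
    (y : ↥(t4niAFix 𝔓 (K₀ * e) hK hζ p).U)
    (hyA : (y : (↥(tbLevF 𝔓 (K₀ * e * 𝔓.p * 𝔓.p) ⊤))ˣ) =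
      Units.map (mltl2hA ↥(tbFix 𝔓 (⊤ : Subgroup 𝔓.I)) K₀ 𝔓.p e :
        ↥(tbLevF 𝔓 (K₀ * 𝔓.p * 𝔓.p) ⊤) →* ↥(tbLevF 𝔓 (K₀ * e * 𝔓.p * 𝔓.p) ⊤))
        ((y₀ ^ k * ε ^ p : ↥(t4niAFix 𝔓 K₀ hK₀ hζ p).U) : (↥(tbLevF 𝔓 (K₀ * 𝔓.p * 𝔓.p) ⊤))ˣ))
    (hy : ∀ P : Place Qb ↥(modularFunctionFieldBar (K₀ * 𝔓.p * 𝔓.p)),
      (p : ℤ) ∣ P.ord ((mltl2PhiU 𝔓 (K₀ * 𝔓.p * 𝔓.p) (y₀ : (↥(tbLevF 𝔓 (K₀ * 𝔓.p * 𝔓.p) ⊤))ˣ) :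
        (↥(modularFunctionFieldBar (K₀ * 𝔓.p * 𝔓.p)))ˣ) :
          ↥(modularFunctionFieldBar (K₀ * 𝔓.p * 𝔓.p)))) :
    (y : (↥(tbLevF 𝔓 (K₀ * e * 𝔓.p * 𝔓.p) ⊤))ˣ) ∈
      tWsub ↥(tbFix 𝔓 (⊤ : Subgroup 𝔓.I)) (K₀ * e * 𝔓.p * 𝔓.p) p ∧
    ∃ hyK : ∀ P : Place Qb ↥(modularFunctionFieldBar (K₀ * e * 𝔓.p * 𝔓.p)),
      (p : ℤ) ∣ P.ord ((mltl2PhiU 𝔓 (K₀ * e * 𝔓.p * 𝔓.p)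
        (y : (↥(tbLevF 𝔓 (K₀ * e * 𝔓.p * 𝔓.p) ⊤))ˣ) :
        (↥(modularFunctionFieldBar (K₀ * e * 𝔓.p * 𝔓.p)))ˣ) :
          ↥(modularFunctionFieldBar (K₀ * e * 𝔓.p * 𝔓.p))),
      alpfClass hp0 (mltl2PhiU 𝔓 (K₀ * e * 𝔓.p * 𝔓.p)
          (y : (↥(tbLevF 𝔓 (K₀ * e * 𝔓.p * 𝔓.p) ⊤))ˣ)) hyK =
        dlwPullDvd (mltjt_dvd 𝔓 K₀ e) (k • alpfClass hp0 (mltl2PhiU 𝔓 (K₀ * 𝔓.p * 𝔓.p)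
          (y₀ : (↥(tbLevF 𝔓 (K₀ * 𝔓.p * 𝔓.p) ⊤))ˣ)) hy) ∧
      (alpfClass hp0 (mltl2PhiU 𝔓 (K₀ * 𝔓.p * 𝔓.p)
          (y₀ : (↥(tbLevF 𝔓 (K₀ * 𝔓.p * 𝔓.p) ⊤))ˣ)) hy ≠ 0 →
        alpfClass hp0 (mltl2PhiU 𝔓 (K₀ * e * 𝔓.p * 𝔓.p)
          (y : (↥(tbLevF 𝔓 (K₀ * e * 𝔓.p * 𝔓.p) ⊤))ˣ)) hyK ≠ 0) ∧
      (∀ W : WeierstrassCurve ℤ,
        alpfClass hp0 (mltl2PhiU 𝔓 (K₀ * 𝔓.p * 𝔓.p)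
          (y₀ : (↥(tbLevF 𝔓 (K₀ * 𝔓.p * 𝔓.p) ⊤))ˣ)) hy ∈ dlwEig (K₀ * 𝔓.p * 𝔓.p) p W →
        alpfClass hp0 (mltl2PhiU 𝔓 (K₀ * e * 𝔓.p * 𝔓.p)
          (y : (↥(tbLevF 𝔓 (K₀ * e * 𝔓.p * 𝔓.p) ⊤))ˣ)) hyK ∈ dlwEig (K₀ * e * 𝔓.p * 𝔓.p) p W) ∧
      ((∃ (c : (↥(tbFix 𝔓 (⊤ : Subgroup 𝔓.I)))ˣ) (g : (↥(tbLevF 𝔓 (K₀ * 𝔓.p) ⊤))ˣ),
          (t4niAFix 𝔓 K₀ hK₀ hζ p).Nα (y₀ : (↥(tbLevF 𝔓 (K₀ * 𝔓.p * 𝔓.p) ⊤))ˣ) =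
            (t4niAFix 𝔓 K₀ hK₀ hζ p).cF1 c * g ^ p) →
        ∃ (c : (↥(tbFix 𝔓 (⊤ : Subgroup 𝔓.I)))ˣ) (g : (↥(tbLevF 𝔓 (K₀ * e * 𝔓.p) ⊤))ˣ),
          (t4niAFix 𝔓 (K₀ * e) hK hζ p).Nα (y : (↥(tbLevF 𝔓 (K₀ * e * 𝔓.p * 𝔓.p) ⊤))ˣ) =
            (t4niAFix 𝔓 (K₀ * e) hK hζ p).cF1 c * g ^ p) ∧
      ((∃ (c : (↥(tbFix 𝔓 (⊤ : Subgroup 𝔓.I)))ˣ) (g : (↥(tbLevF 𝔓 (K₀ * 𝔓.p) ⊤))ˣ),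
          (t4niAFix 𝔓 K₀ hK₀ hζ p).Nβ (y₀ : (↥(tbLevF 𝔓 (K₀ * 𝔓.p * 𝔓.p) ⊤))ˣ) =
            (t4niAFix 𝔓 K₀ hK₀ hζ p).cF1 c * g ^ p) →
        ∃ (c : (↥(tbFix 𝔓 (⊤ : Subgroup 𝔓.I)))ˣ) (g : (↥(tbLevF 𝔓 (K₀ * e * 𝔓.p) ⊤))ˣ),
          (t4niAFix 𝔓 (K₀ * e) hK hζ p).Nβ (y : (↥(tbLevF 𝔓 (K₀ * e * 𝔓.p * 𝔓.p) ⊤))ˣ) =
            (t4niAFix 𝔓 (K₀ * e) hK hζ p).cF1 c * g ^ p) := by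
  have hy₁ : ∀ P : Place Qb ↥(modularFunctionFieldBar (K₀ * 𝔓.p * 𝔓.p)),
      (p : ℤ) ∣ P.ord ((mltl2PhiU 𝔓 (K₀ * 𝔓.p * 𝔓.p)
        ((y₀ ^ k * ε ^ p : ↥(t4niAFix 𝔓 K₀ hK₀ hζ p).U) : (↥(tbLevF 𝔓 (K₀ * 𝔓.p * 𝔓.p) ⊤))ˣ) :
        (↥(modularFunctionFieldBar (K₀ * 𝔓.p * 𝔓.p)))ˣ) :
          ↥(modularFunctionFieldBar (K₀ * 𝔓.p * 𝔓.p))) :=
    fun P => mltjt_closure_hy 𝔓 p (K₀ * 𝔓.p * 𝔓.p) (y₀ : (↥(tbLevF 𝔓 (K₀ * 𝔓.p * 𝔓.p) ⊤))ˣ)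
      (ε : (↥(tbLevF 𝔓 (K₀ * 𝔓.p * 𝔓.p) ⊤))ˣ) k hy P
  have hcl₁ : alpfClass hp0 (mltl2PhiU 𝔓 (K₀ * 𝔓.p * 𝔓.p)
        ((y₀ ^ k * ε ^ p : ↥(t4niAFix 𝔓 K₀ hK₀ hζ p).U) : (↥(tbLevF 𝔓 (K₀ * 𝔓.p * 𝔓.p) ⊤))ˣ)) hy₁ =
      k • alpfClass hp0 (mltl2PhiU 𝔓 (K₀ * 𝔓.p * 𝔓.p)
        (y₀ : (↥(tbLevF 𝔓 (K₀ * 𝔓.p * 𝔓.p) ⊤))ˣ)) hy :=
    mltjt_closure_class 𝔓 p hp0 (K₀ * 𝔓.p * 𝔓.p) (y₀ : (↥(tbLevF 𝔓 (K₀ * 𝔓.p * 𝔓.p) ⊤))ˣ)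
      (ε : (↥(tbLevF 𝔓 (K₀ * 𝔓.p * 𝔓.p) ⊤))ˣ) k hy hy₁
  have key := mltjt_transfer 𝔓 K₀ e hK₀ hK hζ p hp0 (y₀ ^ k * ε ^ p) y hyA hy₁
  obtain ⟨hW, hyK, hcl, hne, heig, hα, hβ⟩ := key
  have htors := mltjt_class_torsion hp0 (mltl2PhiU 𝔓 (K₀ * 𝔓.p * 𝔓.p)
        (y₀ : (↥(tbLevF 𝔓 (K₀ * 𝔓.p * 𝔓.p) ⊤))ˣ)) hy
  refine ⟨hW, hyK, hcl.trans (congrArg _ hcl₁), ?_, ?_, ?_, ?_⟩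
  · intro h0
    apply hne
    rw [hcl₁]
    exact mltjt_nsmul_ne_zero hkp htors h0
  · intro W hW'
    apply heig W
    rw [hcl₁]
    exact AddSubgroup.nsmul_mem _ hW' k
  · intro h
    exact hα (mltjt_closure_hα 𝔓 K₀ hK₀ hζ p (y₀ : (↥(tbLevF 𝔓 (K₀ * 𝔓.p * 𝔓.p) ⊤))ˣ)
      (ε : (↥(tbLevF 𝔓 (K₀ * 𝔓.p * 𝔓.p) ⊤))ˣ) k h)
  · intro h
    exact hβ (mltjt_closure_hβ 𝔓 K₀ hK₀ hζ p (y₀ : (↥(tbLevF 𝔓 (K₀ * 𝔓.p * 𝔓.p) ⊤))ˣ)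
      (ε : (↥(tbLevF 𝔓 (K₀ * 𝔓.p * 𝔓.p) ⊤))ˣ) k h)

end Combined

end Fermat.Agent.MLT
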