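/-
MLT / [L2] / (γ) (helper1): **the assembly of the two-level (G-out)** `MltjGeomOutTwoAt` (`q = 𝔓.p = 2`) from
* (P2, level `K₀`)       `mltj2_triv_two` + `mltj1_norms_D`: the class `x` is the Kummer class of `y₀ ∈ D₀.U` over the
                         inertia field, with `MltL2AbTriv y₀` and the two norm relations;
* (S₀)                   `MltjStripTwoAt`: `y := A (y₀ ^ k · ε ^ p)` is a unit at the triple points of the level `K₀ e`;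
* (TRANSFER)             `mltjt_transfer_strip`: `y` is Kummer over `L` and over `ℚ̄`, its class is the pull-back of
                         `k • x` (non-zero, in the `W`-eigenspace), the two norm relations hold for `y`;
* the roots              `r_*(y) = ᾱ (g⁰_*) ^ p` (helper7's `mltj5_rinf_A/_rmid_A/_r0_A`);
* **Theorem R** at the rigid level `K₀ e` (hypothesis: helper9's literal `MltjTheoremRAt` of `Contracts/L2R.lean`,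
                         used through the class form `MltjtTheoremRAt`, `mltjt_theoremR_bridge`): the values `ξ` on `Σ` of a function
                         `f` in the group generated by the roots satisfy the three clauses of (G-out);
* the clause "`ξ` is constant on the classes of `mltjSame`" is then the definition of `mltjSame` applied to
                         `f₀ ∈ E₀ˣ`, `f = ᾱ f₀`.
-/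
import Mathlib
import Fermat.Agent.Lib.MLT.Contracts.L2Two
import Fermat.Agent.Lib.MLT.Contracts.L2R
import Fermat.Agent.Lib.MLT.L2.Two.Transfer
import Fermat.Agent.Lib.MLT.L2.P2.StepB
import Fermat.Agent.Lib.MLT.L2.HkVert
import Fermat.Agent.Lib.Delta.NodeX.Point

set_option autoImplicit false
set_option linter.unusedSectionVars false
set_option linter.unusedVariables false
set_option linter.style.haveILetI false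
set_option synthInstance.maxHeartbeats 400000
set_option maxHeartbeats 1000000

open WeierstrassCurve

noncomputable section

namespace Fermat.Agent.MLT

open ModularCurve HahnSeries Fermat.Agent.T1 Fermat.Agent.T2 Fermat.Agent.T4 Fermat.Agent.TW
  Fermat.Agent.Delta Fermat.Agent.T3 Fermat.Agent.Alpha AlgebraicCurve Fermat.Agent.Curve
  Fermat.Agent.S05Lib

local notation "Qb" => AlgebraicClosure ℚ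

attribute [local instance] t2i_dvr t2i_isAlgClosed t2i_charP t2i_fact
attribute [local instance 5000] dlhAlgK

/-! ### The literal of Theorem R (rigid level `K`) -/

section TheoremR

variable (𝔓 : FFPlace) (K : ℕ) [NeZero K] (hK : ¬ 𝔓.p ∣ K) {ζ : Qb}
  (hζ : IsPrimitiveRoot ζ 𝔓.p) (h49 : 4 ∣ K ∨ 9 ∣ K)
  (p : ℕ) (hp0 : p ≠ 0) (hpq : Nat.Coprime p 𝔓.p)

/-- **Theorem R** at the rigid level `K`: a Kummer unit `y ∈ D.U` (over `L` and over `ℚ̄`) with a non-zero class in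
the `W`-eigenspace, the two norm relations, which is a unit at the triple points, with roots `g_*` of its three
residues: there is a function `f` in the group generated by the roots whose values `ξ` on `Σ` satisfy the three
clauses of (G-out) -/
def MltjtTheoremRAt (W : WeierstrassCurve ℤ) : Prop :=
  ∀ y : ↥(t4niAFix 𝔓 K hK hζ p).U,
    (y : (↥(tbLevF 𝔓 (K * 𝔓.p * 𝔓.p) ⊤))ˣ) ∈
      tWsub ↥(tbFix 𝔓 (⊤ : Subgroup 𝔓.I)) (K * 𝔓.p * 𝔓.p) p →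
    ∀ hy : (∀ P : Place Qb ↥(modularFunctionFieldBar (K * 𝔓.p * 𝔓.p)),
      (p : ℤ) ∣ P.ord ((mltl2PhiU 𝔓 (K * 𝔓.p * 𝔓.p) (y : (↥(tbLevF 𝔓 (K * 𝔓.p * 𝔓.p) ⊤))ˣ) :
        (↥(modularFunctionFieldBar (K * 𝔓.p * 𝔓.p)))ˣ) :
          ↥(modularFunctionFieldBar (K * 𝔓.p * 𝔓.p)))),
    alpfClass hp0 (mltl2PhiU 𝔓 (K * 𝔓.p * 𝔓.p) (y : (↥(tbLevF 𝔓 (K * 𝔓.p * 𝔓.p) ⊤))ˣ)) hy ≠ 0 →
    alpfClass hp0 (mltl2PhiU 𝔓 (K * 𝔓.p * 𝔓.p) (y : (↥(tbLevF 𝔓 (K * 𝔓.p * 𝔓.p) ⊤))ˣ)) hy ∈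
      dlwEig (K * 𝔓.p * 𝔓.p) p W →
    (∃ (c : (↥(tbFix 𝔓 (⊤ : Subgroup 𝔓.I)))ˣ) (g : (↥(tbLevF 𝔓 (K * 𝔓.p) ⊤))ˣ),
      (t4niAFix 𝔓 K hK hζ p).Nα (y : (↥(tbLevF 𝔓 (K * 𝔓.p * 𝔓.p) ⊤))ˣ) =
        (t4niAFix 𝔓 K hK hζ p).cF1 c * g ^ p) →
    (∃ (c : (↥(tbFix 𝔓 (⊤ : Subgroup 𝔓.I)))ˣ) (g : (↥(tbLevF 𝔓 (K * 𝔓.p) ⊤))ˣ),
      (t4niAFix 𝔓 K hK hζ p).Nβ (y : (↥(tbLevF 𝔓 (K * 𝔓.p * 𝔓.p) ⊤))ˣ) =
        (t4niAFix 𝔓 K hK hζ p).cF1 c * g ^ p) →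
    MltjUnitAtTriple 𝔓 K hK hζ
      (((y : (↥(tbLevF 𝔓 (K * 𝔓.p * 𝔓.p) ⊤))ˣ)) : ↥(tbLevF 𝔓 (K * 𝔓.p * 𝔓.p) ⊤)) →
    ∀ g₁ g₂ g₃ : (↥(tbBarF 𝔓 K))ˣ,
      (t4niBFix 𝔓 K hK hζ p hp0 hpq).rinf y = g₁ ^ p →
      (t4niBFix 𝔓 K hK hζ p hp0 hpq).rmid y = g₂ ^ p →
      (t4niBFix 𝔓 K hK hζ p hp0 hpq).r0 y = g₃ ^ p →
      ∃ f ∈ Subgroup.closure ({g₁, g₂, g₃} : Set (↥(tbBarF 𝔓 K))ˣ),
        ∃ ξ : Place (IsLocalRing.ResidueField ↥𝔓.P) ↥(tbBarF 𝔓 K) →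
            (IsLocalRing.ResidueField ↥𝔓.P)ˣ,
          (∀ P ∈ mltjSS 𝔓 K hK h49,
            DlgVal P ((f : (↥(tbBarF 𝔓 K))ˣ) : ↥(tbBarF 𝔓 K))
              ((ξ P : (IsLocalRing.ResidueField ↥𝔓.P)ˣ) : IsLocalRing.ResidueField ↥𝔓.P)) ∧
          (∀ P ∈ mltjSS 𝔓 K hK h49, ∀ P' ∈ mltjSS 𝔓 K hK h49, ξ P ^ p = ξ P' ^ p) ∧
          (∃ P ∈ mltjSS 𝔓 K hK h49, ∃ P' ∈ mltjSS 𝔓 K hK h49, ξ P ≠ ξ P') ∧
          ∀ (ℓ : ℕ) [NeZero ℓ] (hℓ : ℓ.Prime) (hℓp : ℓ ≠ 𝔓.p), ¬ ℓ ∣ K → W.IsGoodPrimeFor ℓ → ℓ ≠ p →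
            ∃ c : (IsLocalRing.ResidueField ↥𝔓.P)ˣ, ∀ P ∈ mltjSS 𝔓 K hK h49,
              (mltjBrT 𝔓 K hK ℓ hℓ hℓp (Finsupp.single P 1)).prod (fun Q n => ξ Q ^ n)
                = c * ξ P ^ (W.apOfModel ℓ)

end TheoremR

/-! ### helper9's literal `MltjTheoremRAt` implies the class form -/

section Bridge

variable (𝔓 : FFPlace) (K : ℕ) [NeZero K] (hK : ¬ 𝔓.p ∣ K) {ζ : Qb}
  (hζ : IsPrimitiveRoot ζ 𝔓.p) (h49 : 4 ∣ K ∨ 9 ∣ K)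
  (p : ℕ) (hp0 : p ≠ 0) (hpq : Nat.Coprime p 𝔓.p)

/-- a constant times a `p`-th power (units form) has trivial Kummer class -/
theorem mltjt_class_eq_zero_of_cF (y : (↥(tbLevF 𝔓 (K * 𝔓.p * 𝔓.p) ⊤))ˣ)
    (hy : ∀ P : Place Qb ↥(modularFunctionFieldBar (K * 𝔓.p * 𝔓.p)),
      (p : ℤ) ∣ P.ord ((mltl2PhiU 𝔓 (K * 𝔓.p * 𝔓.p) y :
        (↥(modularFunctionFieldBar (K * 𝔓.p * 𝔓.p)))ˣ) :
          ↥(modularFunctionFieldBar (K * 𝔓.p * 𝔓.p))))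
    (h : ∃ (c : (↥(tbFix 𝔓 (⊤ : Subgroup 𝔓.I)))ˣ) (t : (↥(tbLevF 𝔓 (K * 𝔓.p * 𝔓.p) ⊤))ˣ),
      y = (t4niAFix 𝔓 K hK hζ p).cF c * t ^ p) :
    alpfClass hp0 (mltl2PhiU 𝔓 (K * 𝔓.p * 𝔓.p) y) hy = 0 := by
  obtain ⟨c, t, hct⟩ := h
  refine mltj1_class_eq_zero 𝔓 (K * 𝔓.p * 𝔓.p) hp0 y hy
    ⟨(c : ↥(tbFix 𝔓 (⊤ : Subgroup 𝔓.I))), (t : ↥(tbLevF 𝔓 (K * 𝔓.p * 𝔓.p) ⊤)), ?_⟩
  have h1 := congrArg (fun z : (↥(tbLevF 𝔓 (K * 𝔓.p * 𝔓.p) ⊤))ˣ =>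
    (z : ↥(tbLevF 𝔓 (K * 𝔓.p * 𝔓.p) ⊤))) hct
  simp only [Units.val_mul, Units.val_pow_eq_pow_val] at h1
  rw [h1, Algebra.smul_def]
  rfl

/-- **bridge**: helper9's literal of Theorem R (eigen-relations, `y ≠ constant × p`-th power, `f = g₁/g₂ ∨ g₂/g₃`)
implies the class form used by the assembly -/
theorem mltjt_theoremR_bridge (W : WeierstrassCurve ℤ)
    (hR : MltjTheoremRAt 𝔓 K hK hζ h49 p hp0 hpq W) :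
    MltjtTheoremRAt 𝔓 K hK hζ h49 p hp0 hpq W := by
  intro y hyL hy hne heig hα hβ hunit g₁ g₂ g₃ h₁ h₂ h₃
  have heigen : ∀ (ℓ : ℕ) [NeZero ℓ], ℓ.Prime → ℓ ≠ 𝔓.p → ¬ ℓ ∣ K → W.IsGoodPrimeFor ℓ → ℓ ≠ p →
      ∃ t : (↥(modularFunctionFieldBar (K * 𝔓.p * 𝔓.p)))ˣ,
        tkrHeckeUnits (K * 𝔓.p * 𝔓.p) ℓ
            (mltl2PhiU 𝔓 (K * 𝔓.p * 𝔓.p) (y : (↥(tbLevF 𝔓 (K * 𝔓.p * 𝔓.p) ⊤))ˣ)) =
          mltl2PhiU 𝔓 (K * 𝔓.p * 𝔓.p) (y : (↥(tbLevF 𝔓 (K * 𝔓.p * 𝔓.p) ⊤))ˣ) ^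
            (W.apOfModel ℓ) * t ^ p := by
    intro ℓ _ hℓ hℓq hℓK hgood hℓp
    have hℓN : ¬ ℓ ∣ K * 𝔓.p * 𝔓.p := by
      intro hd
      rcases (Nat.Prime.dvd_mul hℓ).mp hd with hd | hd
      · rcases (Nat.Prime.dvd_mul hℓ).mp hd with hd | hd
        · exact hℓK hd
        · exact hℓq ((Nat.prime_dvd_prime_iff_eq hℓ 𝔓.hp).mp hd)
      · exact hℓq ((Nat.prime_dvd_prime_iff_eq hℓ 𝔓.hp).mp hd)
    exact mltj2_hecke_eq (K * 𝔓.p * 𝔓.p) hp0 hℓ hℓN (W.apOfModel ℓ) _ hy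
      (heig.2 ℓ hℓ hℓN hgood hℓp)
  have hne' : ¬ ∃ (c : (↥(tbFix 𝔓 (⊤ : Subgroup 𝔓.I)))ˣ) (t : (↥(tbLevF 𝔓 (K * 𝔓.p * 𝔓.p) ⊤))ˣ),
      (y : (↥(tbLevF 𝔓 (K * 𝔓.p * 𝔓.p) ⊤))ˣ) = (t4niAFix 𝔓 K hK hζ p).cF c * t ^ p :=
    fun h => hne (mltjt_class_eq_zero_of_cF 𝔓 K hK hζ p hp0 _ hy h)
  have key := hR y hyL hy hα hβ hunit g₁ g₂ g₃ h₁ h₂ h₃ heigen hne'
  obtain ⟨f, hf, hval, hcl⟩ := key
  classical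
  refine ⟨f, ?_, fun P => if h : P ∈ mltjSS 𝔓 K hK h49 then Classical.choose (hval P h) else 1,
    ?_, ?_⟩
  · rcases hf with rfl | rfl
    · exact Subgroup.div_mem _ (Subgroup.subset_closure (by simp))
        (Subgroup.subset_closure (by simp))
    · exact Subgroup.div_mem _ (Subgroup.subset_closure (by simp))
        (Subgroup.subset_closure (by simp))
  · intro P hP
    simp only [dif_pos hP]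
    exact Classical.choose_spec (hval P hP)
  · have h4 := hcl (fun P => if h : P ∈ mltjSS 𝔓 K hK h49 then Classical.choose (hval P h) else 1)
      (fun P hP => by
        simp only [dif_pos hP]
        exact Classical.choose_spec (hval P hP))
    exact h4

end Bridge

/-! ### Abstract bookkeeping -/

/-- a root of the residue of `y ^ k · ε ^ p` -/
theorem mltjt_root_pow_mul {U H : Type*} [Group U] [CommGroup H] (r : U →* H) (y ε : U) (k p : ℕ)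
    (t : H) (h : r y = t ^ p) : r (y ^ k * ε ^ p) = (t ^ k * r ε) ^ p := by
  rw [map_mul, map_pow, map_pow, h, mul_pow, ← pow_mul, ← pow_mul, mul_comm p k]

/-- the group generated by images lies in the range -/
theorem mltjt_closure_le_range {G H : Type*} [Group G] [Group H] (φ : G →* H) (a b c : G) :
    Subgroup.closure ({φ a, φ b, φ c} : Set H) ≤ φ.range := by
  rw [Subgroup.closure_le]
  intro z hz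
  rcases hz with rfl | rfl | rfl
  · exact ⟨a, rfl⟩
  · exact ⟨b, rfl⟩
  · exact ⟨c, rfl⟩

/-! ### The assembly -/

section Two

variable (𝔓 : FFPlace) (K₀ e : ℕ) [NeZero K₀] [NeZero e] (hK₀ : ¬ 𝔓.p ∣ K₀) (hK : ¬ 𝔓.p ∣ K₀ * e)
  {ζ : Qb} (hζ : IsPrimitiveRoot ζ 𝔓.p) (h49 : 4 ∣ K₀ * e ∨ 9 ∣ K₀ * e)
  (p : ℕ) (hp0 : p ≠ 0) (hpq : Nat.Coprime p 𝔓.p)

/-- `ᾱ` on units -/
def mltjtAlphaU : (↥(tbBarF 𝔓 K₀))ˣ →* (↥(tbBarF 𝔓 (K₀ * e)))ˣ :=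
  Units.map ((dlhAlphaC (IsLocalRing.ResidueField ↥𝔓.P) K₀ e :
    ↥(tbBarF 𝔓 K₀) →ₐ[IsLocalRing.ResidueField ↥𝔓.P] ↥(tbBarF 𝔓 (K₀ * e))) :
      ↥(tbBarF 𝔓 K₀) →* ↥(tbBarF 𝔓 (K₀ * e)))

theorem coe_mltjtAlphaU (g : (↥(tbBarF 𝔓 K₀))ˣ) :
    ((mltjtAlphaU 𝔓 K₀ e g : (↥(tbBarF 𝔓 (K₀ * e)))ˣ) : ↥(tbBarF 𝔓 (K₀ * e))) =
      dlhAlphaC (IsLocalRing.ResidueField ↥𝔓.P) K₀ e ((g : (↥(tbBarF 𝔓 K₀))ˣ) : ↥(tbBarF 𝔓 K₀)) := rfl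

/-- `r_∞ (A y₁) = ᾱ (r⁰_∞ y₁)` -/
theorem mltjt_rinf_AU (y₁ : ↥(t4niAFix 𝔓 K₀ hK₀ hζ p).U) :
    (t4niBFix 𝔓 (K₀ * e) hK hζ p hp0 hpq).rinf (mltjAU 𝔓 K₀ e hK₀ hK hζ p y₁) =
      mltjtAlphaU 𝔓 K₀ e ((t4niBFix 𝔓 K₀ hK₀ hζ p hp0 hpq).rinf y₁) :=
  Units.ext (mltj5_rinf_A 𝔓 K₀ e hK₀ hK hζ p hp0 hpq y₁)

/-- `r_mid (A y₁) = ᾱ (r⁰_mid y₁)` -/
theorem mltjt_rmid_AU (y₁ : ↥(t4niAFix 𝔓 K₀ hK₀ hζ p).U) :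
    (t4niBFix 𝔓 (K₀ * e) hK hζ p hp0 hpq).rmid (mltjAU 𝔓 K₀ e hK₀ hK hζ p y₁) =
      mltjtAlphaU 𝔓 K₀ e ((t4niBFix 𝔓 K₀ hK₀ hζ p hp0 hpq).rmid y₁) :=
  Units.ext (mltj5_rmid_A 𝔓 K₀ e hK₀ hK hζ p hp0 hpq y₁)

/-- `r_0 (A y₁) = ᾱ (r⁰_0 y₁)` -/
theorem mltjt_r0_AU (y₁ : ↥(t4niAFix 𝔓 K₀ hK₀ hζ p).U) :
    (t4niBFix 𝔓 (K₀ * e) hK hζ p hp0 hpq).r0 (mltjAU 𝔓 K₀ e hK₀ hK hζ p y₁) =
      mltjtAlphaU 𝔓 K₀ e ((t4niBFix 𝔓 K₀ hK₀ hζ p hp0 hpq).r0 y₁) :=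
  Units.ext (mltj5_r0_A 𝔓 K₀ e hK₀ hK hζ p hp0 hpq y₁)

/-- **(γ-G), at-form** (`q = 𝔓.p = 2`): the two-level (G-out) from the two-level strip (S₀) and Theorem R at the rigid
level `K₀ e` -/
theorem mltjt_geomOutTwoAt (hq2 : 𝔓.p = 2) (hp : p.Prime) (hp2 : p ≠ 2)
    (W : WeierstrassCurve ℤ) (hΔ : W.Δ ≠ 0) (hirr : W.ModRepIsIrreducible p)
    (hS0 : MltjStripTwoAt 𝔓 K₀ e hK₀ hK hζ p hp0 hpq)
    (hR : MltjtTheoremRAt 𝔓 (K₀ * e) hK hζ h49 p hp0 hpq W) :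
    MltjGeomOutTwoAt 𝔓 K₀ e hK h49 p W := by
  intro x hx0 hxE hI hA hB
  right
  -- Step 1: the Kummer function of the level `K₀`
  have hvert : MltjVertHeckeAt 𝔓 K₀ hK₀ hζ p := mltj5_vertHecke 𝔓 K₀ hK₀ hζ p
  have h1 := mltj2_triv_two 𝔓 K₀ hK₀ hζ hq2 p hp hp2 hpq hvert W hΔ hirr x hxE hI hA hB
  obtain ⟨y₀, hyL, htriv, hy, hcl⟩ := h1
  have hcl' : alpfClass hp0 (mltl2PhiU 𝔓 (K₀ * 𝔓.p * 𝔓.p)
      (y₀ : (↥(tbLevF 𝔓 (K₀ * 𝔓.p * 𝔓.p) ⊤))ˣ)) hy = x := hcl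
  have hA' : dlwPushA (K₀ * 𝔓.p) 𝔓.p (alpfClass hp0 (mltj1PhiU 𝔓 (K₀ * 𝔓.p * 𝔓.p)
      (y₀ : (↥(tbLevF 𝔓 (K₀ * 𝔓.p * 𝔓.p) ⊤))ˣ)) hy) = 0 := by rw [hcl]; exact hA
  have hB' : dlwPushB (K₀ * 𝔓.p) 𝔓.p (alpfClass hp0 (mltj1PhiU 𝔓 (K₀ * 𝔓.p * 𝔓.p)
      (y₀ : (↥(tbLevF 𝔓 (K₀ * 𝔓.p * 𝔓.p) ⊤))ˣ)) hy) = 0 := by rw [hcl]; exact hB
  have hnorms := mltj1_norms_D 𝔓 K₀ hK₀ hζ hp0 hpq
    (y₀ : (↥(tbLevF 𝔓 (K₀ * 𝔓.p * 𝔓.p) ⊤))ˣ) hy hA' hB'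
  obtain ⟨hα, hβ⟩ := hnorms
  -- Step 2: the two-level strip
  have hstrip := hS0 y₀ hyL htriv
  obtain ⟨k, ε, hkp, hunit⟩ := hstrip
  -- Step 3: transfer to the level `K₀ e`
  have hTS := mltjt_transfer_strip 𝔓 K₀ e hK₀ hK hζ p hp0 y₀ ε k hkp
    (mltjAU 𝔓 K₀ e hK₀ hK hζ p (y₀ ^ k * ε ^ p)) rfl hy
  obtain ⟨hWK, hyK, hclK, hne, heig, hαK, hβK⟩ := hTS
  have hne' := hne (by rw [hcl']; exact hx0)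
  have heig' := heig W (by rw [hcl']; exact hxE)
  -- Step 4: the roots
  obtain ⟨⟨t₁, ht₁⟩, ⟨t₂, ht₂⟩, ⟨t₃, ht₃⟩⟩ := htriv
  have hr₁ := (mltjt_rinf_AU 𝔓 K₀ e hK₀ hK hζ p hp0 hpq (y₀ ^ k * ε ^ p)).trans
    ((congrArg (mltjtAlphaU 𝔓 K₀ e) (mltjt_root_pow_mul
      (t4niBFix 𝔓 K₀ hK₀ hζ p hp0 hpq).rinf y₀ ε k p t₁ ht₁)).trans (map_pow _ _ _))
  have hr₂ := (mltjt_rmid_AU 𝔓 K₀ e hK₀ hK hζ p hp0 hpq (y₀ ^ k * ε ^ p)).trans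
    ((congrArg (mltjtAlphaU 𝔓 K₀ e) (mltjt_root_pow_mul
      (t4niBFix 𝔓 K₀ hK₀ hζ p hp0 hpq).rmid y₀ ε k p t₂ ht₂)).trans (map_pow _ _ _))
  have hr₃ := (mltjt_r0_AU 𝔓 K₀ e hK₀ hK hζ p hp0 hpq (y₀ ^ k * ε ^ p)).trans
    ((congrArg (mltjtAlphaU 𝔓 K₀ e) (mltjt_root_pow_mul
      (t4niBFix 𝔓 K₀ hK₀ hζ p hp0 hpq).r0 y₀ ε k p t₃ ht₃)).trans (map_pow _ _ _))
  -- Step 5: Theorem R at the level `K₀ e`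
  have hRy := hR (mltjAU 𝔓 K₀ e hK₀ hK hζ p (y₀ ^ k * ε ^ p)) hWK hyK hne' heig' (hαK hα) (hβK hβ)
    hunit _ _ _ hr₁ hr₂ hr₃
  obtain ⟨f, hf, ξ, hval, hpow, hnc, hhecke⟩ := hRy
  refine ⟨ξ, hpow, hnc, ?_, hhecke⟩
  -- the classes of `mltjSame`
  obtain ⟨f₀, rfl⟩ := mltjt_closure_le_range (mltjtAlphaU 𝔓 K₀ e) _ _ _ hf
  intro P hP P' hP' hsame
  apply Units.ext
  refine hsame f₀ (fun R hR' => ?_) _ _ (hval P hP) (hval P' hP')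
  exact ((hval R hR').ord_eq_zero R (Units.ne_zero _)).2

/-- **(γ-G), at-form, from helper9's literal of Theorem R** -/
theorem mltjt_geomOutTwoAt_of_R (hq2 : 𝔓.p = 2) (hp : p.Prime) (hp2 : p ≠ 2)
    (W : WeierstrassCurve ℤ) (hΔ : W.Δ ≠ 0) (hirr : W.ModRepIsIrreducible p)
    (hS0 : MltjStripTwoAt 𝔓 K₀ e hK₀ hK hζ p hp0 hpq)
    (hR : MltjTheoremRAt 𝔓 (K₀ * e) hK hζ h49 p hp0 hpq W) :
    MltjGeomOutTwoAt 𝔓 K₀ e hK h49 p W :=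
  mltjt_geomOutTwoAt 𝔓 K₀ e hK₀ hK hζ h49 p hp0 hpq hq2 hp hp2 W hΔ hirr hS0
    (mltjt_theoremR_bridge 𝔓 (K₀ * e) hK hζ h49 p hp0 hpq W hR)

end Two

/-! ### The global form (`p = 3`, `q = 2`, `e = 9`) -/

/-- **(γ-G)**: helper9's contract `MltjGeomOutTwo` from the two-level strip (S₀) and Theorem R at the rigid levels -/
theorem mltjt_geomOutTwo
    (hS0 : ∀ (𝔓 : FFPlace) (K₀ : ℕ) [NeZero K₀] (hK₀ : ¬ 𝔓.p ∣ K₀) (hK : ¬ 𝔓.p ∣ K₀ * 9) {ζ : Qb}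
      (hζ : IsPrimitiveRoot ζ 𝔓.p) (hpq : Nat.Coprime 3 𝔓.p), 𝔓.p = 2 → Squarefree K₀ →
      MltjStripTwoAt 𝔓 K₀ 9 hK₀ hK hζ 3 (by norm_num) hpq)
    (hR : ∀ (W : WeierstrassCurve ℤ), W.Δ ≠ 0 → W.IsSemistableModel → W.ModRepIsIrreducible 3 →
      ∀ (𝔓 : FFPlace) (K : ℕ) [NeZero K] (hK : ¬ 𝔓.p ∣ K) {ζ : Qb} (hζ : IsPrimitiveRoot ζ 𝔓.p)
        (h49 : 4 ∣ K ∨ 9 ∣ K) (hpq : Nat.Coprime 3 𝔓.p), 𝔓.p = 2 →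
        MltjTheoremRAt 𝔓 K hK hζ h49 3 (by norm_num) hpq W) :
    MltjGeomOutTwo := by
  intro W hΔ hss hirr 𝔓 K₀ _ hq2 h2K hsq hK h49
  have hK₀ : ¬ 𝔓.p ∣ K₀ := by rw [hq2]; exact h2K
  have hpq : Nat.Coprime 3 𝔓.p := by rw [hq2]; norm_num
  obtain ⟨ζ, hζ⟩ := t4cy_exists_zeta 𝔓
  exact mltjt_geomOutTwoAt 𝔓 K₀ 9 hK₀ hK hζ h49 3 (by norm_num) hpq hq2 Nat.prime_three (by norm_num)
    W hΔ hirr (hS0 𝔓 K₀ hK₀ hK hζ hpq hq2 hsq)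
    (mltjt_theoremR_bridge 𝔓 (K₀ * 9) hK hζ h49 3 (by norm_num) hpq W
      (hR W hΔ hss hirr 𝔓 (K₀ * 9) hK hζ h49 hpq hq2))

end Fermat.Agent.MLT
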