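/-
MLT (project S59) / [L2-JL], case (γ), ingredient (e) of helper9's (STRIP₀) (lead): **generic values**.

`𝕜` an infinite field, `(e_i)_{i ∈ I}` multiplicities with `d = ∑ e_i`, `k ≤ d` with `(d choose k) ≠ 0` in `𝕜`,
`(a_j)_{j ∈ J}` finitely many vectors of non-zero constants.  Then there is a vector `x` of non-zero elements of
`𝕜` such that for every `j` the `k`-th elementary symmetric function of the multiset `{a_{j,i} x_i  (e_i times)}`
is non-zero.

* `mltj_esymm_replicate` : `e_k(x, …, x) = (d choose k) x ^ k`;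
* `mltj_esymm_map_hom`   : ring homomorphisms commute with `Multiset.esymm`;
* `mltjMS e z`           : the multiset `{z_i (e_i times)}`;
* `mltj_generic`         : the statement above.
-/
import Mathlib

set_option autoImplicit false
set_option linter.unusedSectionVars false
set_option linter.unusedVariables false
set_option linter.style.haveILetI false

namespace Fermat.Agent.MLT

noncomputable section

/-- `e_k(x, …, x) = (d choose k) x ^ k` -/
theorem mltj_esymm_replicate {R : Type*} [CommRing R] (d k : ℕ) (hk : k ≤ d) (x : R) :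
    (Multiset.replicate d x).esymm k = (d.choose k : R) * x ^ k := by
  have h := Multiset.prod_X_add_C_coeff (Multiset.replicate d x) (k := d - k)
    (by rw [Multiset.card_replicate]; exact Nat.sub_le _ _)
  rw [Multiset.card_replicate, Nat.sub_sub_self hk, Multiset.map_replicate,
    Multiset.prod_replicate, Polynomial.coeff_X_add_C_pow, Nat.sub_sub_self hk,
    Nat.choose_symm hk] at h
  rw [← h, mul_comm]

/-- ring homomorphisms commute with the elementary symmetric functions of multisets -/
theorem mltj_esymm_map_hom {R S : Type*} [CommSemiring R] [CommSemiring S] (f : R →+* S)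
    (s : Multiset R) (k : ℕ) : (s.map f).esymm k = f (s.esymm k) := by
  rw [Multiset.esymm, Multiset.esymm, Multiset.powersetCard_map, Multiset.map_map, map_multiset_sum,
    Multiset.map_map]
  refine congrArg Multiset.sum (Multiset.map_congr rfl (fun u _ => ?_))
  rw [Function.comp_apply, Function.comp_apply, map_multiset_prod]

/-- the multiset `{z_i (e_i times)}` -/
def mltjMS {I : Type*} [Fintype I] {R : Type*} (e : I → ℕ) (z : I → R) : Multiset R :=
  (Finset.univ : Finset I).val.bind (fun i => Multiset.replicate (e i) (z i))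

theorem mltjMS_map {I : Type*} [Fintype I] {R S : Type*} (f : R → S) (e : I → ℕ) (z : I → R) :
    (mltjMS e z).map f = mltjMS e (fun i => f (z i)) := by
  rw [mltjMS, mltjMS, Multiset.map_bind]
  refine congrArg _ (funext fun i => ?_)
  rw [Multiset.map_replicate]

theorem mltjMS_const {I : Type*} [Fintype I] {R : Type*} (e : I → ℕ) (c : R) :
    mltjMS e (fun _ => c) = Multiset.replicate (∑ i, e i) c := by
  rw [Multiset.eq_replicate]
  constructor
  · rw [mltjMS, Multiset.card_bind]
    simp only [Multiset.card_replicate, Function.comp_def]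
    rfl
  · intro b hb
    rw [mltjMS, Multiset.mem_bind] at hb
    obtain ⟨i, -, hi⟩ := hb
    exact Multiset.eq_of_mem_replicate hi

theorem mltjMS_card {I : Type*} [Fintype I] {R : Type*} (e : I → ℕ) (z : I → R) :
    Multiset.card (mltjMS e z) = ∑ i, e i := by
  rw [mltjMS, Multiset.card_bind]
  simp only [Multiset.card_replicate, Function.comp_def]
  rfl

/-- **generic values**: finitely many elementary symmetric conditions can be met simultaneously -/
theorem mltj_generic {𝕜 : Type*} [Field 𝕜] [Infinite 𝕜] {I : Type*} [Fintype I]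
    (e : I → ℕ) (k : ℕ) (hk : k ≤ ∑ i, e i) (hchoose : ((∑ i, e i).choose k : 𝕜) ≠ 0)
    {J : Type*} [Fintype J] (a : J → I → 𝕜) (ha : ∀ j i, a j i ≠ 0) :
    ∃ x : I → 𝕜, (∀ i, x i ≠ 0) ∧ ∀ j, (mltjMS e (fun i => a j i * x i)).esymm k ≠ 0 := by
  classical
  -- the polynomials
  let Q : J → MvPolynomial I 𝕜 := fun j =>
    (mltjMS e (fun i => MvPolynomial.C (a j i) * MvPolynomial.X i)).esymm k
  have hQeval : ∀ (j : J) (x : I → 𝕜),
      MvPolynomial.eval x (Q j) = (mltjMS e (fun i => a j i * x i)).esymm k := by
    intro j x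
    show MvPolynomial.eval x ((mltjMS e (fun i => MvPolynomial.C (a j i) * MvPolynomial.X i)).esymm k)
      = _
    rw [← mltj_esymm_map_hom (MvPolynomial.eval x), mltjMS_map]
    congr 2
    funext i
    rw [map_mul, MvPolynomial.eval_C, MvPolynomial.eval_X]
  have hQ0 : ∀ j, Q j ≠ 0 := by
    intro j h0
    have h1 := hQeval j (fun i => (a j i)⁻¹)
    rw [h0, map_zero] at h1
    have h2 : (fun i => a j i * (a j i)⁻¹) = fun _ : I => (1 : 𝕜) :=
      funext fun i => mul_inv_cancel₀ (ha j i)
    rw [h2, mltjMS_const, mltj_esymm_replicate _ _ hk, one_pow, mul_one] at h1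
    exact hchoose h1.symm
  have hP0 : (∏ j, Q j) * ∏ i, (MvPolynomial.X i : MvPolynomial I 𝕜) ≠ 0 := by
    refine mul_ne_zero (Finset.prod_ne_zero_iff.2 (fun j _ => hQ0 j))
      (Finset.prod_ne_zero_iff.2 (fun i _ => MvPolynomial.X_ne_zero i))
  obtain ⟨x, hx⟩ : ∃ x : I → 𝕜,
      MvPolynomial.eval x ((∏ j, Q j) * ∏ i, (MvPolynomial.X i : MvPolynomial I 𝕜)) ≠ 0 := by
    by_contra hcon
    push_neg at hcon
    exact hP0 (MvPolynomial.funext (fun x => by rw [hcon x, map_zero]))
  rw [map_mul, map_prod, map_prod] at hx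
  have hx1 := left_ne_zero_of_mul hx
  have hx2 := right_ne_zero_of_mul hx
  refine ⟨x, fun i => ?_, fun j => ?_⟩
  · have := Finset.prod_ne_zero_iff.1 hx2 i (Finset.mem_univ i)
    rwa [MvPolynomial.eval_X] at this
  · have := Finset.prod_ne_zero_iff.1 hx1 j (Finset.mem_univ j)
    rwa [hQeval] at this

end

end Fermat.Agent.MLT
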