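/-
MLT (project S59) / [L2-JL], case (γ), (δ3) of h9-m1638 (lead): **(L-IC)** an element of an algebraic
extension `F/F₀` lying in every valuation ring of `F` above a maximal proper valuation ring `V₀` of `F₀`
is integral over `V₀`.
-/
import Mathlib

set_option autoImplicit false

namespace Fermat.Agent.MLT

open Polynomial

/-- a valuation ring of `F` containing (the image of) `F₀`, with `F/F₀` algebraic, is everything -/
theorem mltj_valSubring_eq_top_of_algebraic {F₀ F : Type*} [Field F₀] [Field F] [Algebra F₀ F]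
    [Algebra.IsAlgebraic F₀ F] (V : ValuationSubring F) (hV : ∀ a : F₀, algebraMap F₀ F a ∈ V)
    (x : F) : x ∈ V := by
  have hint : IsIntegral F₀ x := (Algebra.IsAlgebraic.isAlgebraic x).isIntegral
  obtain ⟨p, hp, hpx⟩ := hint
  let g : F₀ →+* ↥V := (algebraMap F₀ F).codRestrict V.toSubring hV
  have hxV : IsIntegral ↥V x := by
    refine ⟨p.map g, hp.map g, ?_⟩
    rw [Polynomial.eval₂_map]
    exact hpx
  obtain ⟨y, hy⟩ := (IsIntegrallyClosed.isIntegral_iff (R := ↥V) (K := F)).mp hxV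
  rw [← hy]
  exact y.2

/-- **(δ3) (L-IC)** -/
theorem mltj_LIC {F₀ F : Type*} [Field F₀] [Field F] [Algebra F₀ F] [Algebra.IsAlgebraic F₀ F]
    (V₀ : ValuationSubring F₀) (hmax : ∀ W : ValuationSubring F₀, V₀ ≤ W → W = V₀ ∨ W = ⊤)
    [Algebra ↥V₀ F] [IsScalarTower ↥V₀ F₀ F] (x : F)
    (hx : ∀ V : ValuationSubring F, V.comap (algebraMap F₀ F) = V₀ → x ∈ V) :
    IsIntegral ↥V₀ x := by
  set s : Set F := Set.range (algebraMap ↥V₀ F) with hs
  have halg : ∀ a : ↥V₀, algebraMap F₀ F (a : F₀) = algebraMap ↥V₀ F a := by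
    intro a
    rw [IsScalarTower.algebraMap_apply ↥V₀ F₀ F]
    rfl
  have hmem : x ∈ (⨅ V : {V : ValuationSubring F // s ⊆ V.toSubring}, V.1.toSubring) := by
    rw [Subring.mem_iInf]
    rintro ⟨V, hV⟩
    show x ∈ V
    have hle : V₀ ≤ V.comap (algebraMap F₀ F) := by
      intro a ha
      rw [ValuationSubring.mem_comap, halg ⟨a, ha⟩]
      exact hV ⟨_, rfl⟩
    rcases hmax _ hle with h | h
    · exact hx V h
    · refine mltj_valSubring_eq_top_of_algebraic (F₀ := F₀) V (fun a => ?_) x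
      rw [← ValuationSubring.mem_comap, h]
      trivial
  rw [iInf_valuationSubring_superset] at hmem
  have hxi : IsIntegral ↥(Subring.closure s) x := hmem
  obtain ⟨q, hq, hqx⟩ := hxi
  let f : ↥V₀ →+* ↥(Subring.closure s) :=
    (algebraMap ↥V₀ F).codRestrict (Subring.closure s) (fun a => Subring.subset_closure ⟨a, rfl⟩)
  have hf : Function.Surjective f := by
    rintro ⟨y, hy⟩
    have hy' : y ∈ (algebraMap ↥V₀ F).range := by
      refine (Subring.closure_le (t := (algebraMap ↥V₀ F).range)).mpr ?_ hy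
      rintro _ ⟨a, rfl⟩
      exact ⟨a, rfl⟩
    obtain ⟨a, rfl⟩ := hy'
    exact ⟨a, rfl⟩
  obtain ⟨p, hpq, -, hp⟩ := Polynomial.lifts_and_natDegree_eq_and_monic
    (f := f) (p := q) (by
      rw [Polynomial.mem_lifts]
      exact Polynomial.map_surjective f hf q) hq
  refine ⟨p, hp, ?_⟩
  rw [← hqx, ← hpq, Polynomial.eval₂_map]
  rfl

end Fermat.Agent.MLT
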