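/-
MLT (project S59) / [L2-JL], case (γ), (δ4) of h9-m1638 (lead): **(S₀-res)** generic values on a finite saturated
set of places make one coefficient of all the characteristic polynomials along `φ` a unit at the places below.

`K` algebraically closed (any characteristic), `φ : F → F'` a separable homomorphism of function fields over `K`,
`d = [F' : φ F]`, `k ≤ d` with `(d choose k) ≠ 0` in `K`; `S` a saturated set of places of `F'`;
`st j` (`j : J` finite) functions on `F'` with non-zero values `a j w` on `S`.  Then there are non-zero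
`x w` (`w ∈ S`) such that for every `ub` with the values `x w` on `S` and every `j`, the coefficient of
`X^(d-k)` of the characteristic polynomial of `ub * st j` over `φ F` has a non-zero value at `w ∘ φ`, `w ∈ S`.
-/
import Mathlib
import Fermat.Agent.Lib.MLT.L2.NV.Along
import Fermat.Agent.Lib.MLT.L2.Two.Generic
import Fermat.Agent.Lib.Delta.Glue.Defs

set_option autoImplicit false
set_option linter.unusedSectionVars false
set_option linter.unusedVariables false
set_option linter.style.haveILetI false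

namespace Fermat.Agent.MLT

open AlgebraicCurve IsDedekindDomain WithZero Fermat.Agent.Curve Fermat.Agent.Curve.PlaceAux
  Fermat.Agent.T3 Fermat.Agent.Delta Polynomial

/-- the product of `f` over the multiset `{z_i (e_i times)}` -/
theorem mltjMS_map_prod {I : Type*} [Fintype I] {R S : Type*} [CommMonoid S] (f : R → S)
    (e : I → ℕ) (z : I → R) : ((mltjMS e z).map f).prod = ∏ i, f (z i) ^ e i := by
  rw [mltjMS, Multiset.map_bind, Multiset.prod_bind]
  simp only [Multiset.map_replicate, Multiset.prod_replicate]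
  rfl

/-- Vieta for `∏ (X - z_i)^{e_i}` -/
theorem mltj_prod_pow_coeff {I : Type*} [Fintype I] {R : Type*} [CommRing R] (e : I → ℕ)
    (z : I → R) (k : ℕ) (hk : k ≤ ∑ i, e i) :
    (∏ i, (X - C (z i)) ^ e i).coeff (∑ i, e i - k) = (-1) ^ k * (mltjMS e z).esymm k := by
  rw [← mltjMS_map_prod (fun t => X - C t) e z]
  have h := Multiset.prod_X_sub_C_coeff (mltjMS e z) (k := ∑ i, e i - k)
    (by rw [mltjMS_card]; exact Nat.sub_le _ _)
  rw [mltjMS_card, Nat.sub_sub_self hk] at h
  exact h

variable {K F F' : Type*} [Field K] [Field F] [Field F'] [Algebra K F] [Algebra K F']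
  [IsAlgClosed K]

/-- the fundamental identity along a separable `φ` in any characteristic: `∑_{w ∘ φ = v} e(w) = [F' : φ F]` -/
theorem mltnv_sum_ramificationIndexAlong [HasPrincipalDivisors K F'] {x : F}
    (hx : IsFunctionFieldGen K F x) {x' : F'} (hx' : IsFunctionFieldGen K F' x') (φ : F →ₐ[K] F')
    (hφ : φ.toRingHom.IsIntegral)
    (hsep : letI := algebraAlong φ; Algebra.IsSeparable F F')
    (v : Place K F) :
    ∑ w ∈ Place.fiberAlong φ hφ v, w.ramificationIndexAlong φ = finrankAlong K φ := by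
  classical
  set P : K[X] := ∏ w ∈ Place.fiberAlong φ hφ v, (X - C (1 : K)) ^ w.ramificationIndexAlong φ
    with hP
  set s : ℕ := ∑ w ∈ Place.fiberAlong φ hφ v, w.ramificationIndexAlong φ with hs
  set χ : F[X] := mltnvCharpolyAlong φ (t3h_finiteAlong hx hx' φ) 1 with hχ
  have hPm : P.Monic :=
    Polynomial.monic_prod_of_monic _ _ (fun w _ => (Polynomial.monic_X_sub_C _).pow _)
  have hPd : P.natDegree = s := by
    rw [hP, Polynomial.natDegree_prod_of_monic _ _
      (fun w _ => (Polynomial.monic_X_sub_C _).pow _)]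
    refine Finset.sum_congr rfl (fun w _ => ?_)
    rw [Polynomial.natDegree_pow, Polynomial.natDegree_X_sub_C, mul_one]
  have hχm : χ.Monic := mltnvCharpolyAlong_monic φ _ 1
  have hχd : χ.natDegree = finrankAlong K φ := mltnvCharpolyAlong_natDegree φ _ 1
  have key : ∀ n, DlgVal v (χ.coeff n) (P.coeff n) := fun n =>
    mltnv_charpoly_value_along hx hx' φ hφ hsep v 1 (fun _ => 1)
      (fun w _ => by rw [map_one, sub_self]; exact ordGE_zero w 1) n
  refine le_antisymm ?_ ?_
  · by_contra hlt
    rw [not_le] at hlt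
    have h1 := key s
    rw [← hPd, hPm.coeff_natDegree, hPd,
      Polynomial.coeff_eq_zero_of_natDegree_lt (by rw [hχd]; exact hlt)] at h1
    exact one_ne_zero (h1.unique (DlgVal.zero v))
  · by_contra hlt
    rw [not_le] at hlt
    have h1 := key (finrankAlong K φ)
    rw [← hχd, hχm.coeff_natDegree, hχd,
      Polynomial.coeff_eq_zero_of_natDegree_lt (by rw [hPd]; exact hlt)] at h1
    exact zero_ne_one (h1.unique (DlgVal.one v))

/-- **(S₀-res)**, one fibre: generic non-zero values on the fibre over `v` -/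
theorem mltj_S0res_fiber [HasPrincipalDivisors K F'] {x : F}
    (hx : IsFunctionFieldGen K F x) {x' : F'} (hx' : IsFunctionFieldGen K F' x') (φ : F →ₐ[K] F')
    (hφ : φ.toRingHom.IsIntegral)
    (hsep : letI := algebraAlong φ; Algebra.IsSeparable F F')
    {J : Type*} [Fintype J] (v : Place K F) (st : J → F') (a : J → Place K F' → K)
    (ha : ∀ j, ∀ w ∈ Place.fiberAlong φ hφ v, a j w ≠ 0 ∧ DlgVal w (st j) (a j w))
    (k : ℕ) (hk : k ≤ finrankAlong K φ) (hchoose : (((finrankAlong K φ).choose k : ℕ) : K) ≠ 0) :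
    ∃ xv : Place K F' → K, (∀ w ∈ Place.fiberAlong φ hφ v, xv w ≠ 0) ∧
      ∀ (j : J) (ub : F'), (∀ w ∈ Place.fiberAlong φ hφ v, DlgVal w ub (xv w)) →
        ∃ c : K, c ≠ 0 ∧ DlgVal v ((mltnvCharpolyAlong φ (t3h_finiteAlong hx hx' φ)
          (ub * st j)).coeff (finrankAlong K φ - k)) c := by
  classical
  haveI : Infinite K := IsAlgClosed.instInfinite
  set I := {w : Place K F' // w ∈ Place.fiberAlong φ hφ v} with hI
  let e : I → ℕ := fun w => (w : Place K F').ramificationIndexAlong φ
  have hsum : ∑ i, e i = finrankAlong K φ := by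
    rw [← mltnv_sum_ramificationIndexAlong hx hx' φ hφ hsep v]
    exact Finset.sum_coe_sort (Place.fiberAlong φ hφ v) (fun w => w.ramificationIndexAlong φ)
  obtain ⟨xI, hxI0, hxI⟩ := mltj_generic (𝕜 := K) e k (by rw [hsum]; exact hk)
    (by rw [hsum]; exact hchoose) (fun j (i : I) => a j i) (fun j i => (ha j i i.2).1)
  refine ⟨fun w => if h : w ∈ Place.fiberAlong φ hφ v then xI ⟨w, h⟩ else 1, ?_, ?_⟩
  · intro w hw
    simp only [dif_pos hw]
    exact hxI0 ⟨w, hw⟩
  · intro j ub hub
    -- the values of `ub * st j` on the fibre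
    set c : Place K F' → K := fun w =>
      a j w * (if h : w ∈ Place.fiberAlong φ hφ v then xI ⟨w, h⟩ else 1) with hc
    have hval : ∀ w ∈ Place.fiberAlong φ hφ v,
        OrdGE w (ub * st j - algebraMap K F' (c w)) 1 := by
      intro w hw
      have h1 := (hub w hw).mul (ha j w hw).2
      rw [mul_comm (dite _ _ _) (a j w)] at h1
      exact h1
    have h2 := mltnv_charpoly_value_along hx hx' φ hφ hsep v (ub * st j) c hval
      (finrankAlong K φ - k)
    have h3 : (∏ w ∈ Place.fiberAlong φ hφ v, (X - C (c w)) ^ w.ramificationIndexAlong φ)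
        = ∏ i : I, (X - C (c i)) ^ e i :=
      (Finset.prod_coe_sort (Place.fiberAlong φ hφ v)
        (fun w => (X - C (c w)) ^ w.ramificationIndexAlong φ)).symm
    rw [h3, ← hsum, mltj_prod_pow_coeff e (fun i : I => c i) k (by rw [hsum]; exact hk),
      hsum] at h2
    refine ⟨_, ?_, h2⟩
    refine mul_ne_zero (pow_ne_zero _ (neg_ne_zero.mpr one_ne_zero)) ?_
    have h4 : (fun i : I => c i) = fun i : I => a j i * xI i := by
      funext i
      rw [hc]
      simp only [dif_pos i.2, Subtype.coe_eta]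
    rw [h4]
    exact hxI j

/-- **(δ4) (S₀-res)** -/
theorem mltj_S0res [HasPrincipalDivisors K F'] {x : F}
    (hx : IsFunctionFieldGen K F x) {x' : F'} (hx' : IsFunctionFieldGen K F' x') (φ : F →ₐ[K] F')
    (hφ : φ.toRingHom.IsIntegral)
    (hsep : letI := algebraAlong φ; Algebra.IsSeparable F F')
    {J : Type*} [Fintype J] (S : Set (Place K F'))
    (hSsat : ∀ w ∈ S, ∀ w' : Place K F',
      w'.restrictAlong φ hφ = w.restrictAlong φ hφ → w' ∈ S)
    (st : J → F') (a : J → Place K F' → K)
    (ha : ∀ j, ∀ w ∈ S, a j w ≠ 0 ∧ DlgVal w (st j) (a j w))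
    (k : ℕ) (hk : k ≤ finrankAlong K φ) (hchoose : (((finrankAlong K φ).choose k : ℕ) : K) ≠ 0) :
    ∃ xs : Place K F' → K, (∀ w ∈ S, xs w ≠ 0) ∧
      ∀ (j : J) (ub : F'), (∀ w ∈ S, DlgVal w ub (xs w)) →
        ∀ w ∈ S, ∃ c : K, c ≠ 0 ∧ DlgVal (w.restrictAlong φ hφ)
          ((mltnvCharpolyAlong φ (t3h_finiteAlong hx hx' φ) (ub * st j)).coeff
            (finrankAlong K φ - k)) c := by
  classical
  -- the fibre of a place below `S` lies in `S`
  have hfib : ∀ w ∈ S, ∀ w' ∈ Place.fiberAlong φ hφ (w.restrictAlong φ hφ), w' ∈ S := by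
    intro w hw w' hw'
    exact hSsat w hw w' (Place.mem_fiberAlong.mp hw')
  -- choose the values fibre by fibre
  have hex : ∀ v : Place K F, (∃ w ∈ S, w.restrictAlong φ hφ = v) →
      ∃ xv : Place K F' → K, (∀ w ∈ Place.fiberAlong φ hφ v, xv w ≠ 0) ∧
      ∀ (j : J) (ub : F'), (∀ w ∈ Place.fiberAlong φ hφ v, DlgVal w ub (xv w)) →
        ∃ c : K, c ≠ 0 ∧ DlgVal v ((mltnvCharpolyAlong φ (t3h_finiteAlong hx hx' φ)
          (ub * st j)).coeff (finrankAlong K φ - k)) c := by
    rintro v ⟨w, hw, rfl⟩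
    exact mltj_S0res_fiber hx hx' φ hφ hsep _ st a
      (fun j w' hw' => ha j w' (hfib w hw w' hw')) k hk hchoose
  let xv : Place K F → Place K F' → K := fun v =>
    if h : ∃ w ∈ S, w.restrictAlong φ hφ = v then (hex v h).choose else fun _ => 1
  refine ⟨fun w => xv (w.restrictAlong φ hφ) w, ?_, ?_⟩
  · intro w hw
    have h : ∃ w' ∈ S, w'.restrictAlong φ hφ = w.restrictAlong φ hφ := ⟨w, hw, rfl⟩
    show xv (w.restrictAlong φ hφ) w ≠ 0
    simp only [xv, dif_pos h]
    exact (hex _ h).choose_spec.1 w (Place.mem_fiberAlong.mpr rfl)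
  · intro j ub hub w hw
    have h : ∃ w' ∈ S, w'.restrictAlong φ hφ = w.restrictAlong φ hφ := ⟨w, hw, rfl⟩
    refine (hex _ h).choose_spec.2 j ub ?_
    intro w' hw'
    have h1 := hub w' (hfib w hw w' hw')
    have h2 : w'.restrictAlong φ hφ = w.restrictAlong φ hφ := Place.mem_fiberAlong.mp hw'
    simp only [h2] at h1
    simp only [xv, dif_pos h] at h1
    exact h1

end Fermat.Agent.MLT
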