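/-
MLT (project S59) / [L2-JL], case (γ) (lead): **saturation of the triple points, abstract form**.

`P₀`, `P` chart presentations of `F₀ ⊂ F` with `P` over `P₀`, `R` a reduction of `P` on one of its (vertical)
valuation rings with values in the function field `E / k`, `φ : E₀ → E` an integral embedding of function fields
such that the reduction of the elements coming from `P₀.B` lies in `φ E₀`.  If two places `Pl`, `Pl'` of `E`
(finite on the chart) have the same restriction to `E₀` and the point of `Pl` is a triple point, then so is the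
point of `Pl'` (going-down, helper3's `mltj3_triple_under` + `mltj3_triple_over`).
-/
import Mathlib
import Fermat.Agent.Lib.MLT.L2.P3.TripleAbs
import Fermat.Agent.Lib.MLT.L2.P4.PointAt
import Fermat.Agent.Lib.Mazur.Red.R5.Restrict

set_option autoImplicit false
set_option linter.unusedSectionVars false
set_option linter.unusedVariables false
set_option linter.style.haveILetI false

namespace Fermat.Agent.MLT

open Fermat.Agent.T4 Fermat.Agent.Delta AlgebraicCurve Fermat.Agent.Curve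
  Fermat.Agent.Curve.PlaceAux Fermat.Agent.Mazur

variable {F₀ F : Type*} [Field F₀] [Field F] [Algebra F₀ F] {P₀ : T4Pres F₀} {P : T4Pres F}
  {ι : Type*} {O₀ : ι → ValuationSubring F₀} {O : ι → ValuationSubring F}

/-- the contraction of the point of a place depends only on the restriction of the place -/
theorem mltj_sat_comap (h : T4PresOver P₀ P)
    {Ov : Subring F} {hBO : P.B ≤ Ov} {k : Type*} [Field k] [IsAlgClosed k] {cst : k → ↥P.B}
    {V : ValuationSubring F} {E : Type*} [Field E] [Algebra k E] {z : E}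
    (R : MltJ4Red P Ov hBO cst V E z) [hz : Fact (IsFunctionFieldGen k E z)]
    {E₀ : Type*} [Field E₀] [Algebra k E₀] (φ : E₀ →ₐ[k] E) (hφ : φ.toRingHom.IsIntegral)
    (ρ₀ : ↥P₀.B → E₀) (hρ : ∀ b₀ : ↥P₀.B, R.ρB (h.incl b₀) = φ (ρ₀ b₀))
    (Pl Pl' : Place k E) (hPl : 0 ≤ Pl.ord z) (hPl' : 0 ≤ Pl'.ord z)
    (hres : Pl'.restrictAlong φ hφ = Pl.restrictAlong φ hφ) :
    (R.pointAt Pl' hPl').comap h.incl = (R.pointAt Pl hPl).comap h.incl := by
  ext b₀
  rw [Ideal.mem_comap, Ideal.mem_comap, R.mem_pointAt, R.mem_pointAt, hρ]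
  constructor
  · intro hh
    have h1 := mzr5_ordGE_of_map φ hφ Pl' hh
    rw [hres] at h1
    exact mzr5_ordGE_map φ hφ Pl zero_le_one h1
  · intro hh
    have h1 := mzr5_ordGE_of_map φ hφ Pl hh
    rw [← hres] at h1
    exact mzr5_ordGE_map φ hφ Pl' zero_le_one h1

/-- **saturation of the triple points, abstract form** -/
theorem mltj_sat_abs (h : T4PresOver P₀ P) (hO₀ : ∀ i, O₀ i ∈ P₀.vals)
    (hcompat : ∀ i, ∀ b : ↥P₀.B, (O₀ i).valuation (b : F₀) < 1 →
      (O i).valuation (algebraMap F₀ F (b : F₀)) < 1)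
    (π : ι → ↥P₀.B) (hπ0 : ∀ i, π i ≠ 0) (hπ : ∀ i, (O₀ i).valuation ((π i : ↥P₀.B) : F₀) < 1)
    (huniq : ∀ i, ∀ V ∈ P.vals, V.valuation (algebraMap F₀ F ((π i : ↥P₀.B) : F₀)) < 1 →
      (∀ b : ↥P₀.B, V.valuation (algebraMap F₀ F (b : F₀)) < 1 → (O₀ i).valuation (b : F₀) < 1) →
      V = O i)
    {Ov : Subring F} {hBO : P.B ≤ Ov} {k : Type*} [Field k] [IsAlgClosed k] {cst : k → ↥P.B}
    {V : ValuationSubring F} {E : Type*} [Field E] [Algebra k E] {z : E}
    (R : MltJ4Red P Ov hBO cst V E z) [hz : Fact (IsFunctionFieldGen k E z)]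
    {E₀ : Type*} [Field E₀] [Algebra k E₀] (φ : E₀ →ₐ[k] E) (hφ : φ.toRingHom.IsIntegral)
    (ρ₀ : ↥P₀.B → E₀) (hρ : ∀ b₀ : ↥P₀.B, R.ρB (h.incl b₀) = φ (ρ₀ b₀))
    (Pl Pl' : Place k E) (hPl : 0 ≤ Pl.ord z) (hPl' : 0 ≤ Pl'.ord z)
    (hres : Pl'.restrictAlong φ hφ = Pl.restrictAlong φ hφ)
    (htr : Mltj3Triple P O (R.pointAt Pl hPl)) : Mltj3Triple P O (R.pointAt Pl' hPl') := by
  have h2 := mltj3_triple_under h hO₀ hcompat _ htr
  rw [← mltj_sat_comap h R φ hφ ρ₀ hρ Pl Pl' hPl hPl' hres] at h2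
  exact mltj3_triple_over h hO₀ π hπ0 hπ huniq _ (R.pointAt_isMaximal Pl' hPl') h2

end Fermat.Agent.MLT
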