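/-
MLT (project S59) / [L2-JL], case (γ) (lead): **saturation of the supersingular places under `ᾱ : F̄_{K₀} → F̄_{K₀ e}`**.

`MltjSatAt 𝔓 K₀ e hK h49` : a place of `F̄_{K₀ e}` with the same restriction to `ᾱ F̄_{K₀}` as a supersingular place is
supersingular.  Proved (`mltj_satAt_of_pres`) from the chart geometry of the two levels in helper3's abstract format
(`T4PresOver` along `A`, compatibility and uniqueness of the vertical valuation rings), `mltj4_SS_iff` (helper5) and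
`mltl2h_rho1_A` (helper7).
-/
import Mathlib
import Fermat.Agent.Lib.MLT.L2.Two.SatAbs
import Fermat.Agent.Lib.MLT.L2.P4.Ident
import Fermat.Agent.Lib.MLT.L2.HkCompat
import Fermat.Agent.Lib.Delta.Hecke.Bar
import Fermat.Agent.Lib.Mazur.Red.R5.Inst

set_option autoImplicit false
set_option linter.unusedSectionVars false
set_option linter.unusedVariables false
set_option linter.style.haveILetI false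
set_option synthInstance.maxHeartbeats 400000

open HahnSeries ModularCurve AlgebraicCurve Fermat.Agent.T1 Fermat.Agent.T2 IntermediateField
  Fermat.Agent.Curve Fermat.Agent.Curve.PlaceAux Fermat.Agent.TW Fermat.Agent.S05Lib Fermat.Agent.T4
  Fermat.Agent.Delta Fermat.Agent.Mazur

noncomputable section

namespace Fermat.Agent.MLT

local notation "Qb" => AlgebraicClosure ℚ

attribute [local instance] t2i_dvr t2i_isAlgClosed t2i_charP t2i_fact t2iAlgebra t2i_isScalarTower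
attribute [local instance 5000] dlhAlgK

variable (𝔓 : FFPlace) (K₀ e : ℕ) [NeZero K₀] [NeZero e] (hK₀ : ¬ 𝔓.p ∣ K₀) (hK : ¬ 𝔓.p ∣ K₀ * e)
  {ζ : Qb} (hζ : IsPrimitiveRoot ζ 𝔓.p) (h49 : 4 ∣ K₀ * e ∨ 9 ∣ K₀ * e)

/-- **saturation of the supersingular places** under `ᾱ : F̄_{K₀} → F̄_{K₀ e}` -/
def MltjSatAt : Prop :=
  ∀ P ∈ mltjSS 𝔓 (K₀ * e) hK h49,
    ∀ P' : Place (IsLocalRing.ResidueField ↥𝔓.P) ↥(tbBarF 𝔓 (K₀ * e)),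
      P'.restrictAlong (dlhAlphaC (IsLocalRing.ResidueField ↥𝔓.P) K₀ e)
          (mzr5i_alphaC_integral 𝔓 K₀ e) =
        P.restrictAlong (dlhAlphaC (IsLocalRing.ResidueField ↥𝔓.P) K₀ e)
          (mzr5i_alphaC_integral 𝔓 K₀ e) →
      P' ∈ mltjSS 𝔓 (K₀ * e) hK h49

/-- non-negativity of the order of `φ f` only depends on the restricted place -/
theorem mltj_sat_ord_nonneg {k κ κ' : Type*} [Field k] [Field κ] [Field κ'] [Algebra k κ]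
    [Algebra k κ'] (φ : κ →ₐ[k] κ') (hφ : φ.toRingHom.IsIntegral) (P' : Place k κ') (f : κ) :
    0 ≤ P'.ord (φ f) ↔ 0 ≤ (P'.restrictAlong φ hφ).ord f := by
  rw [Place.ord_restrictAlong φ hφ P']
  have hpos := mzr5_ramificationIndexAlong_pos φ hφ P'
  have hpos' : (0 : ℤ) < (Place.ramificationIndexAlong φ P' : ℤ) := by exact_mod_cast hpos
  constructor
  · intro h
    by_contra hlt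
    have : (P'.restrictAlong φ hφ).ord f ≤ -1 := by omega
    nlinarith
  · intro h
    exact mul_nonneg hpos'.le h

/-- **saturation from the chart geometry of the two levels** -/
theorem mltj_satAt_of_pres {ι : Type*}
    (O₀ : ι → ValuationSubring ↥(tbLevF 𝔓 (K₀ * 𝔓.p * 𝔓.p) (⊤ : Subgroup 𝔓.I)))
    (O : ι → ValuationSubring ↥(tbLevF 𝔓 (K₀ * e * 𝔓.p * 𝔓.p) (⊤ : Subgroup 𝔓.I)))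
    (h : letI := (mltl2hA ↥(tbFix 𝔓 (⊤ : Subgroup 𝔓.I)) K₀ 𝔓.p e).toRingHom.toAlgebra
      T4PresOver (t4vyPFix 𝔓 K₀ hK₀ hζ) (t4vyPFix 𝔓 (K₀ * e) hK hζ))
    (hO₀ : ∀ i, O₀ i ∈ (t4vyPFix 𝔓 K₀ hK₀ hζ).vals)
    (hcompat : ∀ i, ∀ b : ↥(t4vyPFix 𝔓 K₀ hK₀ hζ).B,
      (O₀ i).valuation (b : ↥(tbLevF 𝔓 (K₀ * 𝔓.p * 𝔓.p) (⊤ : Subgroup 𝔓.I))) < 1 →
      (O i).valuation (mltl2hA ↥(tbFix 𝔓 (⊤ : Subgroup 𝔓.I)) K₀ 𝔓.p e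
        (b : ↥(tbLevF 𝔓 (K₀ * 𝔓.p * 𝔓.p) (⊤ : Subgroup 𝔓.I)))) < 1)
    (π : ι → ↥(t4vyPFix 𝔓 K₀ hK₀ hζ).B) (hπ0 : ∀ i, π i ≠ 0)
    (hπ : ∀ i, (O₀ i).valuation
      ((π i : ↥(t4vyPFix 𝔓 K₀ hK₀ hζ).B) : ↥(tbLevF 𝔓 (K₀ * 𝔓.p * 𝔓.p) (⊤ : Subgroup 𝔓.I))) < 1)
    (huniq : ∀ i, ∀ V ∈ (t4vyPFix 𝔓 (K₀ * e) hK hζ).vals,
      V.valuation (mltl2hA ↥(tbFix 𝔓 (⊤ : Subgroup 𝔓.I)) K₀ 𝔓.p e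
        ((π i : ↥(t4vyPFix 𝔓 K₀ hK₀ hζ).B) :
          ↥(tbLevF 𝔓 (K₀ * 𝔓.p * 𝔓.p) (⊤ : Subgroup 𝔓.I)))) < 1 →
      (∀ b : ↥(t4vyPFix 𝔓 K₀ hK₀ hζ).B,
        V.valuation (mltl2hA ↥(tbFix 𝔓 (⊤ : Subgroup 𝔓.I)) K₀ 𝔓.p e
          (b : ↥(tbLevF 𝔓 (K₀ * 𝔓.p * 𝔓.p) (⊤ : Subgroup 𝔓.I)))) < 1 →
        (O₀ i).valuation (b : ↥(tbLevF 𝔓 (K₀ * 𝔓.p * 𝔓.p) (⊤ : Subgroup 𝔓.I))) < 1) →
      V = O i)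
    (htriple : ∀ 𝔫 : Ideal ↥(t4vyPFix 𝔓 (K₀ * e) hK hζ).B,
      MltJ4TriplePt 𝔓 (K₀ * e) hK hζ 𝔫 ↔ Mltj3Triple (t4vyPFix 𝔓 (K₀ * e) hK hζ) O 𝔫) :
    MltjSatAt 𝔓 K₀ e hK h49 := by
  letI := t4cyAlgebra 𝔓 (le_top : t4cyH 𝔓 ζ ≤ ⊤)
  letI : Algebra ↥(tbLevF 𝔓 (K₀ * 𝔓.p * 𝔓.p) (⊤ : Subgroup 𝔓.I))
      ↥(tbLevF 𝔓 (K₀ * e * 𝔓.p * 𝔓.p) (⊤ : Subgroup 𝔓.I)) :=
    (mltl2hA ↥(tbFix 𝔓 (⊤ : Subgroup 𝔓.I)) K₀ 𝔓.p e).toRingHom.toAlgebra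
  haveI := mltj4_fix_gen 𝔓 (K₀ * e)
  intro P hP P' hres
  obtain ⟨𝔫, h𝔫, hp⟩ := (mltj4_SS_iff 𝔓 (K₀ * e) hK hζ h49 P).mp hP
  -- finiteness
  have hfin : 0 ≤ P.ord (taBarJ (IsLocalRing.ResidueField ↥𝔓.P) (K₀ * e)) := hp.finite
  have hJ : dlhAlphaC (IsLocalRing.ResidueField ↥𝔓.P) K₀ e
      (taBarJ (IsLocalRing.ResidueField ↥𝔓.P) K₀) =
      taBarJ (IsLocalRing.ResidueField ↥𝔓.P) (K₀ * e) := dlh_alpha_barJ 𝔓 K₀ e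
  have hfin' : 0 ≤ P'.ord (taBarJ (IsLocalRing.ResidueField ↥𝔓.P) (K₀ * e)) := by
    rw [← hJ, mltj_sat_ord_nonneg _ (mzr5i_alphaC_integral 𝔓 K₀ e), hres,
      ← mltj_sat_ord_nonneg _ (mzr5i_alphaC_integral 𝔓 K₀ e), hJ]
    exact hfin
  -- the reduction
  set R := mltj4Red1 (t2iALFix 𝔓 ⊤ (K₀ * e) hK) (t4iALFix 𝔓 ⊤ (K₀ * e) hK)
    (t4cy_irreducible_p 𝔓) (tbFixO 𝔓 (t4cyH 𝔓 ζ)) (tbFixRes 𝔓 (t4cyH 𝔓 ζ)) (t4iCycFix 𝔓 hζ)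
    (t4vMidFix 𝔓 (K₀ * e) hK hζ) (mltj4_fix_good 𝔓 (K₀ * e) hK h49) (t4vyPFix 𝔓 (K₀ * e) hK hζ)
    (mltj4_fix_hB 𝔓 (K₀ * e) hK hζ) (mltj4_fix_hz 𝔓 (K₀ * e) hK h49) with hR
  have h𝔫eq : 𝔫 = R.pointAt P hfin :=
    mltj4_pointOf_unique 𝔓 (K₀ * e) hK hζ h49 hp (R.placeAt_pointAt P hfin)
  have htr : Mltj3Triple (t4vyPFix 𝔓 (K₀ * e) hK hζ) O (R.pointAt P hfin) := by
    rw [← h𝔫eq]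
    exact (htriple 𝔫).mp h𝔫
  -- the reduction of the lower level
  have hmem₀ : ∀ b₀ : ↥(t4vyPFix 𝔓 K₀ hK₀ hζ).B,
      (b₀ : ↥(tbLevF 𝔓 (K₀ * 𝔓.p * 𝔓.p) (⊤ : Subgroup 𝔓.I))) ∈
        (t4vInput (tbFixO 𝔓 ⊤) (tbFixRes 𝔓 ⊤) (tbFixRes_surjective 𝔓 ⊤)
          (t2i_natCast_ne_zero 𝔓 hK₀) (t2iALFix 𝔓 ⊤ K₀ hK₀) (t2iFrobFix 𝔓 K₀) (t4iALFix 𝔓 ⊤ K₀ hK₀)
          (t4cy_irreducible_p 𝔓) (tbFixO 𝔓 (t4cyH 𝔓 ζ)) (tbFixRes 𝔓 (t4cyH 𝔓 ζ))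
          (t4iCycFix 𝔓 hζ) (t4vMidFix 𝔓 K₀ hK₀ hζ)).Ov :=
    fun b₀ => ((mltj4_fix_hB 𝔓 K₀ hK₀ hζ _).mp b₀.2).2
  have key := mltl2h_rho1_A (tbFixO 𝔓 ⊤) (tbFixRes 𝔓 ⊤) (tbFixRes_surjective 𝔓 ⊤)
    (t2i_natCast_ne_zero 𝔓 hK₀) (t2i_natCast_ne_zero 𝔓 hK) (t2iALFix 𝔓 ⊤ K₀ hK₀)
    (t2iFrobFix 𝔓 K₀) (t4iALFix 𝔓 ⊤ K₀ hK₀) (t2iALFix 𝔓 ⊤ (K₀ * e) hK) (t2iFrobFix 𝔓 (K₀ * e))
    (t4iALFix 𝔓 ⊤ (K₀ * e) hK) (t4cy_irreducible_p 𝔓) (tbFixO 𝔓 (t4cyH 𝔓 ζ))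
    (tbFixRes 𝔓 (t4cyH 𝔓 ζ)) (t4iCycFix 𝔓 hζ) (t4vMidFix 𝔓 K₀ hK₀ hζ)
    (t4vMidFix 𝔓 (K₀ * e) hK hζ)
  have htr' := mltj_sat_abs (P₀ := t4vyPFix 𝔓 K₀ hK₀ hζ) (P := t4vyPFix 𝔓 (K₀ * e) hK hζ)
    (O₀ := O₀) (O := O) h hO₀ hcompat π hπ0 hπ huniq R
    (dlhAlphaC (IsLocalRing.ResidueField ↥𝔓.P) K₀ e) (mzr5i_alphaC_integral 𝔓 K₀ e)
    (fun b₀ => t4niRho1 (tbFixO 𝔓 ⊤) (tbFixRes 𝔓 ⊤) (tbFixRes_surjective 𝔓 ⊤)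
      (t2i_natCast_ne_zero 𝔓 hK₀) (t2iALFix 𝔓 ⊤ K₀ hK₀) (t2iFrobFix 𝔓 K₀) (t4iALFix 𝔓 ⊤ K₀ hK₀)
      (t4cy_irreducible_p 𝔓) (tbFixO 𝔓 (t4cyH 𝔓 ζ)) (tbFixRes 𝔓 (t4cyH 𝔓 ζ))
      (t4iCycFix 𝔓 hζ) (t4vMidFix 𝔓 K₀ hK₀ hζ) ⟨_, hmem₀ b₀⟩)
    (fun b₀ => key ⟨_, hmem₀ b₀⟩) P P' hfin hfin' hres htr
  exact (mltj4_SS_iff 𝔓 (K₀ * e) hK hζ h49 P').mpr
    ⟨R.pointAt P' hfin', (htriple _).mpr htr', R.placeAt_pointAt P' hfin'⟩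

end Fermat.Agent.MLT
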