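/-
MLT (project S59) / [L2-JL], case (γ) (lead): **saturation of the supersingular places under `ᾱ`, unconditional**
(`mltj_satAt_of_pres` fed with helper6's Fix-level chart geometry of the two levels, `L2/Two/PresOverA.lean`).
-/
import Mathlib
import Fermat.Agent.Lib.MLT.L2.Two.Sat
import Fermat.Agent.Lib.MLT.L2.Two.PresOverA

set_option autoImplicit false
set_option linter.unusedSectionVars false
set_option linter.unusedVariables false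
set_option linter.style.haveILetI false
set_option synthInstance.maxHeartbeats 400000

open Fermat.Agent.T4 Fermat.Agent.TW

noncomputable section

namespace Fermat.Agent.MLT

local notation "Qb" => AlgebraicClosure ℚ

/-- **saturation of the supersingular places** under `ᾱ : F̄_{K₀} → F̄_{K₀ e}` (no rigidity of `K₀`) -/
theorem mltj_satAt (𝔓 : FFPlace) (K₀ e : ℕ) [NeZero K₀] [NeZero e] (hK₀ : ¬ 𝔓.p ∣ K₀)
    (hK : ¬ 𝔓.p ∣ K₀ * e) {ζ : Qb} (hζ : IsPrimitiveRoot ζ 𝔓.p)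
    (h49 : 4 ∣ K₀ * e ∨ 9 ∣ K₀ * e) : MltjSatAt 𝔓 K₀ e hK h49 :=
  mltj_satAt_of_pres 𝔓 K₀ e hK₀ hK hζ h49 (mltcO3 𝔓 K₀ hK₀ hζ) (mltcO3 𝔓 (K₀ * e) hK hζ)
    (mltc_presOver_A 𝔓 K₀ e hK₀ hK hζ) (mltc_O3_mem_vals 𝔓 K₀ hK₀ hζ)
    (fun i b hb => mltc_O3_compat 𝔓 K₀ e hK₀ hK hζ i _ hb)
    (mltcQ3 𝔓 K₀ hK₀ hζ) (mltc_Q3_ne_zero 𝔓 K₀ hK₀ hζ) (mltc_Q3_val 𝔓 K₀ hK₀ hζ)
    (mltc_O3_huniq 𝔓 K₀ e hK₀ hK hζ) (mltc_triple_iff 𝔓 (K₀ * e) hK hζ)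

end Fermat.Agent.MLT
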