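/-
MLT (project S59) / [L2-JL], case (γ), (δ2) of h9-m1638 (lead): **scaling of the coefficients of a
characteristic polynomial**: `coeff_{d-k} χ(t • f) = t^k · coeff_{d-k} χ(f)`.
-/
import Mathlib

set_option autoImplicit false

namespace Fermat.Agent.MLT

open Polynomial Matrix

/-- `charpolyRev (t • M) = (charpolyRev M).comp (C t * X)` -/
theorem mltj_charpolyRev_smul {R : Type*} [CommRing R] {n : Type*} [Fintype n] [DecidableEq n]
    (t : R) (M : Matrix n n R) :
    (t • M).charpolyRev = (M.charpolyRev).comp (C t * X) := by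
  unfold Matrix.charpolyRev
  rw [← Polynomial.coe_compRingHom_apply, RingHom.map_det]
  congr 1
  ext i j : 1
  simp only [RingHom.mapMatrix_apply, Matrix.map_apply, Matrix.sub_apply, Matrix.smul_apply,
    Polynomial.coe_compRingHom_apply, smul_eq_mul, Polynomial.sub_comp, Polynomial.mul_comp,
    Polynomial.X_comp, Polynomial.C_comp, map_mul]
  by_cases hij : i = j
  · subst hij
    simp only [Matrix.one_apply_eq, Polynomial.one_comp]
    ring
  · simp only [Matrix.one_apply_ne hij, Polynomial.zero_comp]
    ring

/-- matrix form of **(δ2)** -/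
theorem mltj_matrix_charpoly_coeff_smul {R : Type*} [CommRing R] {n : Type*} [Fintype n]
    [DecidableEq n] (t : R) (M : Matrix n n R) (k : ℕ) (hk : k ≤ Fintype.card n) :
    (t • M).charpoly.coeff (Fintype.card n - k) = t ^ k * M.charpoly.coeff (Fintype.card n - k) := by
  nontriviality R
  have h1 : ∀ N : Matrix n n R, N.charpoly.coeff (Fintype.card n - k) = N.charpolyRev.coeff k := by
    intro N
    rw [← Matrix.reverse_charpoly, Polynomial.coeff_reverse, Matrix.charpoly_natDegree_eq_dim,
      Polynomial.revAt_le hk]
  rw [h1, h1, mltj_charpolyRev_smul, Polynomial.comp_C_mul_X_coeff, mul_comm]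

/-- **(δ2)** for endomorphisms of a finite free module -/
theorem mltj_charpoly_coeff_smul {R M : Type*} [CommRing R] [AddCommGroup M] [Module R M]
    [Module.Free R M] [Module.Finite R M] (t : R) (f : Module.End R M) (k : ℕ)
    (hk : k ≤ Module.finrank R M) :
    (t • f).charpoly.coeff (Module.finrank R M - k) =
      t ^ k * f.charpoly.coeff (Module.finrank R M - k) := by
  classical
  nontriviality R
  let b := Module.Free.chooseBasis R M
  have hcard : Module.finrank R M = Fintype.card (Module.Free.ChooseBasisIndex R M) :=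
    Module.finrank_eq_card_chooseBasisIndex R M
  rw [← LinearMap.charpoly_toMatrix (t • f) b, ← LinearMap.charpoly_toMatrix f b, hcard,
    map_smul]
  exact mltj_matrix_charpoly_coeff_smul t _ k (hcard ▸ hk)

/-- **(δ2)**, the literal for multiplication maps of a finite field extension -/
theorem mltj_charpoly_mulLeft_scale {E₀ E : Type*} [Field E₀] [Field E] [Algebra E₀ E]
    [FiniteDimensional E₀ E] (t : E₀) (h : E) (k : ℕ) (hk : k ≤ Module.finrank E₀ E) :
    (LinearMap.mulLeft E₀ (algebraMap E₀ E t * h)).charpoly.coeff (Module.finrank E₀ E - k) =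
      t ^ k * (LinearMap.mulLeft E₀ h).charpoly.coeff (Module.finrank E₀ E - k) := by
  have e : LinearMap.mulLeft E₀ (algebraMap E₀ E t * h) = t • LinearMap.mulLeft E₀ h := by
    ext x
    rw [LinearMap.smul_apply, LinearMap.mulLeft_apply, LinearMap.mulLeft_apply, Algebra.smul_def,
      mul_assoc]
  rw [e]
  exact mltj_charpoly_coeff_smul t _ k hk

end Fermat.Agent.MLT
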