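/-
MLT (project S59) / [L2-JL], case (γ), ingredient (a) of helper9's (STRIP₀) (lead): **the valuation of the
coefficients of a characteristic polynomial**.

`V₀` a valuation subring of `F₀`, `F / F₀` finite, `b ∈ F`, `y₀ ∈ F₀`, `b ^ m * y₀` integral over `V₀`.  Then
`e_k(b) ^ m * y₀ ^ k ∈ V₀` for the coefficients `e_k(b)` of the characteristic polynomial of `b` over `F₀`.

* `mltj_val_coeff`     : the statement for a monic polynomial all of whose roots `β` (in an algebraically closed
                         field) have `β ^ m * y₀` integral over `V₀`;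
* `mltj_root_charpoly` : the roots of the characteristic polynomial of `b` are conjugates of `b`;
* `mltj_val_charpoly`  : the statement for the characteristic polynomial of the multiplication by `b`.
-/
import Mathlib

set_option autoImplicit false
set_option linter.unusedSectionVars false
set_option linter.unusedVariables false
set_option linter.style.haveILetI false

namespace Fermat.Agent.MLT

open Polynomial

noncomputable section

/-- scaling the elements of a multiset scales the elementary symmetric functions -/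
theorem mltj_esymm_map_mul {R : Type*} [CommSemiring R] (s : Multiset R) (t : R) (k : ℕ) :
    (s.map (fun x => x * t)).esymm k = t ^ k * s.esymm k := by
  rw [Multiset.esymm, Multiset.esymm, Multiset.powersetCard_map, Multiset.map_map,
    ← Multiset.sum_map_mul_left]
  refine congrArg Multiset.sum (Multiset.map_congr rfl (fun u hu => ?_))
  rw [Function.comp_apply, Multiset.prod_map_mul, Multiset.map_id', Multiset.map_const',
    Multiset.prod_replicate, (Multiset.mem_powersetCard.1 hu).2, mul_comm]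

/-- **the valuation of the coefficients of a monic polynomial with "small" roots** -/
theorem mltj_val_coeff {F₀ : Type*} [Field F₀] (V₀ : ValuationSubring F₀)
    (Ω : Type*) [Field Ω] [Algebra F₀ Ω] [IsAlgClosed Ω] [Algebra ↥V₀ Ω] [IsScalarTower ↥V₀ F₀ Ω]
    (P : F₀[X]) (hP : P.Monic) (y₀ : F₀) (m : ℕ) (hm : 0 < m)
    (hroots : ∀ β : Ω, (P.map (algebraMap F₀ Ω)).IsRoot β →
      IsIntegral ↥V₀ (β ^ m * algebraMap F₀ Ω y₀))
    (k : ℕ) (hk : k ≤ P.natDegree) :
    (P.coeff (P.natDegree - k)) ^ m * y₀ ^ k ∈ V₀ := by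
  classical
  obtain ⟨t, ht⟩ := IsAlgClosed.exists_pow_nat_eq (algebraMap F₀ Ω y₀) hm
  have hP' : (P.map (algebraMap F₀ Ω)).Monic := hP.map _
  have hsplit : (P.map (algebraMap F₀ Ω)).Splits := IsAlgClosed.splits _
  have hdeg : (P.map (algebraMap F₀ Ω)).natDegree = P.natDegree := hP.natDegree_map _
  -- Vieta
  have hco := Polynomial.coeff_eq_esymm_roots_of_splits hsplit
    (k := P.natDegree - k) (by rw [hdeg]; exact Nat.sub_le _ _)
  rw [hP'.leadingCoeff, one_mul, hdeg, Nat.sub_sub_self hk, Polynomial.coeff_map] at hco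
  -- the scaled roots are integral
  have hint : ∀ x ∈ (P.map (algebraMap F₀ Ω)).roots.map (fun x => x * t), IsIntegral ↥V₀ x := by
    intro x hx
    obtain ⟨β, hβ, rfl⟩ := Multiset.mem_map.1 hx
    refine IsIntegral.of_pow hm ?_
    rw [mul_pow, ht]
    exact hroots β (Polynomial.isRoot_of_mem_roots hβ)
  have hes : IsIntegral ↥V₀ (((P.map (algebraMap F₀ Ω)).roots.map (fun x => x * t)).esymm k) := by
    rw [Multiset.esymm]
    refine IsIntegral.multiset_sum (fun x hx => ?_)
    obtain ⟨u, hu, rfl⟩ := Multiset.mem_map.1 hx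
    exact IsIntegral.multiset_prod (fun z hz => hint z (Multiset.mem_of_le
      (Multiset.mem_powersetCard.1 hu).1 hz))
  rw [mltj_esymm_map_mul] at hes
  -- the `m`-th power
  have h1 : IsIntegral ↥V₀ (algebraMap F₀ Ω ((P.coeff (P.natDegree - k)) ^ m * y₀ ^ k)) := by
    have h2 := (hes.pow m)
    have h3 : (t ^ k * (P.map (algebraMap F₀ Ω)).roots.esymm k) ^ m
        = (-1) ^ (k * m) * algebraMap F₀ Ω ((P.coeff (P.natDegree - k)) ^ m * y₀ ^ k) := by
      have hs : ((-1 : Ω) ^ (k * m)) * (-1) ^ (k * m) = 1 := by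
        rw [← mul_pow, neg_one_mul, neg_neg, one_pow]
      rw [map_mul, map_pow, map_pow, hco, ← ht]
      have e1 : ((-1 : Ω) ^ k * (P.map (algebraMap F₀ Ω)).roots.esymm k) ^ m
          = (-1) ^ (k * m) * (P.map (algebraMap F₀ Ω)).roots.esymm k ^ m := by
        rw [mul_pow, ← pow_mul]
      rw [e1]
      generalize ((-1 : Ω) ^ (k * m)) = s at hs ⊢
      generalize (P.map (algebraMap F₀ Ω)).roots.esymm k = E
      linear_combination (-(E ^ m * t ^ (k * m))) * hs
    rw [h3] at h2
    have h4 : IsIntegral ↥V₀ ((-1 : Ω) ^ (k * m)) := (isIntegral_one.neg).pow _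
    have h5 := h4.mul h2
    rwa [← mul_assoc, ← mul_pow, neg_one_mul, neg_neg, one_pow, one_mul] at h5
  have h6 : IsIntegral ↥V₀ ((P.coeff (P.natDegree - k)) ^ m * y₀ ^ k) :=
    (isIntegral_algebraMap_iff (algebraMap F₀ Ω).injective).1 h1
  obtain ⟨z, hz⟩ := (IsIntegrallyClosed.isIntegral_iff (R := ↥V₀) (K := F₀)).1 h6
  rw [← hz]
  exact z.2


/-- **the roots of the characteristic polynomial of `b` are conjugates of `b`** -/
theorem mltj_root_charpoly {F₀ F : Type*} [Field F₀] [Field F] [Algebra F₀ F] [FiniteDimensional F₀ F]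
    (Ω : Type*) [Field Ω] [Algebra F₀ Ω] [IsAlgClosed Ω] (b : F) (β : Ω)
    (hβ : ((LinearMap.mulLeft F₀ b).charpoly.map (algebraMap F₀ Ω)).IsRoot β) :
    ∃ σ : F →ₐ[F₀] Ω, σ b = β := by
  classical
  -- `β` is an eigenvalue of the base change
  rw [← LinearMap.charpoly_baseChange, ← Module.End.hasEigenvalue_iff_isRoot_charpoly] at hβ
  obtain ⟨v, hv⟩ := hβ.exists_hasEigenvector
  -- the minimal polynomial of `b` kills the base change
  have hmin : aeval (LinearMap.baseChange Ω (LinearMap.mulLeft F₀ b))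
      ((minpoly F₀ b).map (algebraMap F₀ Ω)) = 0 := by
    have h1 : LinearMap.baseChange Ω (LinearMap.mulLeft F₀ b)
        = Module.End.baseChangeHom F₀ Ω F (LinearMap.mulLeft F₀ b) := rfl
    rw [h1, aeval_map_algebraMap, aeval_algHom_apply]
    have h2 : aeval (LinearMap.mulLeft F₀ b) (minpoly F₀ b) = 0 := by
      have h3 : LinearMap.mulLeft F₀ b = Algebra.lmul F₀ F b := rfl
      rw [h3, aeval_algHom_apply, minpoly.aeval, map_zero]
    rw [h2, map_zero]
  have h4 := Module.End.aeval_apply_of_hasEigenvector (p := (minpoly F₀ b).map (algebraMap F₀ Ω)) hv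
  rw [hmin, LinearMap.zero_apply] at h4
  have h5 : ((minpoly F₀ b).map (algebraMap F₀ Ω)).eval β = 0 :=
    (smul_eq_zero.1 h4.symm).resolve_right hv.2
  refine IntermediateField.exists_algHom_of_splits_of_aeval (F := F₀) (E := F) (K := Ω)
    (fun s => ⟨Algebra.IsIntegral.isIntegral s, IsAlgClosed.splits _⟩) ?_
  rwa [eval_map, ← aeval_def] at h5

/-- **the valuation of the coefficients of the characteristic polynomial**: if `b ^ m * y₀` is integral over
the valuation ring `V₀` of `F₀`, then `e_k(b) ^ m * y₀ ^ k ∈ V₀`, `e_k(b)` = the coefficient of `X ^ (d - k)` of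
the characteristic polynomial of `b` over `F₀`, `d = [F : F₀]` -/
theorem mltj_val_charpoly {F₀ F : Type*} [Field F₀] [Field F] [Algebra F₀ F] [FiniteDimensional F₀ F]
    (V₀ : ValuationSubring F₀) [Algebra ↥V₀ F] [IsScalarTower ↥V₀ F₀ F]
    (b : F) (y₀ : F₀) (m : ℕ) (hm : 0 < m)
    (hint : IsIntegral ↥V₀ (b ^ m * algebraMap F₀ F y₀))
    (k : ℕ) (hk : k ≤ Module.finrank F₀ F) :
    ((LinearMap.mulLeft F₀ b).charpoly.coeff (Module.finrank F₀ F - k)) ^ m * y₀ ^ k ∈ V₀ := by
  have hdeg : (LinearMap.mulLeft F₀ b).charpoly.natDegree = Module.finrank F₀ F :=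
    LinearMap.charpoly_natDegree _
  have key := mltj_val_coeff V₀ (AlgebraicClosure F₀) (LinearMap.mulLeft F₀ b).charpoly
    (LinearMap.charpoly_monic _) y₀ m hm ?_ k (by rw [hdeg]; exact hk)
  · rwa [hdeg] at key
  · intro β hβ
    obtain ⟨σ, rfl⟩ := mltj_root_charpoly (AlgebraicClosure F₀) b β hβ
    have h1 := hint.map (σ.restrictScalars ↥V₀)
    rwa [AlgHom.coe_restrictScalars', map_mul, map_pow, AlgHom.commutes] at h1

end

end Fermat.Agent.MLT
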