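/-
MLT / [L2-JL], case (γ), piece (S₀-β) of helper9's (STRIP₀) (helper8): **the coefficients of the characteristic
polynomial at the horizontal valuation rings through the triple points**.

Two levels `K₀` and `K = K₀ e` (`q = 𝔓.p ∤ K`), `L = tbFix 𝔓 ⊤`, `F₀ = tbLevF 𝔓 (K₀ q q) ⊤`,
`F = tbLevF 𝔓 (K₀ e q q) ⊤`, `A = mltl2hA L K₀ q e : F₀ → F`, chart 1 = `t4vyPFix 𝔓 K hK hζ`.

If `A y₀ * b ^ p` is a unit at all valuation rings through all triple points of the level `K`, then for every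
valuation ring `V'` through a triple point which is none of the three vertical rings, and every `k ≤ d = [F : A F₀]`,
`A (c ^ p * y₀ ^ k) ∈ V'`, where `c` is the coefficient of `X ^ (d - k)` of the characteristic polynomial of `b` over
`A F₀`.

Inputs: lead's `mltj_val_charpoly` (Two/ValCharpoly) and `mltj_LIC` (Two/LIC: the integral closure of a maximal
valuation ring is the intersection of the valuation rings over it), and (d') `MltjExtThroughAt` (Contracts/L2Two:
every extension of the restriction of a horizontal ring through a triple point passes through a triple point) as a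
hypothesis.

* `mltsb_comap_max`       : the restriction of a discrete valuation ring is maximal among the valuation subrings;
* `mltsb_strip_beta_gen`  : (S₀-β), abstract form;
* `mltsb_charValAt`       : `MltjExtThroughAt 𝔓 K₀ e hK hζ → MltjCharValAt 𝔓 K₀ e hK₀ hK hζ p`.
-/
import Fermat.Agent.Lib.MLT.Contracts.L2Two
import Fermat.Agent.Lib.MLT.L2.Two.ValCharpoly
import Fermat.Agent.Lib.MLT.L2.Two.LIC
import Fermat.Agent.Lib.Delta.Node.Ord

set_option autoImplicit false
set_option linter.unusedSectionVars false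
set_option linter.unusedVariables false
set_option linter.style.haveILetI false
set_option synthInstance.maxHeartbeats 400000

namespace Fermat.Agent.MLT

open ModularCurve HahnSeries Fermat.Agent.T1 Fermat.Agent.T2 Fermat.Agent.T4 Fermat.Agent.TW
  Fermat.Agent.Delta Fermat.Agent.T3 Fermat.Agent.Alpha AlgebraicCurve Fermat.Agent.Curve

local notation "Qb" => AlgebraicClosure ℚ

noncomputable section

/-- **the restriction of a discrete valuation ring is maximal** among the valuation subrings -/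
theorem mltsb_comap_max {F₀ F : Type*} [Field F₀] [Field F] (ι : F₀ →+* F) (V : ValuationSubring F)
    [IsDiscreteValuationRing V] (W : ValuationSubring F₀) (hW : V.comap ι ≤ W) :
    W = V.comap ι ∨ W = ⊤ := by
  by_cases h : W ≤ V.comap ι
  · exact Or.inl (le_antisymm h hW)
  · right
    obtain ⟨x, hxW, hxV⟩ := SetLike.not_le_iff_exists.1 h
    have hx0 : x ≠ 0 := fun h0 => hxV (h0 ▸ (V.comap ι).zero_mem)
    have hιx0 : ι x ≠ 0 := (map_ne_zero ι).2 hx0
    have hord : dlOrd V (ι x) < 0 := by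
      by_contra hc
      push Not at hc
      exact hxV (ValuationSubring.mem_comap.2 (dl_mem_of_ord_nonneg V hc))
    rw [eq_top_iff]
    intro z _
    rcases eq_or_ne z 0 with rfl | hz
    · exact W.zero_mem
    have hιz0 : ι z ≠ 0 := (map_ne_zero ι).2 hz
    set n : ℕ := (dlOrd V (ι z)).natAbs with hn
    have h1 : z * x⁻¹ ^ n ∈ V.comap ι := by
      rw [ValuationSubring.mem_comap, map_mul, map_pow, map_inv₀]
      refine dl_mem_of_ord_nonneg V ?_
      rw [dlOrd_mul V hιz0 (pow_ne_zero _ (inv_ne_zero hιx0)), dlOrd_pow, dlOrd_inv]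
      have h2 : -(dlOrd V (ι z)) ≤ (n : ℤ) := by rw [hn]; omega
      nlinarith
    have h3 : z = z * x⁻¹ ^ n * x ^ n := by
      rw [mul_assoc, ← mul_pow, inv_mul_cancel₀ hx0, one_pow, mul_one]
    rw [h3]
    exact W.mul_mem _ _ (hW h1) (pow_mem hxW n)

/-- **(S₀-β), abstract form**: `V'` a discrete valuation ring of `F`, `F / F₀` finite; if `y₀ b ^ p` lies in every
valuation ring of `F` with the same restriction to `F₀` as `V'`, then `c ^ p y₀ ^ k ∈ V'`, `c` the coefficient of
`X ^ (d - k)` of the characteristic polynomial of `b` over `F₀` -/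
theorem mltsb_strip_beta_gen {F₀ F : Type*} [Field F₀] [Field F] [Algebra F₀ F]
    [FiniteDimensional F₀ F] (V' : ValuationSubring F) [IsDiscreteValuationRing V']
    (p : ℕ) (hp : 0 < p) (y₀ : F₀) (b : F)
    (hext : ∀ V'' : ValuationSubring F,
      V''.comap (algebraMap F₀ F) = V'.comap (algebraMap F₀ F) → algebraMap F₀ F y₀ * b ^ p ∈ V'')
    (k : ℕ) (hk : k ≤ Module.finrank F₀ F) :
    algebraMap F₀ F ((LinearMap.mulLeft F₀ b).charpoly.coeff (Module.finrank F₀ F - k) ^ p * y₀ ^ k)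
      ∈ V' := by
  letI : Algebra ↥(V'.comap (algebraMap F₀ F)) F :=
    ((algebraMap F₀ F).comp (V'.comap (algebraMap F₀ F)).subtype).toAlgebra
  haveI : IsScalarTower ↥(V'.comap (algebraMap F₀ F)) F₀ F :=
    IsScalarTower.of_algebraMap_eq (fun _ => rfl)
  haveI : Algebra.IsAlgebraic F₀ F := Algebra.IsAlgebraic.of_finite _ _
  have hint : IsIntegral ↥(V'.comap (algebraMap F₀ F)) (b ^ p * algebraMap F₀ F y₀) := by
    refine mltj_LIC (V'.comap (algebraMap F₀ F)) (fun W hW => mltsb_comap_max _ V' W hW) _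
      (fun V hV => ?_)
    rw [mul_comm]
    exact hext V hV
  exact mltj_val_charpoly (V'.comap (algebraMap F₀ F)) b y₀ p hp hint k hk

section Fix

variable (𝔓 : FFPlace) (K₀ e : ℕ) [NeZero K₀] [NeZero e] (hK₀ : ¬ 𝔓.p ∣ K₀) (hK : ¬ 𝔓.p ∣ K₀ * e)
  {ζ : Qb} (hζ : IsPrimitiveRoot ζ 𝔓.p) (p : ℕ)

/-- **(S₀-β)** at helper9's literal: (d') implies the integrality of `A (c ^ p * y₀ ^ k)` at the horizontal
valuation rings through the triple points -/
theorem mltsb_charValAt (hd' : MltjExtThroughAt 𝔓 K₀ e hK hζ) :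
    MltjCharValAt 𝔓 K₀ e hK₀ hK hζ p := by
  intro hfinA y₀ b hu k hk 𝔫' h𝔫' V' hV' h1 h2 h3
  letI := (mltl2hA ↥(tbFix 𝔓 (⊤ : Subgroup 𝔓.I)) K₀ 𝔓.p e).toRingHom.toAlgebra
  haveI := hfinA
  haveI : IsDiscreteValuationRing ↥V' := (t4vyPFix 𝔓 (K₀ * e) hK hζ).dvr V' hV'.1
  rcases Nat.eq_zero_or_pos p with hp | hp
  · -- `p = 0`: `A y₀` is a unit at `V'`
    subst hp
    have h4 := hu 𝔫' h𝔫' V' hV'
    have h5 : mltl2hA ↥(tbFix 𝔓 (⊤ : Subgroup 𝔓.I)) K₀ 𝔓.p e
        (((y₀ : (↥(tbLevF 𝔓 (K₀ * 𝔓.p * 𝔓.p) ⊤))ˣ)) : ↥(tbLevF 𝔓 (K₀ * 𝔓.p * 𝔓.p) ⊤)) ∈ V' := by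
      refine (V'.valuation_le_one_iff _).1 (le_of_eq ?_)
      rw [← h4]
      simp only [pow_zero, mul_one]
      rfl
    rw [pow_zero, one_mul, map_pow]
    exact pow_mem h5 k
  · refine mltsb_strip_beta_gen V' p hp _ _ (fun V'' hV'' => ?_) k hk
    have H := hd' 𝔫' h𝔫' V' hV' h1 h2 h3 V'' hV''
    obtain ⟨𝔫'', h𝔫'', hV3⟩ := H
    have h4 := hu 𝔫'' h𝔫'' V'' hV3
    exact (V''.valuation_le_one_iff _).1 (le_of_eq h4)

end Fix

end

end Fermat.Agent.MLT
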