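/-
MLT / [L2-JL], case (γ) (helper3): **the abstract algebra of the two-level strip (S₀)** (h9-m1638).

All the objects of the inertia level are replaced by variables:
`A : F₀ →ₐ[L] F` (the inclusion of the levels), `φ : E₀ →ₐ[𝕜] E` (its reduction `ᾱ`), `U₀ ≤ F₀ˣ`, `U ≤ Fˣ`
(the units at the three vertical valuations), `AU : U₀ →* U`, the residue maps `r⁰_i : U₀ →* E₀ˣ`, `r_i : U →* Eˣ`,
`P : T4Pres F` with a predicate `T` on the ideals of `P.B` (the triple points), the three vertical valuation rings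
`O₁ O₂ O₃`, and `Σ : Set (Place 𝕜 E)` (the supersingular places).  The contracts (STRIP), (S₀-γ), (S₀-β), (S₀-α),
(CRT), continuity and saturation are hypotheses in exactly the shape of `Contracts/L2Two.lean`.
-/
import Mathlib
import Fermat.Agent.Lib.MLT.L2.Two.SRes
import Fermat.Agent.Lib.MLT.L2.Two.Scale
import Fermat.Agent.Lib.MLT.L2.Two.Choose
import Fermat.Agent.Lib.T4.Local.Defs
import Fermat.Agent.Lib.Mazur.Red.R4Abs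

set_option autoImplicit false
set_option linter.unusedSectionVars false
set_option linter.unusedVariables false
set_option linter.style.haveILetI false

namespace Fermat.Agent.MLT

open AlgebraicCurve Fermat.Agent.Curve Fermat.Agent.Curve.PlaceAux Fermat.Agent.T3 Fermat.Agent.T4
  Fermat.Agent.Delta Fermat.Agent.Mazur Polynomial

/-! ### Values -/

section Val

variable {k κ : Type*} [Field k] [Field κ] [Algebra k κ] [IsAlgClosed k] {P : Place k κ}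

theorem mltjs_dlgVal_pow {f : κ} {c : k} (h : DlgVal P f c) (n : ℕ) : DlgVal P (f ^ n) (c ^ n) := by
  induction n with
  | zero => rw [pow_zero, pow_zero]; exact DlgVal.one P
  | succ n ih => rw [pow_succ, pow_succ]; exact ih.mul h

/-- a function one of whose powers has a non-zero value has a non-zero value -/
theorem mltjs_dlgVal_root {z : κ} (hz : IsFunctionFieldGen k κ z) {g : κ} {n : ℕ} (hn : n ≠ 0)
    {c : k} (hc : c ≠ 0) (h : DlgVal P (g ^ n) c) : ∃ a : k, a ≠ 0 ∧ DlgVal P g a := by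
  have h1 : g ^ n ∈ P.toValuationSubring := h.mem
  have h2 : g ∈ P.toValuationSubring := by
    rw [← ValuationSubring.valuation_le_one_iff] at h1 ⊢
    rw [map_pow] at h1
    exact (pow_le_one_iff hn).mp h1
  obtain ⟨a, ha⟩ := dlg_exists_val hz P h2
  refine ⟨a, ?_, ha⟩
  rintro rfl
  have h3 := (mltjs_dlgVal_pow ha n).unique h
  rw [zero_pow hn] at h3
  exact hc h3.symm

end Val

section Along

variable {K F F' : Type*} [Field K] [Field F] [Field F'] [Algebra K F] [Algebra K F']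

theorem mltjs_dlgVal_along (φ : F →ₐ[K] F') (hφ : φ.toRingHom.IsIntegral) (w : Place K F') {f : F}
    {c : K} (h : DlgVal (w.restrictAlong φ hφ) f c) : DlgVal w (φ f) c :=
  mzr_ordGE_along_sub φ hφ w h

end Along

/-! ### Units at the triple points -/

section UT

variable {F : Type*} [Field F]

/-- `y` is a unit at all the valuation rings through all the ideals `𝔫` with `T 𝔫` -/
def MltjsUT (P : T4Pres F) (T : Ideal ↥P.B → Prop) (y : F) : Prop :=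
  ∀ 𝔫 : Ideal ↥P.B, T 𝔫 → ∀ V ∈ P.through 𝔫, V.valuation y = 1

variable {P : T4Pres F} {T : Ideal ↥P.B → Prop}

theorem MltjsUT.mul {a b : F} (ha : MltjsUT P T a) (hb : MltjsUT P T b) : MltjsUT P T (a * b) := by
  intro 𝔫 h𝔫 V hV
  rw [map_mul, ha 𝔫 h𝔫 V hV, hb 𝔫 h𝔫 V hV, one_mul]

theorem MltjsUT.pow {a : F} (ha : MltjsUT P T a) (n : ℕ) : MltjsUT P T (a ^ n) := by
  intro 𝔫 h𝔫 V hV
  rw [map_pow, ha 𝔫 h𝔫 V hV, one_pow]

end UT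

/-! ### The abstract two-level strip -/

section Main

variable {L F₀ F 𝕜 E₀ E : Type*} [Field L] [Field F₀] [Field F] [Algebra L F₀] [Algebra L F]
  [Field 𝕜] [Field E₀] [Field E] [Algebra 𝕜 E₀] [Algebra 𝕜 E] [IsAlgClosed 𝕜] [CharP 𝕜 2]
  [HasPrincipalDivisors 𝕜 E]

/-- an odd natural number is not zero in characteristic `2` -/
theorem mltjs_odd_cast_ne_zero {n : ℕ} (hn : Odd n) : ((n : ℕ) : 𝕜) ≠ 0 := by
  obtain ⟨m, rfl⟩ := hn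
  have h2 : ((2 : ℕ) : 𝕜) = 0 := CharP.cast_eq_zero 𝕜 2
  rw [Nat.cast_add, Nat.cast_mul, h2, zero_mul, zero_add, Nat.cast_one]
  exact one_ne_zero

/-- **the abstract form of (S₀)** -/
theorem mltjs_stripTwo_abs (A : F₀ →ₐ[L] F) (φ : E₀ →ₐ[𝕜] E)
    {x : E₀} (hx : IsFunctionFieldGen 𝕜 E₀ x) {x' : E} (hx' : IsFunctionFieldGen 𝕜 E x')
    (hφ : φ.toRingHom.IsIntegral)
    (hsep : letI := algebraAlong φ; Algebra.IsSeparable E₀ E)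
    (hfinA : letI := A.toRingHom.toAlgebra; FiniteDimensional F₀ F)
    (hfinα : letI := algebraAlong φ; FiniteDimensional E₀ E)
    (hdeg : (letI := A.toRingHom.toAlgebra; Module.finrank F₀ F) =
      (letI := algebraAlong φ; Module.finrank E₀ E))
    (U₀ : Subgroup F₀ˣ) (U : Subgroup Fˣ) (AU : ↥U₀ →* ↥U)
    (hAU : ∀ y : ↥U₀, (((AU y : ↥U) : Fˣ) : F) = A (((y : ↥U₀) : F₀ˣ) : F₀))
    (ρ₁ ρ₂ ρ₃ : ↥U₀ →* E₀ˣ) (r₁ r₂ r₃ : ↥U →* Eˣ)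
    (hr₁ : ∀ y : ↥U₀, ((r₁ (AU y) : Eˣ) : E) = φ ((ρ₁ y : E₀ˣ) : E₀))
    (hr₂ : ∀ y : ↥U₀, ((r₂ (AU y) : Eˣ) : E) = φ ((ρ₂ y : E₀ˣ) : E₀))
    (hr₃ : ∀ y : ↥U₀, ((r₃ (AU y) : Eˣ) : E) = φ ((ρ₃ y : E₀ˣ) : E₀))
    (P : T4Pres F) (T : Ideal ↥P.B → Prop) (O₁ O₂ O₃ : ValuationSubring F)
    (S : Set (Place 𝕜 E))
    (hsat : ∀ w ∈ S, ∀ w' : Place 𝕜 E, w'.restrictAlong φ hφ = w.restrictAlong φ hφ → w' ∈ S)
    (hSne : (∃ 𝔫, T 𝔫) → S.Nonempty)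
    (p : ℕ) (hp0 : p ≠ 0) (hp2 : Nat.Coprime 2 p)
    -- continuity
    (hcont : ∀ y : ↥U, MltjsUT P T (((y : Fˣ)) : F) → ∀ Pl ∈ S, ∃ c : 𝕜, c ≠ 0 ∧
      DlgVal Pl ((r₁ y : Eˣ) : E) c ∧ DlgVal Pl ((r₂ y : Eˣ) : E) c ∧ DlgVal Pl ((r₃ y : Eˣ) : E) c)
    -- (CRT)
    (hcrt : ∀ xv : Place 𝕜 E → 𝕜ˣ, ∃ u : ↥U, MltjsUT P T (((u : Fˣ)) : F) ∧
      ∀ Pl ∈ S, DlgVal Pl ((r₁ u : Eˣ) : E) ((xv Pl : 𝕜ˣ) : 𝕜))
    -- (S₀-γ)
    (hred : ∀ (b : ↥U) (n : ℕ),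
      (letI := algebraAlong φ; (LinearMap.mulLeft E₀ ((r₁ b : Eˣ) : E)).charpoly.coeff n ≠ 0) →
      (letI := algebraAlong φ; (LinearMap.mulLeft E₀ ((r₂ b : Eˣ) : E)).charpoly.coeff n ≠ 0) →
      (letI := algebraAlong φ; (LinearMap.mulLeft E₀ ((r₃ b : Eˣ) : E)).charpoly.coeff n ≠ 0) →
      ∃ ε : ↥U₀,
        (((ε : F₀ˣ)) : F₀) = (letI := A.toRingHom.toAlgebra;
          (LinearMap.mulLeft F₀ (((b : Fˣ)) : F)).charpoly.coeff n) ∧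
        ((ρ₁ ε : E₀ˣ) : E₀) = (letI := algebraAlong φ;
          (LinearMap.mulLeft E₀ ((r₁ b : Eˣ) : E)).charpoly.coeff n) ∧
        ((ρ₂ ε : E₀ˣ) : E₀) = (letI := algebraAlong φ;
          (LinearMap.mulLeft E₀ ((r₂ b : Eˣ) : E)).charpoly.coeff n) ∧
        ((ρ₃ ε : E₀ˣ) : E₀) = (letI := algebraAlong φ;
          (LinearMap.mulLeft E₀ ((r₃ b : Eˣ) : E)).charpoly.coeff n))
    -- (S₀-β)
    (hval : ∀ (y₀ : ↥U₀) (b : ↥U), MltjsUT P T ((((AU y₀ * b ^ p : ↥U) : Fˣ)) : F) →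
      ∀ k : ℕ, (letI := A.toRingHom.toAlgebra; k ≤ Module.finrank F₀ F) →
      ∀ 𝔫' : Ideal ↥P.B, T 𝔫' → ∀ V' ∈ P.through 𝔫', V' ≠ O₁ → V' ≠ O₂ → V' ≠ O₃ →
        A ((letI := A.toRingHom.toAlgebra;
          (LinearMap.mulLeft F₀ (((b : Fˣ)) : F)).charpoly.coeff (Module.finrank F₀ F - k)) ^ p *
          (((y₀ : F₀ˣ)) : F₀) ^ k) ∈ V')
    -- (S₀-α)
    (hloc : ∀ w : ↥U,
      (∀ 𝔫 : Ideal ↥P.B, T 𝔫 → ∀ V ∈ P.through 𝔫, (((w : Fˣ)) : F) ∈ V) →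
      (∀ Pl ∈ S, ∃ c : 𝕜, c ≠ 0 ∧ DlgVal Pl ((r₁ w : Eˣ) : E) c) →
      MltjsUT P T (((w : Fˣ)) : F))
    -- the units of `D` are units at the three vertical valuation rings
    (hvert : ∀ w : ↥U, O₁.valuation (((w : Fˣ)) : F) = 1 ∧ O₂.valuation (((w : Fˣ)) : F) = 1 ∧
      O₃.valuation (((w : Fˣ)) : F) = 1)
    -- the data
    (y₀ : ↥U₀) (t₁ t₂ t₃ : E₀ˣ) (ht₁ : ρ₁ y₀ = t₁ ^ p) (ht₂ : ρ₂ y₀ = t₂ ^ p) (ht₃ : ρ₃ y₀ = t₃ ^ p)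
    -- (STRIP) at the upper level
    (hstrip : ∃ s : ↥U, MltjsUT P T ((((AU y₀ * s ^ p : ↥U) : Fˣ)) : F)) :
    ∃ (k : ℕ) (ε : ↥U₀), Nat.Coprime k p ∧
      MltjsUT P T ((((AU (y₀ ^ k * ε ^ p) : ↥U) : Fˣ)) : F) := by
  classical
  -- no triple points: nothing to prove
  by_cases hT : ∃ 𝔫, T 𝔫
  swap
  · refine ⟨1, 1, Nat.coprime_one_left p, fun 𝔫 h𝔫 => absurd ⟨𝔫, h𝔫⟩ hT⟩
  obtain ⟨Pl₀, hPl₀⟩ := hSne hT
  obtain ⟨s, hs⟩ := hstrip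
  letI instα : Algebra E₀ E := algebraAlong φ
  letI instA : Algebra F₀ F := A.toRingHom.toAlgebra
  haveI : FiniteDimensional E₀ E := hfinα
  haveI : FiniteDimensional F₀ F := hfinA
  haveI : Algebra.IsSeparable E₀ E := hsep
  -- the degree and the exponent `k`
  set d : ℕ := Module.finrank E₀ E with hd
  have hdA : Module.finrank F₀ F = d := hdeg
  have hdpos : 0 < d := Module.finrank_pos
  set k : ℕ := 2 ^ padicValNat 2 d with hk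
  have hkd : k ≤ d := mltj_two_pow_le d hdpos
  have hkp : Nat.Coprime k p := Nat.Coprime.pow_left _ hp2
  have hchoose : (((d.choose k : ℕ)) : 𝕜) ≠ 0 := mltjs_odd_cast_ne_zero (mltj_choose_two_pow d hdpos)
  -- the roots of the residues of `z = A y₀ · s ^ p`
  set z : ↥U := AU y₀ * s ^ p with hz
  let σ₁ : E := φ ((t₁ : E₀ˣ) : E₀) * ((r₁ s : Eˣ) : E)
  let σ₂ : E := φ ((t₂ : E₀ˣ) : E₀) * ((r₂ s : Eˣ) : E)
  let σ₃ : E := φ ((t₃ : E₀ˣ) : E₀) * ((r₃ s : Eˣ) : E)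
  have hz₁ : ((r₁ z : Eˣ) : E) = σ₁ ^ p := by
    rw [hz, map_mul, map_pow, Units.val_mul, Units.val_pow_eq_pow_val, hr₁, ht₁,
      Units.val_pow_eq_pow_val, map_pow, ← mul_pow]
  have hz₂ : ((r₂ z : Eˣ) : E) = σ₂ ^ p := by
    rw [hz, map_mul, map_pow, Units.val_mul, Units.val_pow_eq_pow_val, hr₂, ht₂,
      Units.val_pow_eq_pow_val, map_pow, ← mul_pow]
  have hz₃ : ((r₃ z : Eˣ) : E) = σ₃ ^ p := by
    rw [hz, map_mul, map_pow, Units.val_mul, Units.val_pow_eq_pow_val, hr₃, ht₃,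
      Units.val_pow_eq_pow_val, map_pow, ← mul_pow]
  -- their values on `S`
  have hσ : ∀ Pl ∈ S, (∃ a : 𝕜, a ≠ 0 ∧ DlgVal Pl σ₁ a) ∧ (∃ a : 𝕜, a ≠ 0 ∧ DlgVal Pl σ₂ a) ∧
      (∃ a : 𝕜, a ≠ 0 ∧ DlgVal Pl σ₃ a) := by
    intro Pl hPl
    obtain ⟨c, hc0, h1, h2, h3⟩ := hcont z hs Pl hPl
    rw [hz₁] at h1
    rw [hz₂] at h2
    rw [hz₃] at h3
    exact ⟨mltjs_dlgVal_root hx' hp0 hc0 h1, mltjs_dlgVal_root hx' hp0 hc0 h2,
      mltjs_dlgVal_root hx' hp0 hc0 h3⟩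
  -- (S₀-res)
  let st : Fin 3 → E := ![σ₁, σ₂, σ₃]
  have hst : ∀ j : Fin 3, ∀ w ∈ S, ∃ a : 𝕜, a ≠ 0 ∧ DlgVal w (st j) a := by
    intro j w hw
    obtain ⟨h1, h2, h3⟩ := hσ w hw
    fin_cases j
    · exact h1
    · exact h2
    · exact h3
  let av : Fin 3 → Place 𝕜 E → 𝕜 := fun j w =>
    if hw : w ∈ S then (hst j w hw).choose else 1
  have hav : ∀ j, ∀ w ∈ S, av j w ≠ 0 ∧ DlgVal w (st j) (av j w) := by
    intro j w hw
    simp only [av, dif_pos hw]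
    exact (hst j w hw).choose_spec
  obtain ⟨xs, hxs0, hxs⟩ := mltj_S0res hx hx' φ hφ hsep S hsat st av hav k hkd hchoose
  -- (CRT)
  let xv : Place 𝕜 E → 𝕜ˣ := fun w => if hw : xs w ≠ 0 then Units.mk0 (xs w) hw else 1
  have hxv : ∀ w ∈ S, ((xv w : 𝕜ˣ) : 𝕜) = xs w := by
    intro w hw
    simp only [xv, dif_pos (hxs0 w hw), Units.val_mk0]
  obtain ⟨u, hu, hu₁⟩ := hcrt xv
  have huv : ∀ w ∈ S, DlgVal w ((r₁ u : Eˣ) : E) (xs w) ∧ DlgVal w ((r₂ u : Eˣ) : E) (xs w) ∧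
      DlgVal w ((r₃ u : Eˣ) : E) (xs w) := by
    intro w hw
    obtain ⟨c, -, h1, h2, h3⟩ := hcont u hu w hw
    have h4 := hu₁ w hw
    rw [hxv w hw] at h4
    have hc : c = xs w := h1.unique h4
    rw [hc] at h1 h2 h3
    exact ⟨h1, h2, h3⟩
  -- `b = u s`
  set b : ↥U := u * s with hb
  -- the coefficients
  let C₁ : E₀ := (LinearMap.mulLeft E₀ (((r₁ u : Eˣ) : E) * σ₁)).charpoly.coeff (d - k)
  let C₂ : E₀ := (LinearMap.mulLeft E₀ (((r₂ u : Eˣ) : E) * σ₂)).charpoly.coeff (d - k)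
  let C₃ : E₀ := (LinearMap.mulLeft E₀ (((r₃ u : Eˣ) : E) * σ₃)).charpoly.coeff (d - k)
  have hC₁ : ∀ w ∈ S, ∃ c : 𝕜, c ≠ 0 ∧ DlgVal (w.restrictAlong φ hφ) C₁ c :=
    hxs 0 _ (fun w hw => (huv w hw).1)
  have hC₂ : ∀ w ∈ S, ∃ c : 𝕜, c ≠ 0 ∧ DlgVal (w.restrictAlong φ hφ) C₂ c :=
    hxs 1 _ (fun w hw => (huv w hw).2.1)
  have hC₃ : ∀ w ∈ S, ∃ c : 𝕜, c ≠ 0 ∧ DlgVal (w.restrictAlong φ hφ) C₃ c :=
    hxs 2 _ (fun w hw => (huv w hw).2.2)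
  -- scaling
  have hsc : ∀ (t : E₀ˣ) (r : ↥U →* Eˣ),
      (LinearMap.mulLeft E₀ (((r u : Eˣ) : E) * (φ ((t : E₀ˣ) : E₀) * ((r s : Eˣ) : E)))).charpoly.coeff
        (d - k) = ((t : E₀ˣ) : E₀) ^ k *
        (LinearMap.mulLeft E₀ ((r b : Eˣ) : E)).charpoly.coeff (d - k) := by
    intro t r
    have h1 : ((r u : Eˣ) : E) * (φ ((t : E₀ˣ) : E₀) * ((r s : Eˣ) : E)) =
        algebraMap E₀ E ((t : E₀ˣ) : E₀) * ((r b : Eˣ) : E) := by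
      rw [hb, map_mul, Units.val_mul]
      show _ = φ ((t : E₀ˣ) : E₀) * _
      ring
    rw [h1]
    exact mltj_charpoly_mulLeft_scale ((t : E₀ˣ) : E₀) ((r b : Eˣ) : E) k hkd
  have hne : ∀ (C : E₀), (∀ w ∈ S, ∃ c : 𝕜, c ≠ 0 ∧ DlgVal (w.restrictAlong φ hφ) C c) → C ≠ 0 := by
    intro C hC h0
    obtain ⟨c, hc0, hc⟩ := hC Pl₀ hPl₀
    rw [h0] at hc
    exact hc0 (hc.unique (DlgVal.zero _))
  have hc₁ : (LinearMap.mulLeft E₀ ((r₁ b : Eˣ) : E)).charpoly.coeff (d - k) ≠ 0 := by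
    intro h0
    apply hne C₁ hC₁
    show (LinearMap.mulLeft E₀ (((r₁ u : Eˣ) : E) * σ₁)).charpoly.coeff (d - k) = 0
    rw [hsc t₁ r₁, h0, mul_zero]
  have hc₂ : (LinearMap.mulLeft E₀ ((r₂ b : Eˣ) : E)).charpoly.coeff (d - k) ≠ 0 := by
    intro h0
    apply hne C₂ hC₂
    show (LinearMap.mulLeft E₀ (((r₂ u : Eˣ) : E) * σ₂)).charpoly.coeff (d - k) = 0
    rw [hsc t₂ r₂, h0, mul_zero]
  have hc₃ : (LinearMap.mulLeft E₀ ((r₃ b : Eˣ) : E)).charpoly.coeff (d - k) ≠ 0 := by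
    intro h0
    apply hne C₃ hC₃
    show (LinearMap.mulLeft E₀ (((r₃ u : Eˣ) : E) * σ₃)).charpoly.coeff (d - k) = 0
    rw [hsc t₃ r₃, h0, mul_zero]
  -- (S₀-γ)
  obtain ⟨ε, hε, hε₁, hε₂, hε₃⟩ := hred b (d - k) hc₁ hc₂ hc₃
  refine ⟨k, ε, hkp, ?_⟩
  set w : ↥U := AU (y₀ ^ k * ε ^ p) with hw
  -- the residue at `∞` of `y₀ ^ k ε ^ p`
  have hρ₁ : ((ρ₁ (y₀ ^ k * ε ^ p) : E₀ˣ) : E₀) = C₁ ^ p := by
    show _ = ((LinearMap.mulLeft E₀ (((r₁ u : Eˣ) : E) * σ₁)).charpoly.coeff (d - k)) ^ p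
    rw [hsc t₁ r₁, map_mul, map_pow, map_pow, Units.val_mul, Units.val_pow_eq_pow_val,
      Units.val_pow_eq_pow_val, ht₁, Units.val_pow_eq_pow_val, hε₁, mul_pow, ← pow_mul, ← pow_mul,
      mul_comm p k]
  -- `w` lies in all the valuation rings through the triple points
  have hwcoe : (((w : Fˣ)) : F) = A (((LinearMap.mulLeft F₀ (((b : Fˣ)) : F)).charpoly.coeff
      (Module.finrank F₀ F - k)) ^ p * (((y₀ : F₀ˣ)) : F₀) ^ k) := by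
    rw [hw, hAU, hdA, ← hε]
    congr 1
    rw [Subgroup.coe_mul, Units.val_mul, SubgroupClass.coe_pow, SubgroupClass.coe_pow,
      Units.val_pow_eq_pow_val, Units.val_pow_eq_pow_val, mul_comm]
  have hzb : MltjsUT P T ((((AU y₀ * b ^ p : ↥U) : Fˣ)) : F) := by
    have h1 : AU y₀ * b ^ p = z * u ^ p := by
      rw [hz, hb, mul_pow]
      rw [mul_assoc, mul_comm (u ^ p) (s ^ p), ← mul_assoc]
    rw [h1, Subgroup.coe_mul, Units.val_mul, SubgroupClass.coe_pow, Units.val_pow_eq_pow_val]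
    exact hs.mul (hu.pow p)
  have hwmem : ∀ 𝔫 : Ideal ↥P.B, T 𝔫 → ∀ V ∈ P.through 𝔫, (((w : Fˣ)) : F) ∈ V := by
    intro 𝔫 h𝔫 V hV
    obtain ⟨v1, v2, v3⟩ := hvert w
    by_cases h1 : V = O₁
    · rw [h1, ← ValuationSubring.valuation_le_one_iff, v1]
    by_cases h2 : V = O₂
    · rw [h2, ← ValuationSubring.valuation_le_one_iff, v2]
    by_cases h3 : V = O₃
    · rw [h3, ← ValuationSubring.valuation_le_one_iff, v3]
    rw [hwcoe]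
    exact hval y₀ b hzb k (by rw [hdA]; exact hkd) 𝔫 h𝔫 V hV h1 h2 h3
  -- (S₀-α)
  refine hloc w hwmem ?_
  intro Pl hPl
  obtain ⟨c, hc0, hc⟩ := hC₁ Pl hPl
  refine ⟨c ^ p, pow_ne_zero p hc0, ?_⟩
  rw [hw, hr₁, hρ₁, map_pow]
  exact mltjs_dlgVal_pow (mltjs_dlgVal_along φ hφ Pl hc) p

end Main

end Fermat.Agent.MLT
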