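/-
MLT / [L2-JL], case (γ) (helper3): **the final assembly of the two-level strip (S₀)** = `MltjStripTwoAt`
(`Contracts/L2Two.lean`), from the contracts (STRIP) at the level `K₀ e`, (S₀-γ), (S₀-β), (S₀-α), (CRT), the
saturation of the supersingular places (`MltjSatAt`, lead's `Two/Sat.lean`) and `𝔓.p = 2`, along the six steps of
h9-m1638.  The algebra is in `StripTwoAbs.lean` (`mltjs_stripTwo_abs`); here are the inertia-level inputs: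

* `mltjs_mem_tWsub_map`     : the Kummer condition over `L` passes along an integral `L`-homomorphism of levels;
* `mltjs_A_integral`        : `A = mltl2hA L K₀ q e` is integral;
* `mltjs_separable_alphaC`  : `F̄_{K₀ e} / ᾱ F̄_{K₀}` is separable (any `e ≥ 1`);
* `mltjs_SS_nonempty`       : a triple point gives a supersingular place;
* `mltjs_cont`              : continuity at all supersingular places for a unit at the triple points;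
* **`mltj_stripTwo`**       : `MltjStripTwoAt 𝔓 K₀ e hK₀ hK hζ p hp0 hpq`.
-/
import Mathlib
import Fermat.Agent.Lib.MLT.Contracts.L2Two
import Fermat.Agent.Lib.MLT.L2.Two.Sat
import Fermat.Agent.Lib.MLT.L2.Two.StripTwoAbs
import Fermat.Agent.Lib.MLT.L2.Two.CharpolyFixP
import Fermat.Agent.Lib.MLT.L2.P4.RegTriple

set_option autoImplicit false
set_option linter.unusedSectionVars false
set_option linter.unusedVariables false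
set_option linter.style.haveILetI false
set_option synthInstance.maxHeartbeats 400000

open HahnSeries ModularCurve AlgebraicCurve Fermat.Agent.T1 Fermat.Agent.T2 IntermediateField
  Fermat.Agent.Curve Fermat.Agent.Curve.PlaceAux Fermat.Agent.TW Fermat.Agent.S05Lib Fermat.Agent.T4
  Fermat.Agent.Delta Fermat.Agent.Mazur

noncomputable section

namespace Fermat.Agent.MLT

local notation "Qb" => AlgebraicClosure ℚ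

attribute [local instance] t2i_dvr t2i_isAlgClosed t2i_charP t2i_fact t2iAlgebra t2i_isScalarTower
attribute [local instance 5000] dlhAlgK

/-! ### The Kummer condition along a homomorphism of levels -/

section Gen

variable {k : Type*} [Field k] [Algebra ℚ k] {N M : ℕ}

theorem mltjs_mem_tWsub_map (m : ℕ)
    (φ : ↥(laurentBaseChange k (modularFunctionFieldFull N)) →ₐ[k]
      ↥(laurentBaseChange k (modularFunctionFieldFull M)))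
    (hφ : φ.toRingHom.IsIntegral) {y : (↥(laurentBaseChange k (modularFunctionFieldFull N)))ˣ}
    (hy : y ∈ tWsub k N m) :
    Units.map (φ : ↥(laurentBaseChange k (modularFunctionFieldFull N)) →*
      ↥(laurentBaseChange k (modularFunctionFieldFull M))) y ∈ tWsub k M m := by
  intro P
  show (m : ℤ) ∣ P.ord (φ (y : ↥(laurentBaseChange k (modularFunctionFieldFull N))))
  rw [Place.ord_restrictAlong φ hφ P]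
  exact Dvd.dvd.mul_left (hy _) _

end Gen

/-! ### One level -/

section One

variable (𝔓 : FFPlace) (K : ℕ) [NeZero K] (hK : ¬ 𝔓.p ∣ K) {ζ : Qb}
  (hζ : IsPrimitiveRoot ζ 𝔓.p) (h49 : 4 ∣ K ∨ 9 ∣ K)
  (p : ℕ) (hp0 : p ≠ 0) (hpq : Nat.Coprime p 𝔓.p)

/-- a triple point gives a supersingular place -/
theorem mltjs_SS_nonempty (h : ∃ 𝔫, MltJ4TriplePt 𝔓 K hK hζ 𝔫) :
    (mltjSS 𝔓 K hK h49).Nonempty := by
  obtain ⟨𝔫, h𝔫⟩ := h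
  obtain ⟨Pl, hPl⟩ := mltj4_exists_placeOf 𝔓 K hK hζ h49 h𝔫
  exact ⟨Pl, (mltj4_SS_iff 𝔓 K hK hζ h49 Pl).mpr ⟨𝔫, h𝔫, hPl⟩⟩

/-- continuity at the supersingular places -/
theorem mltjs_cont (y : ↥(t4niAFix 𝔓 K hK hζ p).U)
    (hy : MltjUnitAtTriple 𝔓 K hK hζ
      (((y : (↥(tbLevF 𝔓 (K * 𝔓.p * 𝔓.p) ⊤))ˣ)) : ↥(tbLevF 𝔓 (K * 𝔓.p * 𝔓.p) ⊤)))
    (Pl : Place (IsLocalRing.ResidueField ↥𝔓.P) ↥(tbBarF 𝔓 K)) (hPl : Pl ∈ mltjSS 𝔓 K hK h49) :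
    ∃ c : IsLocalRing.ResidueField ↥𝔓.P, c ≠ 0 ∧
      DlgVal Pl (((t4niBFix 𝔓 K hK hζ p hp0 hpq).rinf y : (↥(tbBarF 𝔓 K))ˣ) : ↥(tbBarF 𝔓 K)) c ∧
      DlgVal Pl (((t4niBFix 𝔓 K hK hζ p hp0 hpq).rmid y : (↥(tbBarF 𝔓 K))ˣ) : ↥(tbBarF 𝔓 K)) c ∧
      DlgVal Pl (((t4niBFix 𝔓 K hK hζ p hp0 hpq).r0 y : (↥(tbBarF 𝔓 K))ˣ) : ↥(tbBarF 𝔓 K)) c := by
  have H := (mltj4_SS_iff 𝔓 K hK hζ h49 Pl).mp hPl
  obtain ⟨𝔫, h𝔫, hp⟩ := H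
  exact mltj4_continuity_fix 𝔓 K hK hζ h49 hp0 hpq h𝔫 hp y (hy 𝔫 h𝔫)

end One

/-! ### Two levels -/

section Two

variable (𝔓 : FFPlace) (K₀ e : ℕ) [NeZero K₀] [NeZero e] (hK₀ : ¬ 𝔓.p ∣ K₀) (hK : ¬ 𝔓.p ∣ K₀ * e)
  {ζ : Qb} (hζ : IsPrimitiveRoot ζ 𝔓.p) (h49 : 4 ∣ K₀ * e ∨ 9 ∣ K₀ * e)
  (p : ℕ) (hp0 : p ≠ 0) (hpq : Nat.Coprime p 𝔓.p)

include hK₀ hK hζ in
/-- `A` is integral -/
theorem mltjs_A_integral :
    (mltl2hA ↥(tbFix 𝔓 (⊤ : Subgroup 𝔓.I)) K₀ 𝔓.p e).toRingHom.IsIntegral := by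
  letI := (mltl2hA ↥(tbFix 𝔓 (⊤ : Subgroup 𝔓.I)) K₀ 𝔓.p e).toRingHom.toAlgebra
  haveI := mltc_finite_A_fix 𝔓 K₀ e hK₀ hK hζ
  intro x
  exact Algebra.IsIntegral.isIntegral (R := ↥(tbLevF 𝔓 (K₀ * 𝔓.p * 𝔓.p) ⊤)) x

include hK in
/-- `F̄_{K₀ e} / ᾱ F̄_{K₀}` is separable -/
theorem mltjs_separable_alphaC :
    @Algebra.IsSeparable ↥(tbBarF 𝔓 K₀) ↥(tbBarF 𝔓 (K₀ * e)) _ _
      (algebraAlong (dlhAlphaC (IsLocalRing.ResidueField ↥𝔓.P) K₀ e)) := by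
  have hsep := tbq_bar_isSeparable (𝔓 := 𝔓) (N := K₀ * e) hK
  rw [← dlh_alpha_barJ 𝔓 K₀ e] at hsep
  haveI := hsep
  exact dlh_separable_tower (dlhAlphaC (IsLocalRing.ResidueField ↥𝔓.P) K₀ e) (tbBarJ 𝔓 K₀)

set_option maxHeartbeats 1600000 in
include h49 in
/-- **(S₀) the two-level strip**, from the contracts -/
theorem mltj_stripTwo (hq2 : 𝔓.p = 2)
    (hstrip : MltjStripAt 𝔓 (K₀ * e) hK hζ p)
    (hred : MltjCharRedAt 𝔓 K₀ e hK₀ hK hζ p hp0 hpq)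
    (hval : MltjCharValAt 𝔓 K₀ e hK₀ hK hζ p)
    (hloc : MltjUnitOfLocAt 𝔓 (K₀ * e) hK hζ h49 p hp0 hpq)
    (hcrt : MltjCrtAt 𝔓 (K₀ * e) hK hζ h49 p hp0 hpq)
    (hsat : MltjSatAt 𝔓 K₀ e hK h49) :
    MltjStripTwoAt 𝔓 K₀ e hK₀ hK hζ p hp0 hpq := by
  intro y₀ hyL hAb
  obtain ⟨⟨t₁, ht₁⟩, ⟨t₂, ht₂⟩, ⟨t₃, ht₃⟩⟩ := hAb
  haveI hchar : CharP (IsLocalRing.ResidueField ↥𝔓.P) 2 := hq2 ▸ t2i_charP 𝔓
  haveI := mzr5i_hasPrincipalDivisors 𝔓 (K₀ * e) hK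
  have hp2 : Nat.Coprime 2 p := by
    rw [← hq2]
    exact hpq.symm
  have hAint := mltjs_A_integral 𝔓 K₀ e hK₀ hK hζ
  have hfinA := mltc_finite_A_fix 𝔓 K₀ e hK₀ hK hζ
  have hfinα := mltc_finite_alphaC_fix 𝔓 K₀ e hK₀ hK
  have hstrip' := hstrip (mltjAU 𝔓 K₀ e hK₀ hK hζ p y₀) (mltjs_mem_tWsub_map p _ hAint hyL)
  exact mltjs_stripTwo_abs (mltl2hA ↥(tbFix 𝔓 (⊤ : Subgroup 𝔓.I)) K₀ 𝔓.p e)
    (dlhAlphaC (IsLocalRing.ResidueField ↥𝔓.P) K₀ e)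
    (tbq_bar_isFunctionFieldGen 𝔓 K₀) (tbq_bar_isFunctionFieldGen 𝔓 (K₀ * e))
    (mzr5i_alphaC_integral 𝔓 K₀ e) (mltjs_separable_alphaC 𝔓 K₀ e hK) hfinA hfinα
    (mltc_finrank_A_eq_fix 𝔓 K₀ e hK₀ hK hζ)
    (t4niAFix 𝔓 K₀ hK₀ hζ p).U (t4niAFix 𝔓 (K₀ * e) hK hζ p).U (mltjAU 𝔓 K₀ e hK₀ hK hζ p)
    (fun y => rfl)
    (t4niBFix 𝔓 K₀ hK₀ hζ p hp0 hpq).rinf (t4niBFix 𝔓 K₀ hK₀ hζ p hp0 hpq).rmid
    (t4niBFix 𝔓 K₀ hK₀ hζ p hp0 hpq).r0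
    (t4niBFix 𝔓 (K₀ * e) hK hζ p hp0 hpq).rinf (t4niBFix 𝔓 (K₀ * e) hK hζ p hp0 hpq).rmid
    (t4niBFix 𝔓 (K₀ * e) hK hζ p hp0 hpq).r0
    (mltj5_rinf_A 𝔓 K₀ e hK₀ hK hζ p hp0 hpq) (mltj5_rmid_A 𝔓 K₀ e hK₀ hK hζ p hp0 hpq)
    (mltj5_r0_A 𝔓 K₀ e hK₀ hK hζ p hp0 hpq)
    (t4vyPFix 𝔓 (K₀ * e) hK hζ) (MltJ4TriplePt 𝔓 (K₀ * e) hK hζ)
    (t4vOinfFix 𝔓 (K₀ * e)) (t4vOmidFix 𝔓 (K₀ * e) hK hζ) (t4vO0Fix 𝔓 (K₀ * e) hK)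
    (mltjSS 𝔓 (K₀ * e) hK h49) hsat (mltjs_SS_nonempty 𝔓 (K₀ * e) hK hζ h49) p hp0 hp2
    (mltjs_cont 𝔓 (K₀ * e) hK hζ h49 p hp0 hpq) hcrt (hred hfinA hfinα) (hval hfinA) hloc
    (fun w => mltj4_val_one_of_mem_U 𝔓 (K₀ * e) hK hζ w.2)
    y₀ t₁ t₂ t₃ ht₁ ht₂ ht₃ hstrip'

end Two

end Fermat.Agent.MLT
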