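/-
MLT (project S59) / [L2-JL], case (γ), **(S₀-α)** at helper9's exact literal (helper6):
`mltc_unitOfLocAt : MltjUnitOfLocAt 𝔓 K hK hζ h49 p hp0 hpq` (literal of `Contracts/L2Two.lean`): `w ∈ D.U` which
lies in all the valuation rings through the triple points and whose residue `rinf w` has a non-zero value at every
supersingular place is a unit at the triple points.
From `mltc_unit_of_loc_gen` (`L2/Two/CrtGen.lean`) + helper5's `mltj4_exists_placeOf`, `mltj4_SS_of_triple`.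
-/
import Mathlib
import Fermat.Agent.Lib.MLT.Contracts.L2Two
import Fermat.Agent.Lib.MLT.L2.Two.CrtGen
import Fermat.Agent.Lib.MLT.L2.P4.Ident

set_option autoImplicit false
set_option linter.unusedSectionVars false
set_option linter.unusedVariables false
set_option linter.style.haveILetI false
set_option synthInstance.maxHeartbeats 400000

open HahnSeries ModularCurve AlgebraicCurve Fermat.Agent.T1 Fermat.Agent.T2 IntermediateField
  Fermat.Agent.Curve Fermat.Agent.Curve.PlaceAux Fermat.Agent.TW Fermat.Agent.S05Lib Fermat.Agent.T4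
  Fermat.Agent.Delta

noncomputable section

namespace Fermat.Agent.MLT

local notation "Qb" => AlgebraicClosure ℚ

attribute [local instance] t2i_dvr t2i_isAlgClosed t2i_charP t2i_fact t2iAlgebra t2i_isScalarTower

/-- **(S₀-α)** at the literal `MltjUnitOfLocAt` of `Contracts/L2Two.lean` -/
theorem mltc_unitOfLocAt (𝔓 : FFPlace) (K : ℕ) [NeZero K] (hK : ¬ 𝔓.p ∣ K) {ζ : Qb}
    (hζ : IsPrimitiveRoot ζ 𝔓.p) (h49 : 4 ∣ K ∨ 9 ∣ K) (p : ℕ) (hp0 : p ≠ 0)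
    (hpq : Nat.Coprime p 𝔓.p) : MltjUnitOfLocAt 𝔓 K hK hζ h49 p hp0 hpq := by
  intro w hloc hval 𝔫 h𝔫 V hV
  letI := t4cyAlgebra 𝔓 (le_top : t4cyH 𝔓 ζ ≤ ⊤)
  haveI := h𝔫.1
  haveI := mltj4_fix_gen 𝔓 K
  haveI := mltj4_fix_sep 𝔓 K hK
  obtain ⟨Pl, hp⟩ := mltj4_exists_placeOf 𝔓 K hK hζ h49 h𝔫
  have hSS := mltj4_SS_of_triple 𝔓 K hK hζ h49 h𝔫 hp
  obtain ⟨c, hc, hv⟩ := hval Pl hSS
  exact mltc_unit_of_loc_gen (t2iALFix 𝔓 ⊤ K hK) (t4iALFix 𝔓 ⊤ K hK)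
    (t4cy_irreducible_p 𝔓) (tbFixO 𝔓 (t4cyH 𝔓 ζ)) (tbFixRes 𝔓 (t4cyH 𝔓 ζ)) (t4iCycFix 𝔓 hζ)
    (t4vMidFix 𝔓 K hK hζ) (mltj4_fix_good 𝔓 K hK h49) (t4vyPFix 𝔓 K hK hζ)
    (mltj4_fix_hB 𝔓 K hK hζ) (mltj4_fix_hz 𝔓 K hK h49) (m := p) hp0 hpq h𝔫.2.1 hp w
    (hloc 𝔫 h𝔫) hc hv V hV

end Fermat.Agent.MLT
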